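import Mathlib

/-!
# FF19 / Law : the group law in coordinates (blocks L, N, SQUEEZE of the route FF19; architect helper90)

ABSTRACT SETTING (Mathlib only; design decision #2683: everything over `(K, A)`, NO Galois action here).
`K` a field (`= ℚ̄`), `A` a valuation subring of rank one (`Arch A`), `𝔪 = A.nonunits`.
`J` an abelian group (`= J₀(M)(ℚ̄)`), `J1` a subgroup (`=` kernel of reduction).

TWO coordinate systems `t t' : Fin g → J → K` on `J1`, attached to two DISJOINT non-special reduced divisors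
`D₀ = ∑ P_i⁰`, `D₀' = ∑ Q_i⁰` (all `2 g` values of the chart function distinct mod `𝔪`, unramified fibres):
`D_z = ∑ P_i(z) ∼ z + D₀`, `t i z = τ_i (P_i(z))`;  `D'_z = ∑ Q_i(z) ∼ z + D₀'`, `t' i z = τ'_i (Q_i(z))`.
Using `D_z + D'_{z'} - D₀' ∼ (z + z') + D₀` no multiplicities ever occur.

`LawFacts` is THE CONTRACT: what the geometric blocks (G0, NS, A, N) deliver;
`LawConcl` is the output: `t i (z + z')` is a polynomial over `A` in `t j z`, `t' j z'` on finite sets.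
`Coord` is the contract with the block R (order).
-/

set_option autoImplicit false

noncomputable section

namespace Fermat.Agent.FF19.Law

open Polynomial

variable {K : Type} [Field K] (A : ValuationSubring K)

/-- `A` has rank one: powers of a non-unit are eventually divisible by any nonzero element. -/
def Arch : Prop :=
  ∀ c ∈ A.nonunits, ∀ d : K, d ≠ 0 → ∃ m : ℕ, ∃ a ∈ A, c ^ m = d * a

/-- a local `A`-algebra of functions on `X` with the residue field of `A`. -/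
structure IsFun {X : Type} (𝒪 : Subalgebra A (X → K)) : Prop where
  loc : ∀ φ ∈ 𝒪, ∃ c ∈ A, ∀ x, φ x - c ∈ A.nonunits
  unit : ∀ φ ∈ 𝒪, (∀ x, φ x ∉ A.nonunits) → ∃ ψ ∈ 𝒪, φ * ψ = 1

variable {J : Type} [AddCommGroup J]

/-- on every finite subset of `J1` the function `f` is a polynomial over `A` in `τ`. -/
def PolyIn (J1 : AddSubgroup J) (τ f : J → K) : Prop :=
  ∀ S : Finset J, (∀ z ∈ S, z ∈ J1) → ∃ W : (A)[X], ∀ z ∈ S, f z = aeval (τ z) W

/-- **THE CONTRACT** of the block LAW.  Dictionary (`b_1 .. b_N` an `A`-basis of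
`L_A(2 g (t)_∞ - D₀')` with independent reductions, `a⁰ = ∏ (t - c_i⁰) ∏ (t - c_i'⁰) = ∑ α_j b_j`,
`s = n - 1`, `n = [F : K(t)]`):
* `E1 i l j z  = b_j (P)`, `P` = the point of the fibre of the chart function through `P_i(z)` in the
  `l`-th OTHER residue disc;  `E2 i l j z'` = the same for `Q_i(z')`;
* `M i j w = b_j (P_i(w))`, `V i w = (a⁰ / τ_i) (P_i(w))`. -/
structure LawFacts (J1 : AddSubgroup J) (g : ℕ) (t t' : Fin g → J → K) (N s : ℕ) (α : Fin N → K)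
    (E1 E2 : Fin g → Fin s → Fin N → J → K) (M : Fin g → Fin N → J → K) (V : Fin g → J → K) :
    Prop where
  t_small : ∀ i, ∀ z ∈ J1, t i z ∈ A.nonunits
  t'_small : ∀ i, ∀ z ∈ J1, t' i z ∈ A.nonunits
  alpha_mem : ∀ j, α j ∈ A
  alpha_unit : ∃ j₀, α j₀ ∉ A.nonunits
  /-- (N2) at the other points of the fibres -/
  polyE1 : ∀ i l j, PolyIn A J1 (t i) (E1 i l j)
  polyE2 : ∀ i l j, PolyIn A J1 (t' i) (E2 i l j)
  /-- (N2) at `P̄_i` -/
  polyM : ∀ i j, PolyIn A J1 (t i) (M i j)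
  polyV : ∀ i, PolyIn A J1 (t i) (V i)
  V_unit : ∀ i, ∀ w ∈ J1, V i w ∉ A.nonunits
  /-- `a⁰ = τ_i * (a⁰ / τ_i)` evaluated at `P_i(w)` -/
  rel : ∀ i, ∀ w ∈ J1, ∑ j, α j * M i j w = t i w * V i w
  /-- Riemann: `L(D_z + D'_{z'} - D₀') ≠ 0` -/
  geo1 : ∀ z ∈ J1, ∀ z' ∈ J1, ∃ γ : Fin N → K, γ ≠ 0 ∧
    (∀ i l, ∑ j, γ j * E1 i l j z = 0) ∧ (∀ i l, ∑ j, γ j * E2 i l j z' = 0)
  /-- uniqueness of `D_{z + z'}` -/
  geo2 : ∀ z ∈ J1, ∀ z' ∈ J1, ∀ γ : Fin N → K, γ ≠ 0 →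
    (∀ i l, ∑ j, γ j * E1 i l j z = 0) → (∀ i l, ∑ j, γ j * E2 i l j z' = 0) →
    ∀ i, ∑ j, γ j * M i j (z + z') = 0
  /-- `L̄(D̄₀) = k` -/
  geo3 : ∀ β : Fin N → K, (∀ j, β j ∈ A) →
    (∀ i l, ∑ j, β j * E1 i l j 0 ∈ A.nonunits) → (∀ i l, ∑ j, β j * E2 i l j 0 ∈ A.nonunits) →
    ∃ c ∈ A, ∀ j, β j - c * α j ∈ A.nonunits

/-- **OUTPUT** of the block LAW. -/
def LawConcl (J1 : AddSubgroup J) (g : ℕ) (t t' : Fin g → J → K) : Prop :=
  ∀ S S' : Finset J, (∀ z ∈ S, z ∈ J1) → (∀ z ∈ S', z ∈ J1) → ∀ i,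
    ∃ Ψ : MvPolynomial (Fin g ⊕ Fin g) A, ∀ z ∈ S, ∀ z' ∈ S',
      t i (z + z') = MvPolynomial.aeval (Sum.elim (fun j => t j z) (fun j => t' j z')) Ψ

/-- **CONTRACT WITH THE BLOCK R** : a system of coordinates `T a` (`a : ι`, `ι` finite in the application)
on `J1` in which the group law is integral. -/
structure Coord (J1 : AddSubgroup J) {ι : Type} (T : ι → J → K) : Prop where
  small : ∀ a, ∀ z ∈ J1, T a z ∈ A.nonunits
  inj : ∀ z ∈ J1, ∀ z' ∈ J1, (∀ a, T a z = T a z') → z = z'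
  law : ∀ S S' : Finset J, (∀ z ∈ S, z ∈ J1) → (∀ z ∈ S', z ∈ J1) → ∀ a,
    ∃ Ψ : MvPolynomial (ι ⊕ ι) A, ∀ z ∈ S, ∀ z' ∈ S',
      T a (z + z') = MvPolynomial.aeval (Sum.elim (fun b => T b z) (fun b => T b z')) Ψ

end Fermat.Agent.FF19.Law

end
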