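import Fermat.Agent.FF19.Law.GeoDefs

/-!
# FF19 / Law / Geo : statements of the geometric layer (architect helper90)

`Stmt_GeoCoord : Arch D.A → GeoData .. → IsCo .. T → IsCo .. T' → Law.Coord D.A (J1 sp) (Sum.elim T T')`.
Each `Stmt_` is proved in its own file `Law/G<Name>.lean`; sketches in the task specs.
-/

set_option autoImplicit false

noncomputable section

namespace Fermat.Agent.FF19.Law

open AlgebraicCurve Polynomial
open Fermat.Agent.INJ (RedData)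
open Fermat.Agent.RED (Ev)
open Fermat.Agent.FF19.A (sumPl push IsDivOf SpData CurveFacts Base InJ1 Rep IsVal)

/-- one chart: the part of the context which concerns `(w, cb, P0, c0, T)`. -/
structure Chart1 {K F k κ : Type} [Field K] [Field F] [Algebra K F] [Field k] [Field κ] [Algebra k κ]
    (D : RedData K F k κ) (sp : Place K F → Place k κ) (g s : ℕ) (t : F)
    (w : Fin g → Fin (s + 1) → Place k κ) (cb : Fin g → k) (P0 : Fin g → Place K F)
    (c0 : Fin g → K) (T : Fin g → Pic0 K F → K) : Prop where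
  t_mem : t ∈ D.O
  spd : SpData D sp
  cf : CurveFacts K F g
  fib : Fibres D sp t w cb
  base : Base sp (fun i => w i 0) P0
  v0 : IsVal t P0 c0
  co : IsCo sp (fun i => w i 0) P0 t T

/-- (FFG-1) (EVsp): a function of `W` without poles on the residue disc of `y` has values in `A` there, and
they reduce to the value of the reduction at `y`. -/
def Stmt_EvSp : Prop :=
  ∀ (K F k κ : Type) [Field K] [Field F] [Algebra K F] [Field k] [Field κ] [Algebra k κ]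
    (D : RedData K F k κ) (sp : Place K F → Place k κ) (g : ℕ), SpData D sp → CurveFacts K F g →
  ∀ (y : Place k κ) (f : F), f ∈ D.O → (∀ P : Place K F, sp P = y → f ∈ P.toValuationSubring) →
  ∀ (P : Place K F) (c : K), sp P = y → Ev P f c → c ∈ D.A ∧ Ev y (D.rd f) (D.ra c)

/-- (FFG-2) the residue disc of an unramified point: `t` is a bijection of the disc onto `c + 𝔪`. -/
def Stmt_Disc : Prop :=
  ∀ (K F k κ : Type) [Field K] [Field F] [Algebra K F] [Field k] [Field κ] [Algebra k κ]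
    (D : RedData K F k κ) (sp : Place K F → Place k κ) (g : ℕ), SpData D sp → CurveFacts K F g →
  ∀ (t : F) (y : Place k κ) (cbar : k), t ∈ D.O →
    (∀ P : Place K F, sp P = y → ∃ c ∈ D.A, Ev P t c ∧ D.ra c = cbar) →
    y.ord (D.rd t - algebraMap k κ cbar) = 1 →
  ∀ c ∈ D.A, D.ra c = cbar →
    ∃ P : Place K F, sp P = y ∧ Ev P t c ∧ P.ord (t - algebraMap K F c) = 1 ∧
      ∀ P' : Place K F, sp P' = y → Ev P' t c → P' = P

/-- (FFG-3) the divisor of `t - c` when `n = deg (t)_∞` distinct zeros are known. -/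
def Stmt_DivT : Prop :=
  ∀ (K F : Type) [Field K] [Field F] [Algebra K F] (g : ℕ), CurveFacts K F g →
  ∀ (t : F) (n : ℕ) (Einf : Divisor K F), PoleDiv t n Einf →
  ∀ (c : K) (P : Fin n → Place K F), Function.Injective P → (∀ l, Ev (P l) t c) →
    t - algebraMap K F c ≠ 0 → IsDivOf (sumPl P - Einf) (t - algebraMap K F c)

/-- (FFG-4) Lemma N2, geometric form. -/
def Stmt_N2Geo : Prop :=
  ∀ (K F k κ : Type) [Field K] [Field F] [Algebra K F] [Field k] [Field κ] [Algebra k κ]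
    (D : RedData K F k κ) (sp : Place K F → Place k κ) (g : ℕ), Arch D.A → SpData D sp →
    CurveFacts K F g →
  ∀ (t : F) (y : Place k κ) (cbar : k), t ∈ D.O →
    (∀ P : Place K F, sp P = y → ∃ c ∈ D.A, Ev P t c ∧ D.ra c = cbar) →
    y.ord (D.rd t - algebraMap k κ cbar) = 1 →
  ∀ c0 ∈ D.A, D.ra c0 = cbar →
  ∀ f ∈ D.O, (∀ P : Place K F, sp P = y → f ∈ P.toValuationSubring) →
  ∀ PP : Finset (Place K F), (∀ P ∈ PP, sp P = y) →
    ∃ W : (D.A)[X], ∀ P ∈ PP, ∀ c, Ev P t c → Ev P f (aeval (c - c0) W)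

/-- (FFG-5) functions of `L(m (t)_∞ - E')` are regular where `t` is, and vanish on `E'`. -/
def Stmt_RegB : Prop :=
  ∀ (K F : Type) [Field K] [Field F] [Algebra K F] (t : F) (n : ℕ) (Einf : Divisor K F),
    PoleDiv t n Einf →
  ∀ (m : ℤ) (E' : Divisor K F), 0 ≤ E' → ∀ f ∈ riemannRochSpace (m • Einf - E'),
  ∀ (P : Place K F) (c : K), Ev P t c → f ∈ P.toValuationSubring ∧ (0 < E' P → Ev P f 0)

/-- (FFG-6) the divisor of `∏ (t - c i) ∏ (t - c' i)`. -/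
def Stmt_DivA : Prop :=
  ∀ (K F k κ : Type) [Field K] [Field F] [Algebra K F] [Field k] [Field κ] [Algebra k κ]
    (D : RedData K F k κ) (sp : Place K F → Place k κ) (g s : ℕ) (t : F) (Einf : Divisor K F)
    (w w' : Fin g → Fin (s + 1) → Place k κ) (cb cb' : Fin g → k) (P0 Q0 : Fin g → Place K F),
    GeoData D sp g s t Einf w w' cb cb' P0 Q0 →
  ∀ (P Q : Fin g → Place K F) (c c' : Fin g → K), (∀ i, sp (P i) = w i 0) →
    (∀ i, sp (Q i) = w' i 0) → IsVal t P c → IsVal t Q c' →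
    aa t c c' ≠ 0 ∧ aa t c c' ∈ D.O ∧ D.rd (aa t c c') ≠ 0 ∧
    ∃ Oth : Divisor K F, IsDivOf (sumPl P + sumPl Q + Oth - (2 * g : ℤ) • Einf) (aa t c c') ∧
      ∀ R : Place K F, (Oth R = 0 ∨ Oth R = 1) ∧ (Oth R = 1 ↔
        ((∃ (i : Fin g) (l : Fin s), sp R = w i l.succ ∧ Ev R t (c i)) ∨
          ∃ (i : Fin g) (l : Fin s), sp R = w' i l.succ ∧ Ev R t (c' i)))

/-- (FFG-7) two-chart form of the addition in `Pic0`. -/
def Stmt_RepPrin : Prop :=
  ∀ (K F k κ : Type) [Field K] [Field F] [Algebra K F] [Field k] [Field κ] [Algebra k κ]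
    (sp : Place K F → Place k κ) (g : ℕ) (x x' : Fin g → Place k κ) (P0 Q0 : Fin g → Place K F)
    (z z' : Pic0 K F) (P Q P'' : Fin g → Place K F),
    Rep sp x P0 z P → Rep sp x' Q0 z' Q → Rep sp x P0 (z + z') P'' →
    ∃ h : F, h ≠ 0 ∧ IsDivOf (sumPl P + sumPl Q - sumPl Q0 - sumPl P'') h

/-- (FFG-8) Riemann: `a_x L(D_z + D'_{z'} - D₀') ≠ 0`. -/
def Stmt_Geo1 : Prop :=
  ∀ (K F k κ : Type) [Field K] [Field F] [Algebra K F] [Field k] [Field κ] [Algebra k κ]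
    (D : RedData K F k κ) (sp : Place K F → Place k κ) (g s : ℕ) (t : F) (Einf : Divisor K F)
    (w w' : Fin g → Fin (s + 1) → Place k κ) (cb cb' : Fin g → k) (P0 Q0 : Fin g → Place K F),
    GeoData D sp g s t Einf w w' cb cb' P0 Q0 →
  ∀ (P Q : Fin g → Place K F) (c c' : Fin g → K), (∀ i, sp (P i) = w i 0) →
    (∀ i, sp (Q i) = w' i 0) → IsVal t P c → IsVal t Q c' →
    ∃ f ∈ riemannRochSpace ((2 * g : ℤ) • Einf - sumPl Q0), f ≠ 0 ∧
      (∀ (i : Fin g) (l : Fin s) (R : Place K F), sp R = w i l.succ → Ev R t (c i) → Ev R f 0) ∧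
      (∀ (i : Fin g) (l : Fin s) (R : Place K F), sp R = w' i l.succ → Ev R t (c' i) → Ev R f 0)

/-- (FFG-9) uniqueness of `D_{z + z'}`. -/
def Stmt_Geo2 : Prop :=
  ∀ (K F k κ : Type) [Field K] [Field F] [Algebra K F] [Field k] [Field κ] [Algebra k κ]
    (D : RedData K F k κ) (sp : Place K F → Place k κ) (g s : ℕ) (t : F) (Einf : Divisor K F)
    (w w' : Fin g → Fin (s + 1) → Place k κ) (cb cb' : Fin g → k) (P0 Q0 : Fin g → Place K F),
    GeoData D sp g s t Einf w w' cb cb' P0 Q0 →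
  ∀ (z z' : Pic0 K F) (P Q P'' : Fin g → Place K F) (c c' : Fin g → K),
    Rep sp (fun i => w i 0) P0 z P → Rep sp (fun i => w' i 0) Q0 z' Q →
    Rep sp (fun i => w i 0) P0 (z + z') P'' → IsVal t P c → IsVal t Q c' →
  ∀ f ∈ riemannRochSpace ((2 * g : ℤ) • Einf - sumPl Q0), f ≠ 0 →
      (∀ (i : Fin g) (l : Fin s) (R : Place K F), sp R = w i l.succ → Ev R t (c i) → Ev R f 0) →
      (∀ (i : Fin g) (l : Fin s) (R : Place K F), sp R = w' i l.succ → Ev R t (c' i) → Ev R f 0) →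
      ∀ i, Ev (P'' i) f 0

/-- (FFG-10) `L̄(D̄₀) = k`. -/
def Stmt_Geo3 : Prop :=
  ∀ (K F k κ : Type) [Field K] [Field F] [Algebra K F] [Field k] [Field κ] [Algebra k κ]
    (D : RedData K F k κ) (sp : Place K F → Place k κ) (g s : ℕ) (t : F) (Einf : Divisor K F)
    (w w' : Fin g → Fin (s + 1) → Place k κ) (cb cb' : Fin g → k) (P0 Q0 : Fin g → Place K F),
    GeoData D sp g s t Einf w w' cb cb' P0 Q0 →
  ∀ (c0 c0' : Fin g → K), IsVal t P0 c0 → IsVal t Q0 c0' →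
  ∀ f ∈ riemannRochSpace ((2 * g : ℤ) • Einf - sumPl Q0), f ∈ D.O →
      (∀ (i : Fin g) (l : Fin s) (R : Place K F), sp R = w i l.succ → Ev R t (c0 i) →
        ∃ e ∈ D.A.nonunits, Ev R f e) →
      (∀ (i : Fin g) (l : Fin s) (R : Place K F), sp R = w' i l.succ → Ev R t (c0' i) →
        ∃ e ∈ D.A.nonunits, Ev R f e) →
      ∃ c ∈ D.A, D.rd f = algebraMap k κ (D.ra c) * D.rd (aa t c0 c0')

/-- (FFG-11) coordinates in an orthonormal basis. -/
def Stmt_LatCoord : Prop :=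
  ∀ (K F k κ : Type) [Field K] [Field F] [Algebra K F] [Field k] [Field κ] [Algebra k κ]
    (D : RedData K F k κ) (E : Divisor K F) (N : ℕ) (b : Fin N → F), IsLat D E b →
    (∀ β : Fin N → K, (∀ j, β j ∈ D.A) → (∑ j, β j • b j) ∈ D.O ∧
      D.rd (∑ j, β j • b j) = ∑ j, D.ra (β j) • D.rd (b j)) ∧
    (∀ γ : Fin N → K, (∑ j, γ j • b j) ∈ D.O → ∀ j, γ j ∈ D.A) ∧
    (∀ γ : Fin N → K, ∑ j, γ j • b j = 0 → γ = 0) ∧
    (∀ a ∈ D.A, D.ra a = 0 ↔ a ∈ D.A.nonunits)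

/-- (FFG-12) the dictionary `z ↦ P_i(z) ↦ T i z`, one chart. -/
def Stmt_Pt : Prop :=
  ∀ (K F k κ : Type) [Field K] [Field F] [Algebra K F] [Field k] [Field κ] [Algebra k κ]
    (D : RedData K F k κ) (sp : Place K F → Place k κ) (g s : ℕ) (t : F)
    (w : Fin g → Fin (s + 1) → Place k κ) (cb : Fin g → k) (P0 : Fin g → Place K F)
    (c0 : Fin g → K) (T : Fin g → Pic0 K F → K), Chart1 D sp g s t w cb P0 c0 T →
    (∀ z ∈ J1 sp, ∃ P : Fin g → Place K F, Rep sp (fun i => w i 0) P0 z P ∧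
      ∀ i, Ev (P i) t (T i z + c0 i) ∧ pt sp t (w i 0) (T i z + c0 i) (P0 i) = P i) ∧
    (∀ z ∈ J1 sp, ∀ i, T i z ∈ D.A.nonunits ∧ T i z + c0 i ∈ D.A ∧ D.ra (T i z + c0 i) = cb i) ∧
    (∀ z ∈ J1 sp, ∀ i l, sp (pt sp t (w i l) (T i z + c0 i) (P0 i)) = w i l ∧
      Ev (pt sp t (w i l) (T i z + c0 i) (P0 i)) t (T i z + c0 i)) ∧
    (∀ i, T i 0 = 0) ∧ (∀ i, c0 i ∈ D.A ∧ D.ra (c0 i) = cb i) ∧
    (∀ z ∈ J1 sp, ∀ z' ∈ J1 sp, (∀ i, T i z = T i z') → z = z')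

/-- (FFG-13) (N2) for the functions `EE`, one chart. -/
def Stmt_PolyEE : Prop :=
  ∀ (K F k κ : Type) [Field K] [Field F] [Algebra K F] [Field k] [Field κ] [Algebra k κ]
    (D : RedData K F k κ) (sp : Place K F → Place k κ) (g s : ℕ) (t : F)
    (w : Fin g → Fin (s + 1) → Place k κ) (cb : Fin g → k) (P0 : Fin g → Place K F)
    (c0 : Fin g → K) (T : Fin g → Pic0 K F → K), Arch D.A → Chart1 D sp g s t w cb P0 c0 T →
  ∀ (N : ℕ) (b : Fin N → F), (∀ j, b j ∈ D.O) →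
    (∀ i l (P : Place K F), sp P = w i l → ∀ j, b j ∈ P.toValuationSubring) →
    (∀ i l j, PolyIn D.A (J1 sp) (T i) (EE sp t w P0 c0 T b i l j)) ∧
    (∀ z ∈ J1 sp, ∀ i l j,
      Ev (pt sp t (w i l) (T i z + c0 i) (P0 i)) (b j) (EE sp t w P0 c0 T b i l j z))

/-- (FFG-14) the elementary fields of `LawFacts`. -/
def Stmt_FactsA : Prop :=
  ∀ (K F k κ : Type) [Field K] [Field F] [Algebra K F] [Field k] [Field κ] [Algebra k κ]
    (D : RedData K F k κ) (sp : Place K F → Place k κ) (g s : ℕ) (t : F) (Einf : Divisor K F)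
    (w w' : Fin g → Fin (s + 1) → Place k κ) (cb cb' : Fin g → k) (P0 Q0 : Fin g → Place K F)
    (c0 c0' : Fin g → K) (T T' : Fin g → Pic0 K F → K) (N : ℕ) (b : Fin N → F) (α : Fin N → K),
    Ctx D sp g s t Einf w w' cb cb' P0 Q0 c0 c0' T T' N b α →
    (∀ j, α j ∈ D.A) ∧ (∃ j₀, α j₀ ∉ D.A.nonunits) ∧
    (∀ i, PolyIn D.A (J1 sp) (T i) (VV c0 c0' T i)) ∧
    (∀ i, ∀ z ∈ J1 sp, VV c0 c0' T i z ∉ D.A.nonunits) ∧
    (∀ i, ∀ z ∈ J1 sp, ∑ j, α j * EE sp t w P0 c0 T b i 0 j z = T i z * VV c0 c0' T i z)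

/-- (FFG-15) the field `geo1`. -/
def Stmt_FactsG1 : Prop :=
  ∀ (K F k κ : Type) [Field K] [Field F] [Algebra K F] [Field k] [Field κ] [Algebra k κ]
    (D : RedData K F k κ) (sp : Place K F → Place k κ) (g s : ℕ) (t : F) (Einf : Divisor K F)
    (w w' : Fin g → Fin (s + 1) → Place k κ) (cb cb' : Fin g → k) (P0 Q0 : Fin g → Place K F)
    (c0 c0' : Fin g → K) (T T' : Fin g → Pic0 K F → K) (N : ℕ) (b : Fin N → F) (α : Fin N → K),
    Ctx D sp g s t Einf w w' cb cb' P0 Q0 c0 c0' T T' N b α →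
    ∀ z ∈ J1 sp, ∀ z' ∈ J1 sp, ∃ γ : Fin N → K, γ ≠ 0 ∧
      (∀ (i : Fin g) (l : Fin s), ∑ j, γ j * EE sp t w P0 c0 T b i l.succ j z = 0) ∧
      (∀ (i : Fin g) (l : Fin s), ∑ j, γ j * EE sp t w' Q0 c0' T' b i l.succ j z' = 0)

/-- (FFG-16) the field `geo2`. -/
def Stmt_FactsG2 : Prop :=
  ∀ (K F k κ : Type) [Field K] [Field F] [Algebra K F] [Field k] [Field κ] [Algebra k κ]
    (D : RedData K F k κ) (sp : Place K F → Place k κ) (g s : ℕ) (t : F) (Einf : Divisor K F)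
    (w w' : Fin g → Fin (s + 1) → Place k κ) (cb cb' : Fin g → k) (P0 Q0 : Fin g → Place K F)
    (c0 c0' : Fin g → K) (T T' : Fin g → Pic0 K F → K) (N : ℕ) (b : Fin N → F) (α : Fin N → K),
    Ctx D sp g s t Einf w w' cb cb' P0 Q0 c0 c0' T T' N b α →
    ∀ z ∈ J1 sp, ∀ z' ∈ J1 sp, ∀ γ : Fin N → K, γ ≠ 0 →
      (∀ (i : Fin g) (l : Fin s), ∑ j, γ j * EE sp t w P0 c0 T b i l.succ j z = 0) →
      (∀ (i : Fin g) (l : Fin s), ∑ j, γ j * EE sp t w' Q0 c0' T' b i l.succ j z' = 0) →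
      ∀ i, ∑ j, γ j * EE sp t w P0 c0 T b i 0 j (z + z') = 0

/-- (FFG-17) the field `geo3`. -/
def Stmt_FactsG3 : Prop :=
  ∀ (K F k κ : Type) [Field K] [Field F] [Algebra K F] [Field k] [Field κ] [Algebra k κ]
    (D : RedData K F k κ) (sp : Place K F → Place k κ) (g s : ℕ) (t : F) (Einf : Divisor K F)
    (w w' : Fin g → Fin (s + 1) → Place k κ) (cb cb' : Fin g → k) (P0 Q0 : Fin g → Place K F)
    (c0 c0' : Fin g → K) (T T' : Fin g → Pic0 K F → K) (N : ℕ) (b : Fin N → F) (α : Fin N → K),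
    Ctx D sp g s t Einf w w' cb cb' P0 Q0 c0 c0' T T' N b α →
    ∀ β : Fin N → K, (∀ j, β j ∈ D.A) →
      (∀ (i : Fin g) (l : Fin s), ∑ j, β j * EE sp t w P0 c0 T b i l.succ j 0 ∈ D.A.nonunits) →
      (∀ (i : Fin g) (l : Fin s), ∑ j, β j * EE sp t w' Q0 c0' T' b i l.succ j 0 ∈ D.A.nonunits) →
      ∃ c ∈ D.A, ∀ j, β j - c * α j ∈ D.A.nonunits

/-- (FFG-18) **the contract `LawFacts` holds.** -/
def Stmt_Facts : Prop :=
  ∀ (K F k κ : Type) [Field K] [Field F] [Algebra K F] [Field k] [Field κ] [Algebra k κ]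
    (D : RedData K F k κ) (sp : Place K F → Place k κ) (g s : ℕ) (t : F) (Einf : Divisor K F)
    (w w' : Fin g → Fin (s + 1) → Place k κ) (cb cb' : Fin g → k) (P0 Q0 : Fin g → Place K F)
    (c0 c0' : Fin g → K) (T T' : Fin g → Pic0 K F → K) (N : ℕ) (b : Fin N → F) (α : Fin N → K),
    Ctx D sp g s t Einf w w' cb cb' P0 Q0 c0 c0' T T' N b α →
    LawFacts D.A (J1 sp) g T T' N s α (fun i l j => EE sp t w P0 c0 T b i l.succ j)
      (fun i l j => EE sp t w' Q0 c0' T' b i l.succ j) (fun i j => EE sp t w P0 c0 T b i 0 j)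
      (VV c0 c0' T)

/-- (FFG-19) **OUTPUT of the blocks L + N.** -/
def Stmt_GeoCoord : Prop :=
  ∀ (K F k κ : Type) [Field K] [Field F] [Algebra K F] [Field k] [Field κ] [Algebra k κ]
    (D : RedData K F k κ) (sp : Place K F → Place k κ) (g s : ℕ) (t : F) (Einf : Divisor K F)
    (w w' : Fin g → Fin (s + 1) → Place k κ) (cb cb' : Fin g → k) (P0 Q0 : Fin g → Place K F),
    Arch D.A → GeoData D sp g s t Einf w w' cb cb' P0 Q0 →
  ∀ T T' : Fin g → Pic0 K F → K, IsCo sp (fun i => w i 0) P0 t T →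
    IsCo sp (fun i => w' i 0) Q0 t T' →
    Coord D.A (J1 sp) (Sum.elim T T' : Fin g ⊕ Fin g → Pic0 K F → K)

/-- (FFG-20) coordinates exist. -/
def Stmt_CoEx : Prop :=
  ∀ (K F k κ : Type) [Field K] [Field F] [Algebra K F] [Field k] [Field κ] [Algebra k κ]
    (D : RedData K F k κ) (sp : Place K F → Place k κ) (g : ℕ) (x : Fin g → Place k κ)
    (P0 : Fin g → Place K F) (t : F), SpData D sp → CurveFacts K F g → Base sp x P0 →
    ∃ T : Fin g → Pic0 K F → K, IsCo sp x P0 t T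

end Fermat.Agent.FF19.Law

end
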