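import Fermat.Agent.FF19.Law.Defs

/-!
# FF19 / Law : interface of the ABSTRACT part (Mathlib only; architect helper90)

`Stmt_Law : LawFacts → LawConcl`, from
`Stmt_AdjFun` (the algebra generated by small functions on a finite set is local),
`Stmt_SqzFun` (SQUEEZE; from `Nak.squeezeAbs`), `Stmt_Extract` (Nakayama), and
`Stmt_Lag`, `Stmt_N2Abs` (Lemma N2, abstract form; used by the geometric blocks for the fields `poly*`).
-/

set_option autoImplicit false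

noncomputable section

namespace Fermat.Agent.FF19.Law

open Polynomial

/-- (FFL-1) LAGRANGE: `ρ : S → A` injective, `d = ∏_{P ≠ P'} (ρ P - ρ P')`.  Then `d ψ ∈ A[ρ]` for every
`ψ : S → A`. -/
def Stmt_Lag : Prop :=
  ∀ (K : Type) [Field K] (A : ValuationSubring K) (S : Type) [Fintype S] [DecidableEq S]
    (ρ : S → K), (∀ P, ρ P ∈ A) → Function.Injective ρ →
    ∃ d : K, d ≠ 0 ∧ ∀ ψ : S → K, (∀ P, ψ P ∈ A) →
      ∃ W : (A)[X], ∀ P, d * ψ P = aeval (ρ P) W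

/-- (FFL-2) the `A`-algebra generated by small functions on a finite set is local. -/
def Stmt_AdjFun : Prop :=
  ∀ (K : Type) [Field K] (A : ValuationSubring K) (X : Type) [Fintype X] (ι : Type)
    (ρ : ι → X → K), (∀ i x, ρ i x ∈ A.nonunits) →
    IsFun A (Algebra.adjoin A (Set.range ρ))

/-- (FFL-4) SQUEEZE for a local algebra of functions. -/
def Stmt_SqzFun : Prop :=
  ∀ (K : Type) [Field K] (A : ValuationSubring K)
    (X : Type) [Nonempty X] (𝒪 : Subalgebra A (X → K)), IsFun A 𝒪 →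
  ∀ (m : Type) [Fintype m] (N : ℕ) (Φ : m → Fin N → X → K), (∀ a j, Φ a j ∈ 𝒪) →
  ∀ α : Fin N → K, (∀ j, α j ∈ A) → (∃ j₀, α j₀ ∉ A.nonunits) →
    (∀ β : Fin N → K, (∀ j, β j ∈ A) → (∀ a x, ∑ j, β j * Φ a j x ∈ A.nonunits) →
      ∃ c ∈ A, ∀ j, β j - c * α j ∈ A.nonunits) →
    (∀ x, ∃ γ : Fin N → K, γ ≠ 0 ∧ ∀ a, ∑ j, γ j * Φ a j x = 0) →
    ∃ (β : Fin N → X → K) (c : K), (∀ j, β j ∈ 𝒪) ∧ c ∈ A ∧ c ∉ A.nonunits ∧
      (∀ a x, ∑ j, β j x * Φ a j x = 0) ∧ ∀ j x, β j x - c * α j ∈ A.nonunits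

/-- (FFL-5) Lemma N2, abstract form: `R = A + τ R` implies that on a finite set of points the
values of `r ∈ R` are a polynomial over `A` in the values of `τ`. -/
def Stmt_N2Abs : Prop :=
  ∀ (K : Type) [Field K] (A : ValuationSubring K), Arch A →
  ∀ (R : Type) [CommRing R] (ι : A →+* R) (τ : R),
    (∀ r : R, ∃ (c : A) (r₁ : R), r = ι c + τ * r₁) →
  ∀ (S : Type) [Fintype S] (ev : S → R →+* K),
    (∀ P c, ev P (ι c) = (c : K)) → (∀ P r, ev P r ∈ A) →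
    (∀ P, ev P τ ∈ A.nonunits) → Function.Injective (fun P => ev P τ) →
    ∀ r : R, ∃ W : (A)[X], ∀ P, ev P r = aeval (ev P τ) W

/-- (FFL-6) Nakayama: `ρ ∈ 𝔪_𝒪 · 𝒪[ρ]`, `ρ` integral, implies `ρ ∈ 𝒪`. -/
def Stmt_Extract : Prop :=
  ∀ (K : Type) [Field K] (A : ValuationSubring K)
    (X : Type) (𝒪 : Subalgebra A (X → K)), IsFun A 𝒪 →
  ∀ ρ : X → K, (∃ P : (A)[X], P.Monic ∧ aeval ρ P = 0) →
    (∃ (n : ℕ) (μ w : Fin n → X → K), (∀ i, μ i ∈ 𝒪) ∧ (∀ i x, μ i x ∈ A.nonunits) ∧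
      (∀ i, w i ∈ Algebra.adjoin A ((𝒪 : Set (X → K)) ∪ {ρ})) ∧ ρ = ∑ i, μ i * w i) →
    ρ ∈ 𝒪

/-- (FFL-7) **LAW**. -/
def Stmt_Law : Prop :=
  ∀ (K : Type) [Field K] (A : ValuationSubring K)
    (J : Type) [AddCommGroup J] (J1 : AddSubgroup J) (g : ℕ)
    (t t' : Fin g → J → K) (N s : ℕ) (α : Fin N → K) (E1 E2 : Fin g → Fin s → Fin N → J → K)
    (M : Fin g → Fin N → J → K) (V : Fin g → J → K),
    LawFacts A J1 g t t' N s α E1 E2 M V → LawConcl A J1 g t t'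

/-- (FFL-8) the two laws give the contract with the block R. -/
def Stmt_CoordOfLaw : Prop :=
  ∀ (K : Type) [Field K] (A : ValuationSubring K)
    (J : Type) [AddCommGroup J] (J1 : AddSubgroup J) (g : ℕ) (t t' : Fin g → J → K),
    (∀ i, ∀ z ∈ J1, t i z ∈ A.nonunits) → (∀ i, ∀ z ∈ J1, t' i z ∈ A.nonunits) →
    (∀ z ∈ J1, ∀ z' ∈ J1, (∀ i, t i z = t i z') → z = z') →
    LawConcl A J1 g t t' → LawConcl A J1 g t' t →
    Coord A J1 (Sum.elim t t' : Fin g ⊕ Fin g → J → K)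

/-- (FFL-9) a valuation subring of an algebraic extension of `ℚ` in which the prime `ℓ` is not a unit has
rank one. -/
def Stmt_ArchQ : Prop :=
  ∀ (K : Type) [Field K] [Algebra ℚ K] [Algebra.IsAlgebraic ℚ K] (A : ValuationSubring K) (ℓ : ℕ),
    ℓ.Prime → (ℓ : K) ∈ A.nonunits → Arch A

end Fermat.Agent.FF19.Law

end
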