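/-
TEAM FF19 -> S19, block LAW, FFL-9 (task 1772, helper4): a valuation subring of an algebraic extension of `ℚ`
in which `ℓ` is not a unit has rank one.  (Adapter to `INJ.Inst.Sat.arch`, a pure Mathlib file.)
-/
import Fermat.Agent.FF19.Law.Interface
import Fermat.Agent.INJ.Inst.Sat

set_option autoImplicit false

noncomputable section

namespace Fermat.Agent.FF19.Law

/-- **FFL-9** -/
theorem archQ : Stmt_ArchQ := by
  intro K _ i1 i2 A ℓ hℓ hA c hc d hd
  have hch : CharZero K := algebraRat.charZero K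
  have hAlg : @Algebra.IsAlgebraic ℚ K _ _ DivisionRing.toRatAlgebra := by
    have e : (DivisionRing.toRatAlgebra : Algebra ℚ K) = i1 := Subsingleton.elim _ _
    rw [e]
    exact i2
  obtain ⟨n, hn⟩ := @_root_.Fermat.Agent.INJ.Inst.Sat.arch K _ A ℓ hch hAlg hℓ hA c hc d hd
  refine ⟨n, c ^ n * d⁻¹, hn, ?_⟩
  field_simp

end Fermat.Agent.FF19.Law

end
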