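import Fermat.Agent.FF19.Law.GeoInterface

/-!
# FF19 / Law / Geo : (FFG-19) the output `Stmt_GeoCoord` of the blocks L + N.
-/

set_option autoImplicit false

noncomputable section

namespace Fermat.Agent.FF19.Law

open AlgebraicCurve Polynomial
open Fermat.Agent.INJ (RedData)
open Fermat.Agent.RED (Ev)
open Fermat.Agent.FF19.A (sumPl push IsDivOf SpData CurveFacts Base InJ1 Rep IsVal)

theorem GGeoCoord_sumPl_nonneg {K F : Type} [Field K] [Field F] [Algebra K F] {g : ℕ}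
    (P : Fin g → Place K F) (R : Place K F) : 0 ≤ sumPl P R := by
  classical
  rw [sumPl, Finsupp.finsetSum_apply]
  refine Finset.sum_nonneg fun i _ => ?_
  rw [Finsupp.single_apply]
  split_ifs <;> simp

/-- the swapped data. -/
theorem GGeoCoord_swap {K F k κ : Type} [Field K] [Field F] [Algebra K F] [Field k] [Field κ]
    [Algebra k κ] {D : RedData K F k κ} {sp : Place K F → Place k κ} {g s : ℕ} {t : F}
    {Einf : Divisor K F} {w w' : Fin g → Fin (s + 1) → Place k κ} {cb cb' : Fin g → k}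
    {P0 Q0 : Fin g → Place K F} (h : GeoData D sp g s t Einf w w' cb cb' P0 Q0) :
    GeoData D sp g s t Einf w' w cb' cb Q0 P0 where
  t_mem := h.t_mem
  spd := h.spd
  cf := h.cf
  pole := h.pole
  fib := h.fib'
  fib' := h.fib
  cb_inj := by
    have e : Sum.elim cb' cb = Sum.elim cb cb' ∘ Sum.swap := by
      funext x
      cases x <;> rfl
    rw [e]
    exact h.cb_inj.comp Sum.swap_leftInverse.injective
  base := h.base'
  base' := h.base
  lat := h.lat'
  lat' := h.lat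

/-- one half: the law for `T` in terms of `T`, `T'`. -/
theorem GGeoCoord_half (hF : Stmt_Facts) (hLaw : Stmt_Law) (hA : Stmt_DivA)
    {K F k κ : Type} [Field K] [Field F] [Algebra K F] [Field k] [Field κ]
    [Algebra k κ] {D : RedData K F k κ} {sp : Place K F → Place k κ} {g s : ℕ} {t : F}
    {Einf : Divisor K F} {w w' : Fin g → Fin (s + 1) → Place k κ} {cb cb' : Fin g → k}
    {P0 Q0 : Fin g → Place K F} (hArch : Arch D.A)
    (hG : GeoData D sp g s t Einf w w' cb cb' P0 Q0) {T T' : Fin g → Pic0 K F → K}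
    (hT : IsCo sp (fun i => w i 0) P0 t T) (hT' : IsCo sp (fun i => w' i 0) Q0 t T')
    {c0 c0' : Fin g → K} (v0 : IsVal t P0 c0) (v0' : IsVal t Q0 c0') :
    LawConcl D.A (J1 sp) g T T' := by
  obtain ⟨N, b, hlat⟩ := hG.lat
  obtain ⟨-, -, -, Oth, hdiv, hOth⟩ := hA K F k κ D sp g s t Einf w w' cb cb' P0 Q0 hG P0 Q0 c0 c0'
    hG.base.sp0 hG.base'.sp0 v0 v0'
  have hmem : aa t c0 c0' ∈ riemannRochSpace ((2 * g : ℤ) • Einf - sumPl Q0) := by
    rw [mem_riemannRochSpace_iff]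
    intro R
    right
    rw [← hdiv R]
    have h1 := GGeoCoord_sumPl_nonneg P0 R
    have h2 : 0 ≤ Oth R := by
      rcases (hOth R).1 with h | h <;> rw [h] <;> norm_num
    simp only [Finsupp.coe_sub, Finsupp.coe_add, Finsupp.coe_smul, Pi.sub_apply, Pi.add_apply,
      Pi.smul_apply]
    linarith
  obtain ⟨α, hα⟩ := hlat.span _ hmem
  have hctx : Ctx D sp g s t Einf w w' cb cb' P0 Q0 c0 c0' T T' N b α :=
    ⟨hG, hArch, v0, v0', hT, hT', hlat, hα⟩
  exact hLaw K D.A (Pic0 K F) (J1 sp) g T T' N s α _ _ _ _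
    (hF K F k κ D sp g s t Einf w w' cb cb' P0 Q0 c0 c0' T T' N b α hctx)

theorem gGeoCoord (hF : Stmt_Facts) (hLaw : Stmt_Law) (hCo : Stmt_CoordOfLaw) (hP : Stmt_Pt)
    (hA : Stmt_DivA) : Stmt_GeoCoord := by
  intro K F k κ _ _ _ _ _ _ D sp g s t Einf w w' cb cb' P0 Q0 hArch hG T T' hT hT'
  choose c0 _ hc0 _ using fun i => hG.fib.reg i 0 (P0 i) (hG.base.sp0 i)
  choose c0' _ hc0' _ using fun i => hG.fib'.reg i 0 (Q0 i) (hG.base'.sp0 i)
  have v0 : IsVal t P0 c0 := hc0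
  have v0' : IsVal t Q0 c0' := hc0'
  have ch : Chart1 D sp g s t w cb P0 c0 T :=
    ⟨hG.t_mem, hG.spd, hG.cf, hG.fib, hG.base, v0, hT⟩
  have ch' : Chart1 D sp g s t w' cb' Q0 c0' T' :=
    ⟨hG.t_mem, hG.spd, hG.cf, hG.fib', hG.base', v0', hT'⟩
  obtain ⟨-, h2, -, -, -, h6⟩ := hP K F k κ D sp g s t w cb P0 c0 T ch
  obtain ⟨-, h2', -, -, -, -⟩ := hP K F k κ D sp g s t w' cb' Q0 c0' T' ch'
  exact hCo K D.A (Pic0 K F) (J1 sp) g T T' (fun i z hz => (h2 z hz i).1)
    (fun i z hz => (h2' z hz i).1) h6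
    (GGeoCoord_half hF hLaw hA hArch hG hT hT' v0 v0')
    (GGeoCoord_half hF hLaw hA hArch (GGeoCoord_swap hG) hT' hT v0' v0)

end Fermat.Agent.FF19.Law

end
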