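import Fermat.Agent.FF19.Law.Interface

/-!
# FF19 / Law, task FFL-2 : the `A`-algebra generated by small functions on a finite set is local (`Stmt_AdjFun`)

`loc` : induction on the algebra.  `unit` : `∏_x (1 - φ * (φ x)⁻¹) = 0` and the product is of the form `1 - φ * θ`.
-/

set_option autoImplicit false

noncomputable section

namespace Fermat.Agent.FF19.Law

open Polynomial

section Aux

variable {K : Type} [Field K] (A : ValuationSubring K)

theorem AdjFun_zero : (0 : K) ∈ A.nonunits := by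
  rw [ValuationSubring.mem_nonunits_iff, map_zero]
  exact zero_lt_one

theorem AdjFun_mem {x : K} (hx : x ∈ A.nonunits) : x ∈ A :=
  A.nonunits_subset hx

theorem AdjFun_add {x y : K} (hx : x ∈ A.nonunits) (hy : y ∈ A.nonunits) : x + y ∈ A.nonunits := by
  rw [ValuationSubring.mem_nonunits_iff] at hx hy ⊢
  exact Valuation.map_add_lt _ hx hy

theorem AdjFun_mul {a x : K} (ha : a ∈ A) (hx : x ∈ A.nonunits) : a * x ∈ A.nonunits := by
  rw [ValuationSubring.mem_nonunits_iff] at hx ⊢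
  rw [map_mul]
  calc A.valuation a * A.valuation x ≤ 1 * A.valuation x :=
        mul_le_mul' ((A.valuation_le_one_iff a).2 ha) le_rfl
    _ = A.valuation x := one_mul _
    _ < 1 := hx

theorem AdjFun_inv {x : K} (hx : x ∉ A.nonunits) : x ≠ 0 ∧ x⁻¹ ∈ A := by
  rw [ValuationSubring.mem_nonunits_iff_or, not_or, not_not] at hx
  exact hx

theorem AdjFun_const {X : Type} (𝒪 : Subalgebra A (X → K)) {a : K} (ha : a ∈ A) :
    (fun _ => a : X → K) ∈ 𝒪 := by
  have h : (fun _ => a : X → K) = algebraMap A (X → K) ⟨a, ha⟩ := by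
    funext x
    rfl
  rw [h]
  exact 𝒪.algebraMap_mem _

end Aux

/-- (FFL-2) -/
theorem adjFun : Stmt_AdjFun := by
  classical
  intro K _ A X _ ι ρ hρ
  have hloc : ∀ φ ∈ Algebra.adjoin A (Set.range ρ), ∃ c ∈ A, ∀ x, φ x - c ∈ A.nonunits := by
    intro φ hφ
    induction hφ using Algebra.adjoin_induction with
    | mem φ hφ =>
      obtain ⟨i, rfl⟩ := hφ
      exact ⟨0, A.zero_mem, fun x => by rw [sub_zero]; exact hρ i x⟩
    | algebraMap a =>
      refine ⟨a, a.2, fun x => ?_⟩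
      have : (algebraMap A (X → K) a) x = (a : K) := rfl
      rw [this, sub_self]
      exact AdjFun_zero A
    | add φ ψ _ _ h1 h2 =>
      obtain ⟨c, hc, h1⟩ := h1
      obtain ⟨c', hc', h2⟩ := h2
      refine ⟨c + c', A.add_mem _ _ hc hc', fun x => ?_⟩
      have : (φ + ψ) x - (c + c') = (φ x - c) + (ψ x - c') := by
        rw [Pi.add_apply]; ring
      rw [this]
      exact AdjFun_add A (h1 x) (h2 x)
    | mul φ ψ _ _ h1 h2 =>
      obtain ⟨c, hc, h1⟩ := h1
      obtain ⟨c', hc', h2⟩ := h2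
      refine ⟨c * c', A.mul_mem _ _ hc hc', fun x => ?_⟩
      have hψ : ψ x ∈ A := by
        have : ψ x = (ψ x - c') + c' := by ring
        rw [this]
        exact A.add_mem _ _ (AdjFun_mem A (h2 x)) hc'
      have : (φ * ψ) x - c * c' = ψ x * (φ x - c) + c * (ψ x - c') := by
        rw [Pi.mul_apply]; ring
      rw [this]
      exact AdjFun_add A (AdjFun_mul A hψ (h1 x)) (AdjFun_mul A hc (h2 x))
  refine ⟨hloc, fun φ hφ hu => ?_⟩
  set 𝒪 := Algebra.adjoin A (Set.range ρ) with h𝒪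
  have key : ∀ s : Finset X, ∃ θ ∈ 𝒪,
      ∏ x ∈ s, (1 - φ * (fun _ => (φ x)⁻¹ : X → K)) = 1 - φ * θ := by
    intro s
    induction s using Finset.induction_on with
    | empty => exact ⟨0, 𝒪.zero_mem, by simp⟩
    | insert x s hx ih =>
      obtain ⟨θ, hθ, ih⟩ := ih
      have hk : (fun _ => (φ x)⁻¹ : X → K) ∈ 𝒪 := AdjFun_const A 𝒪 (AdjFun_inv A (hu x)).2
      refine ⟨(fun _ => (φ x)⁻¹ : X → K) + θ - φ * (fun _ => (φ x)⁻¹ : X → K) * θ,
        𝒪.sub_mem (𝒪.add_mem hk hθ) (𝒪.mul_mem (𝒪.mul_mem hφ hk) hθ), ?_⟩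
      rw [Finset.prod_insert hx, ih]
      ring
  obtain ⟨θ, hθ, h⟩ := key Finset.univ
  refine ⟨θ, hθ, ?_⟩
  have h0 : ∏ x : X, (1 - φ * (fun _ => (φ x)⁻¹ : X → K)) = 0 := by
    funext y
    rw [Finset.prod_apply, Pi.zero_apply]
    refine Finset.prod_eq_zero (Finset.mem_univ y) ?_
    rw [Pi.sub_apply, Pi.mul_apply, Pi.one_apply, mul_inv_cancel₀ (AdjFun_inv A (hu y)).1, sub_self]
  rw [h0] at h
  exact (sub_eq_zero.1 h.symm).symm

end Fermat.Agent.FF19.Law

end
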