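import Fermat.Agent.FF19.Law.Interface

/-!
# FF19 / Law : (FFL-8) the two laws give the contract with the block R (helper54)
-/

set_option autoImplicit false

noncomputable section

namespace Fermat.Agent.FF19.Law

open Polynomial

/-- (FFL-8) the two laws give the contract with the block R. -/
theorem coordOfLaw : Stmt_CoordOfLaw := by
  intro K _ A J _ J1 g t t' ht ht' hinj h1 h2
  refine ⟨?_, ?_, ?_⟩
  · rintro (i | i) z hz
    · exact ht i z hz
    · exact ht' i z hz
  · intro z hz z' hz' h
    exact hinj z hz z' hz' fun i => h (Sum.inl i)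
  · rintro S S' hS hS' (i | i)
    · obtain ⟨Ψ, hΨ⟩ := h1 S S' hS hS' i
      refine ⟨MvPolynomial.rename
        (Sum.elim (fun j => Sum.inl (Sum.inl j)) (fun j => Sum.inr (Sum.inr j))) Ψ, ?_⟩
      intro z hz z' hz'
      rw [MvPolynomial.aeval_rename]
      show t i (z + z') = _
      rw [hΨ z hz z' hz']
      congr 2
      funext b
      rcases b with j | j <;> rfl
    · obtain ⟨Ψ, hΨ⟩ := h2 S S' hS hS' i
      refine ⟨MvPolynomial.rename
        (Sum.elim (fun j => Sum.inl (Sum.inr j)) (fun j => Sum.inr (Sum.inl j))) Ψ, ?_⟩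
      intro z hz z' hz'
      rw [MvPolynomial.aeval_rename]
      show t' i (z + z') = _
      rw [hΨ z hz z' hz']
      congr 2
      funext b
      rcases b with j | j <;> rfl

end Fermat.Agent.FF19.Law

end
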