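import Fermat.Agent.FF19.Law.Interface

/-!
# FF19 / Law : (FFL-6) Nakayama extraction (helper57)
-/

set_option autoImplicit false

noncomputable section

namespace Fermat.Agent.FF19.Law

open Polynomial

section ExtractAux

variable {K : Type} [Field K] (A : ValuationSubring K)

lemma Extract_add {a b : K} (ha : a ∈ A.nonunits) (hb : b ∈ A.nonunits) : a + b ∈ A.nonunits := by
  rw [ValuationSubring.mem_nonunits_iff] at *
  exact lt_of_le_of_lt (A.valuation.map_add a b) (max_lt ha hb)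

lemma Extract_mul {a b : K} (ha : a ∈ A) (hb : b ∈ A.nonunits) : a * b ∈ A.nonunits := by
  rw [ValuationSubring.mem_nonunits_iff] at *
  rw [map_mul]
  have h1 : A.valuation a ≤ 1 := (A.valuation_le_one_iff a).2 ha
  calc A.valuation a * A.valuation b ≤ 1 * A.valuation b := by gcongr
    _ = A.valuation b := one_mul _
    _ < 1 := hb

lemma Extract_mem {a : K} (ha : a ∈ A.nonunits) : a ∈ A := by
  rw [ValuationSubring.mem_nonunits_iff] at ha
  exact (A.valuation_le_one_iff a).1 ha.le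

lemma Extract_val {X : Type} {𝒪 : Subalgebra A (X → K)} (h : IsFun A 𝒪) (φ : X → K) (hφ : φ ∈ 𝒪)
    (x : X) : φ x ∈ A := by
  obtain ⟨c, hc, hx⟩ := h.loc φ hφ
  have := A.add_mem _ _ (Extract_mem A (hx x)) hc
  simpa using this

end ExtractAux

theorem extract : Stmt_Extract := by
  intro K _ A X 𝒪 hF ρ hint hρ
  obtain ⟨P, hP, hPρ⟩ := hint
  obtain ⟨n, μ, w, hμ, hμs, hw, hρe⟩ := hρ
  have hintA : IsIntegral A ρ := ⟨P, hP, by simpa [aeval_def] using hPρ⟩
  have hint𝒪 : IsIntegral 𝒪 ρ := hintA.tower_top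
  let Eal : Subalgebra 𝒪 (X → K) := Algebra.adjoin 𝒪 {ρ}
  let E : Submodule 𝒪 (X → K) := Subalgebra.toSubmodule Eal
  have hEfg : E.FG := hint𝒪.fg_adjoin_singleton
  have hρE : ρ ∈ Eal := Algebra.subset_adjoin (Set.mem_singleton ρ)
  -- `𝒪[ρ]` in the two senses
  have hwE : ∀ v ∈ Algebra.adjoin A ((𝒪 : Set (X → K)) ∪ {ρ}), v ∈ Eal := by
    have h1 : Algebra.adjoin A ((𝒪 : Set (X → K)) ∪ {ρ}) ≤ Eal.restrictScalars A := by
      apply Algebra.adjoin_le
      rintro v (hv | hv)
      · exact Eal.algebraMap_mem (⟨v, hv⟩ : 𝒪)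
      · rw [Set.mem_singleton_iff] at hv
        rw [hv]
        exact hρE
    exact fun v hv => h1 hv
  -- the maximal ideal
  let I : Ideal 𝒪 :=
    { carrier := {φ | ∀ x, (φ : X → K) x ∈ A.nonunits}
      add_mem' := by
        intro φ ψ hφ hψ x
        exact Extract_add A (hφ x) (hψ x)
      zero_mem' := by
        intro x
        show (0 : K) ∈ A.nonunits
        rw [ValuationSubring.mem_nonunits_iff, map_zero]
        exact zero_lt_one
      smul_mem' := by
        intro φ ψ hψ x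
        exact Extract_mul A (Extract_val A hF φ φ.2 x) (hψ x) }
  have hIJ : I ≤ Ideal.jacobson ⊥ := by
    intro φ hφ
    rw [Ideal.mem_jacobson_bot]
    intro y
    have h1 : ∀ x, ((φ * y + 1 : 𝒪) : X → K) x ∉ A.nonunits := by
      intro x hx
      have h2 : (φ : X → K) x * (y : X → K) x ∈ A.nonunits := by
        rw [mul_comm]
        exact Extract_mul A (Extract_val A hF y y.2 x) (hφ x)
      have h3 : (1 : K) ∈ A.nonunits := by
        have h4 : -((φ : X → K) x * (y : X → K) x) ∈ A.nonunits := by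
          rw [ValuationSubring.mem_nonunits_iff] at *
          rwa [Valuation.map_neg]
        have h5 := Extract_add A hx h4
        simpa using h5
      rw [ValuationSubring.mem_nonunits_iff, map_one] at h3
      exact lt_irrefl _ h3
    obtain ⟨ψ, hψ, hψ1⟩ := hF.unit _ (φ * y + 1 : 𝒪).2 h1
    exact IsUnit.of_mul_eq_one (⟨ψ, hψ⟩ : 𝒪) (Subtype.ext hψ1)
  let N : Submodule 𝒪 (X → K) := Submodule.span 𝒪 {1}
  have hρmul : ∀ e ∈ E, e * ρ ∈ I • E := by
    intro e he
    rw [hρe, Finset.mul_sum]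
    refine Submodule.sum_mem _ (fun i _ => ?_)
    have h1 : e * (μ i * w i) = (⟨μ i, hμ i⟩ : 𝒪) • (w i * e) := by
      rw [Subalgebra.smul_def, smul_eq_mul]
      ring
    rw [h1]
    exact Submodule.smul_mem_smul (hμs i) (Eal.mul_mem (hwE _ (hw i)) he)
  have hEN : E ≤ N ⊔ I • E := by
    intro e he
    have he' : e ∈ Algebra.adjoin 𝒪 {ρ} := he
    rw [Algebra.adjoin_singleton_eq_range_aeval] at he'
    obtain ⟨Q, rfl⟩ := he'
    have h1 : aeval ρ Q = aeval ρ Q.divX * ρ + (Q.coeff 0) • (1 : X → K) := by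
      conv_lhs => rw [← Polynomial.divX_mul_X_add Q]
      rw [map_add, map_mul, aeval_X, aeval_C, Algebra.algebraMap_eq_smul_one]
    show aeval ρ Q ∈ N ⊔ I • E
    rw [h1, add_comm]
    refine Submodule.add_mem_sup (Submodule.smul_mem _ _ (Submodule.mem_span_singleton_self _)) ?_
    apply hρmul
    show aeval ρ Q.divX ∈ Algebra.adjoin 𝒪 {ρ}
    rw [Algebra.adjoin_singleton_eq_range_aeval]
    exact ⟨_, rfl⟩
  have hfin : E ≤ N := Submodule.le_of_le_smul_of_le_jacobson_bot hEfg hIJ hEN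
  have h1 : ρ ∈ N := hfin hρE
  obtain ⟨φ, hφ⟩ := Submodule.mem_span_singleton.1 h1
  rw [Subalgebra.smul_def, smul_eq_mul, mul_one] at hφ
  rw [← hφ]
  exact φ.2

end Fermat.Agent.FF19.Law

end
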