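import Fermat.Agent.FF19.Law.GeoInterface

/-!
# FF19 / Law / Geo : (FFG-20) coordinates exist (helper57)
-/

set_option autoImplicit false

noncomputable section

namespace Fermat.Agent.FF19.Law

open AlgebraicCurve Polynomial
open Fermat.Agent.INJ (RedData)
open Fermat.Agent.RED (Ev)
open Fermat.Agent.FF19.A (sumPl push IsDivOf SpData CurveFacts Base InJ1 Rep IsVal)

theorem gCoEx (hU : A.Stmt_Uniq) : Stmt_CoEx := by
  intro K F k κ _ _ _ _ _ _ D sp g x P0 t hsp hcf hbase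
  classical
  refine ⟨fun i z => if h : ∃ d : K, ∃ (P : Fin g → Place K F) (c c0 : Fin g → K),
      Rep sp x P0 z P ∧ IsVal t P c ∧ IsVal t P0 c0 ∧ d = c i - c0 i then h.choose else 0, ?_⟩
  intro z P c c0 hP hc hc0 i
  have h : ∃ d : K, ∃ (P : Fin g → Place K F) (c c0 : Fin g → K),
      Rep sp x P0 z P ∧ IsVal t P c ∧ IsVal t P0 c0 ∧ d = c i - c0 i :=
    ⟨_, P, c, c0, hP, hc, hc0, rfl⟩
  show (if h : ∃ d : K, ∃ (P : Fin g → Place K F) (c c0 : Fin g → K),
      Rep sp x P0 z P ∧ IsVal t P c ∧ IsVal t P0 c0 ∧ d = c i - c0 i then h.choose else 0) = _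
  rw [dif_pos h]
  obtain ⟨P', c', c0', hP', hc', hc0', hd⟩ := h.choose_spec
  rw [hd]
  have h1 : P' = P := hU K F k κ D sp g x P0 hsp hcf hbase z P' P hP' hP
  subst h1
  rw [Fermat.Agent.RED.ev_unique (hc' i) (hc i), Fermat.Agent.RED.ev_unique (hc0' i) (hc0 i)]

end Fermat.Agent.FF19.Law

end
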