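import Fermat.Agent.FF19.Law.GeoInterface

/-!
# FF19 / Law / Geo : (FFG-2) the residue disc of an unramified point
-/

set_option autoImplicit false

noncomputable section

namespace Fermat.Agent.FF19.Law

open AlgebraicCurve Polynomial
open Fermat.Agent.INJ (RedData)
open Fermat.Agent.RED (Ev)
open Fermat.Agent.FF19.A (sumPl push IsDivOf SpData CurveFacts Base InJ1 Rep IsVal)

open Classical in
theorem GDisc_push_apply {K F k κ : Type} [Field K] [Field F] [Algebra K F] [Field k] [Field κ]
    [Algebra k κ] (sp : Place K F → Place k κ) (E : Divisor K F) (y : Place k κ) :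
    push sp E y = ∑ a ∈ E.support, if sp a = y then E a else 0 := by
  unfold push
  rw [Finsupp.mapDomain, Finsupp.sum_apply, Finsupp.sum]
  refine Finset.sum_congr rfl fun a _ => ?_
  rw [Finsupp.single_apply]

theorem gDisc (hC : A.Stmt_Comb) : Stmt_Disc := by
  intro K F k κ _ _ _ _ _ _ D sp g spd cf t y cbar ht hreg hord c hc hcb
  classical
  have hcO : algebraMap K F c ∈ D.O := RedData.algebraMap_mem hc
  have hrdu : D.rd (t - algebraMap K F c) = D.rd t - algebraMap k κ cbar := by
    rw [RedData.rd_sub ht hcO, RedData.rd_algebraMap hc, hcb]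
  have hrd0 : D.rd (t - algebraMap K F c) ≠ 0 := by
    intro h0
    rw [← hrdu, h0, Place.ord_zero] at hord
    exact zero_ne_one hord
  have hu0 : t - algebraMap K F c ≠ 0 := by
    intro h0
    rw [h0] at hrd0
    exact hrd0 RedData.rd_zero
  obtain ⟨E, hE, -⟩ := cf.princ _ hu0
  have hpush : push sp E y = 1 := by
    rw [spd _ E hrd0 hE y, hrdu, hord]
  have hnn : ∀ P, sp P = y → 0 ≤ E P := by
    intro P hP
    obtain ⟨c', -, hev, -⟩ := hreg P hP
    rw [hE P]
    exact S24.ord_nonneg_of_mem P
      (sub_mem (Fermat.Agent.RED.ev_mem hev) (P.algebraMap_mem' c))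
  obtain ⟨hle, hle2⟩ := (hC K F k κ sp).2.2.2.2.2.2 E y hnn
  have hex : ∃ P, sp P = y ∧ 1 ≤ E P := by
    by_contra hne
    push Not at hne
    have h0 : push sp E y = 0 := by
      rw [GDisc_push_apply]
      refine Finset.sum_eq_zero fun a _ => ?_
      by_cases ha : sp a = y
      · rw [if_pos ha]
        have h1 := hne a ha
        have h2 := hnn a ha
        omega
      · rw [if_neg ha]
    rw [h0] at hpush
    exact zero_ne_one hpush
  obtain ⟨P, hP, hP1⟩ := hex
  have hP2 : E P = 1 := le_antisymm (hpush ▸ hle P hP) hP1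
  have hordP : P.ord (t - algebraMap K F c) = 1 := by rw [← hE P, hP2]
  refine ⟨P, hP, ?_, hordP, ?_⟩
  · exact Fermat.Agent.RED.ev_zero_iff.1
      ((Fermat.Agent.RED.ev_zero_iff_ord hu0).2 (by rw [hordP]; exact zero_lt_one))
  · intro P' hP' hev
    by_contra hne
    have h1 : 0 < P'.ord (t - algebraMap K F c) :=
      (Fermat.Agent.RED.ev_zero_iff_ord hu0).1 (Fermat.Agent.RED.ev_zero_iff.2 hev)
    have h2 := hle2 P P' hP hP' (fun h => hne h.symm)
    rw [hpush, hP2, hE P'] at h2
    omega

end Fermat.Agent.FF19.Law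

end
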