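import Fermat.Agent.FF19.Law.GeoInterface

/-!
# FF19 / Law / Geo : FFG-3, the divisor of `t - c` (helper31)
-/

set_option autoImplicit false

noncomputable section

namespace Fermat.Agent.FF19.Law

open AlgebraicCurve Polynomial
open Fermat.Agent.INJ (RedData)
open Fermat.Agent.RED (Ev)
open Fermat.Agent.FF19.A (sumPl push IsDivOf SpData CurveFacts Base InJ1 Rep IsVal)

section

variable {K F : Type} [Field K] [Field F] [Algebra K F]

/-- the degree of a divisor when all places have degree one. -/
theorem GDivT_degree_eq (h1 : ∀ P : Place K F, P.deg = 1) (E : Divisor K F) :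
    Divisor.degree E = E.sum fun _ n => n := by
  unfold Divisor.degree
  rw [Finsupp.liftAddHom_apply]
  refine Finsupp.sum_congr fun P _ => ?_
  simp [h1 P]

/-- an effective divisor of degree `0` is `0`. -/
theorem GDivT_eq_zero (h1 : ∀ P : Place K F, P.deg = 1) (E : Divisor K F) (hE : ∀ R, 0 ≤ E R)
    (hd : Divisor.degree E = 0) : E = 0 := by
  rw [GDivT_degree_eq h1, Finsupp.sum] at hd
  have h := (Finset.sum_eq_zero_iff_of_nonneg (fun R _ => hE R)).1 hd
  ext R
  by_cases hR : R ∈ E.support
  · simpa using h R hR
  · simpa using Finsupp.notMem_support_iff.1 hR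

open Classical in
theorem GDivT_sumPl_apply {n : ℕ} (P : Fin n → Place K F) (R : Place K F) :
    sumPl P R = ∑ i, if P i = R then (1 : ℤ) else 0 := by
  unfold sumPl
  rw [Finsupp.finsetSum_apply]
  refine Finset.sum_congr rfl fun i _ => ?_
  rw [Finsupp.single_apply]

theorem GDivT_sumPl_eq_zero {n : ℕ} (P : Fin n → Place K F) (R : Place K F) (h : ∀ i, P i ≠ R) :
    sumPl P R = 0 := by
  classical
  rw [GDivT_sumPl_apply]
  exact Finset.sum_eq_zero fun i _ => if_neg (h i)

theorem GDivT_sumPl_eq_one {n : ℕ} (P : Fin n → Place K F) (hP : Function.Injective P) (i : Fin n) :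
    sumPl P (P i) = 1 := by
  classical
  rw [GDivT_sumPl_apply, Finset.sum_eq_single i]
  · simp
  · intro j _ hj
    exact if_neg fun h => hj (hP h)
  · intro h
    exact absurd (Finset.mem_univ i) h

theorem GDivT_degree_sumPl (h1 : ∀ P : Place K F, P.deg = 1) {n : ℕ} (P : Fin n → Place K F) :
    Divisor.degree (sumPl P) = n := by
  unfold sumPl
  rw [map_sum]
  simp [h1]

end

/-- **FFG-3**. -/
theorem gDivT : Stmt_DivT := by
  intro K F _ _ _ g cf t n Einf hpole c P hP hev hu
  obtain ⟨E, hE, hdeg⟩ := cf.princ _ hu
  have key : E + Einf - sumPl P = 0 := by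
    refine GDivT_eq_zero cf.deg1 _ ?_ ?_
    · intro R
      rw [Finsupp.sub_apply, Finsupp.add_apply, hE R, hpole.val R]
      by_cases ht : t ∈ R.toValuationSubring
      · have hmem : t - algebraMap K F c ∈ R.toValuationSubring :=
          sub_mem ht (R.algebraMap_mem' c)
        have h0 : 0 ≤ R.ord (t - algebraMap K F c) := Fermat.Agent.S24.ord_nonneg_of_mem R hmem
        have h2 : (0 : ℤ) ≤ max 0 (-(R.ord t)) := le_max_left _ _
        by_cases hR : ∃ l, P l = R
        · obtain ⟨l, rfl⟩ := hR
          rw [GDivT_sumPl_eq_one P hP l]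
          have h3 : Ev (P l) (t - algebraMap K F c) 0 := by
            have := Fermat.Agent.RED.ev_sub (hev l) (Fermat.Agent.RED.ev_const (P l) c)
            rwa [sub_self] at this
          have h4 := (Fermat.Agent.RED.ev_zero_iff_ord hu).1 h3
          omega
        · rw [GDivT_sumPl_eq_zero P R fun i hi => hR ⟨i, hi⟩]
          omega
      · have ht0 : t ≠ 0 := fun h => ht (h ▸ R.toValuationSubring.zero_mem)
        have hneg : R.ord t < 0 := by
          by_contra h
          exact ht (Fermat.Agent.S24.mem_of_ord_nonneg R ht0 (not_lt.1 h))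
        have hord : R.ord (t - algebraMap K F c) = R.ord t := by
          rcases eq_or_ne c 0 with rfl | hc
          · simp
          · have hc' : -algebraMap K F c ≠ 0 :=
              neg_ne_zero.2 ((map_ne_zero (algebraMap K F)).2 hc)
            have hoc : R.ord (-algebraMap K F c) = 0 := by
              rw [← map_neg]
              exact Fermat.Agent.S24.ord_algebraMap R (-c)
            rw [sub_eq_add_neg]
            exact Fermat.Agent.S24.ord_add_eq_of_lt R ht0 hc' (by rw [hoc]; exact hneg)
        rw [hord, GDivT_sumPl_eq_zero P R fun i hi => ht (hi ▸ Fermat.Agent.RED.ev_mem (hev i)),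
          max_eq_right (by omega)]
        omega
    · rw [map_sub, map_add, hdeg, hpole.deg, GDivT_degree_sumPl cf.deg1]
      ring
  intro R
  have h := DFunLike.congr_fun key R
  rw [Finsupp.sub_apply, Finsupp.add_apply, Finsupp.zero_apply, hE R] at h
  rw [Finsupp.sub_apply]
  omega

end Fermat.Agent.FF19.Law

end
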