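import Fermat.Agent.FF19.Law.GeoInterface

/-!
# FF19 / Law / Geo : (FFG-1) (EVsp)
-/

set_option autoImplicit false

noncomputable section

namespace Fermat.Agent.FF19.Law

open AlgebraicCurve Polynomial
open Fermat.Agent.INJ (RedData)
open Fermat.Agent.RED (Ev)
open Fermat.Agent.FF19.A (sumPl push IsDivOf SpData CurveFacts Base InJ1 Rep IsVal)

/-- a function of `Wˣ` without poles on the disc of `y` which vanishes at a point of the disc has a reduction
which vanishes at `y`. -/
theorem GEvSp_core (hC : A.Stmt_Comb) {K F k κ : Type} [Field K] [Field F] [Algebra K F] [Field k]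
    [Field κ] [Algebra k κ] (D : RedData K F k κ) (sp : Place K F → Place k κ) (g : ℕ)
    (spd : SpData D sp) (cf : CurveFacts K F g) (y : Place k κ) (u : F) (hrd : D.rd u ≠ 0)
    (hreg : ∀ P : Place K F, sp P = y → u ∈ P.toValuationSubring)
    (P : Place K F) (hP : sp P = y) (hu : Ev P u 0) : 0 < y.ord (D.rd u) := by
  have hu0 : u ≠ 0 := by
    rintro rfl
    exact hrd RedData.rd_zero
  obtain ⟨E, hE, -⟩ := cf.princ u hu0
  have h1 : ∀ P', sp P' = y → 0 ≤ E P' := fun P' hP' => by
    rw [hE P']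
    exact S24.ord_nonneg_of_mem P' (hreg P' hP')
  have h2 : 0 < E P := by
    rw [hE P]
    exact (Fermat.Agent.RED.ev_zero_iff_ord hu0).1 hu
  have h3 := ((hC K F k κ sp).2.2.2.2.2.2 E y h1).1 P hP
  rw [spd u E hrd hE y] at h3
  omega

theorem gEvSp (hC : A.Stmt_Comb) : Stmt_EvSp := by
  intro K F k κ _ _ _ _ _ _ D sp g spd cf y f hf hreg P c hP hc
  by_cases hcA : c ∈ D.A
  · refine ⟨hcA, ?_⟩
    have hcO : algebraMap K F c ∈ D.O := RedData.algebraMap_mem hcA
    have hrd : D.rd (f - algebraMap K F c) = D.rd f - algebraMap k κ (D.ra c) := by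
      rw [RedData.rd_sub hf hcO, RedData.rd_algebraMap hcA]
    by_cases h0 : D.rd (f - algebraMap K F c) = 0
    · unfold Ev
      rw [← hrd, h0]
      exact Fermat.Agent.RED.EV_zero_mem_nonunits _
    · have h1 := GEvSp_core hC D sp g spd cf y (f - algebraMap K F c) h0
        (fun P' hP' => sub_mem (hreg P' hP') (P'.algebraMap_mem' c)) P hP (by
          have := Fermat.Agent.RED.ev_sub hc (Fermat.Agent.RED.ev_const P c)
          rwa [sub_self] at this)
      have h2 := (Fermat.Agent.RED.ev_zero_iff_ord h0).2 h1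
      rw [Fermat.Agent.RED.ev_zero_iff, hrd] at h2
      exact h2
  · exfalso
    have hc0 : c ≠ 0 := by
      rintro rfl
      exact hcA D.A.zero_mem
    have hci : c⁻¹ ∈ D.A := (D.A.mem_or_inv_mem c).resolve_left hcA
    have hciO : algebraMap K F c⁻¹ ∈ D.O := RedData.algebraMap_mem hci
    have hra : D.ra c⁻¹ = 0 := by
      by_contra hne
      have h1 : D.rd (algebraMap K F c⁻¹) ≠ 0 := by
        rw [RedData.rd_algebraMap hci]
        exact (_root_.map_ne_zero _).2 hne
      have h2 := RedData.inv_mem_of_rd_ne_zero h1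
      rw [← map_inv₀, inv_inv] at h2
      exact hcA ((D.mem_iff c).1 h2)
    have hrd : D.rd (algebraMap K F c⁻¹ * f - 1) = -1 := by
      rw [RedData.rd_sub (mul_mem hciO hf) D.O.one_mem, RedData.rd_mul hciO hf,
        RedData.rd_algebraMap hci, hra, map_zero, zero_mul, RedData.rd_one, zero_sub]
    have h0 : D.rd (algebraMap K F c⁻¹ * f - 1) ≠ 0 := by
      rw [hrd]
      exact neg_ne_zero.2 one_ne_zero
    have h1 := GEvSp_core hC D sp g spd cf y (algebraMap K F c⁻¹ * f - 1) h0
      (fun P' hP' => sub_mem (mul_mem (P'.algebraMap_mem' c⁻¹) (hreg P' hP'))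
        P'.toValuationSubring.one_mem) P hP (by
        have := Fermat.Agent.RED.ev_sub
          (Fermat.Agent.RED.ev_mul (Fermat.Agent.RED.ev_const P c⁻¹) hc) (Fermat.Agent.RED.ev_one P)
        rwa [inv_mul_cancel₀ hc0, sub_self] at this)
    rw [hrd] at h1
    have h2 : y.ord (-1 : κ) = 0 :=
      Fermat.Agent.RED.ev_ord_eq_zero (Fermat.Agent.RED.ev_neg (Fermat.Agent.RED.ev_one y))
        (neg_ne_zero.2 one_ne_zero)
    omega

end Fermat.Agent.FF19.Law

end
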