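import Fermat.Agent.FF19.Law.GeoInterface

/-!
# FF19 / Law / Geo, FFG-18 : the contract `LawFacts` holds (pure assembly)
-/

set_option autoImplicit false

noncomputable section

namespace Fermat.Agent.FF19.Law

open AlgebraicCurve Polynomial
open Fermat.Agent.INJ (RedData)
open Fermat.Agent.RED (Ev)
open Fermat.Agent.FF19.A (sumPl push IsDivOf SpData CurveFacts Base InJ1 Rep IsVal)

theorem GFacts_sumPl_nonneg {K F : Type} [Field K] [Field F] [Algebra K F] {g : ℕ}
    (P : Fin g → Place K F) : 0 ≤ sumPl P := by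
  classical
  intro R
  rw [sumPl, Finsupp.finsetSum_apply]
  refine Finset.sum_nonneg fun i _ => ?_
  rw [Finsupp.single_apply]
  split_ifs <;> simp

theorem gFacts (hP : Stmt_Pt) (hEE : Stmt_PolyEE) (hB : Stmt_RegB) (hFA : Stmt_FactsA)
    (h1 : Stmt_FactsG1) (h2 : Stmt_FactsG2) (h3 : Stmt_FactsG3) : Stmt_Facts := by
  intro K F k κ _ _ _ _ _ _ D sp g s t Einf w w' cb cb' P0 Q0 c0 c0' T T' N b α C
  have ch1 : Chart1 D sp g s t w cb P0 c0 T :=
    ⟨C.geo.t_mem, C.geo.spd, C.geo.cf, C.geo.fib, C.geo.base, C.v0, C.co⟩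
  have ch2 : Chart1 D sp g s t w' cb' Q0 c0' T' :=
    ⟨C.geo.t_mem, C.geo.spd, C.geo.cf, C.geo.fib', C.geo.base', C.v0', C.co'⟩
  have hreg : ∀ (P : Place K F) (c : K), Ev P t c → ∀ j, b j ∈ P.toValuationSubring := by
    intro P c hc j
    exact (hB K F t (s + 1) Einf C.geo.pole (2 * g : ℤ) (sumPl Q0) (GFacts_sumPl_nonneg Q0) (b j)
      (C.lat.mem j) P c hc).1
  have hreg1 : ∀ i l (P : Place K F), sp P = w i l → ∀ j, b j ∈ P.toValuationSubring := by
    intro i l P hPw
    obtain ⟨c, -, hc, -⟩ := C.geo.fib.reg i l P hPw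
    exact hreg P c hc
  have hreg2 : ∀ i l (P : Place K F), sp P = w' i l → ∀ j, b j ∈ P.toValuationSubring := by
    intro i l P hPw
    obtain ⟨c, -, hc, -⟩ := C.geo.fib'.reg i l P hPw
    exact hreg P c hc
  have e1 := (hEE K F k κ D sp g s t w cb P0 c0 T C.arch ch1 N b C.lat.int hreg1).1
  have e2 := (hEE K F k κ D sp g s t w' cb' Q0 c0' T' C.arch ch2 N b C.lat.int hreg2).1
  obtain ⟨a1, a2, a3, a4, a5⟩ :=
    hFA K F k κ D sp g s t Einf w w' cb cb' P0 Q0 c0 c0' T T' N b α C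
  exact
    { t_small := fun i z hz => ((hP K F k κ D sp g s t w cb P0 c0 T ch1).2.1 z hz i).1
      t'_small := fun i z hz => ((hP K F k κ D sp g s t w' cb' Q0 c0' T' ch2).2.1 z hz i).1
      alpha_mem := a1
      alpha_unit := a2
      polyE1 := fun i l j => e1 i l.succ j
      polyE2 := fun i l j => e2 i l.succ j
      polyM := fun i j => e1 i 0 j
      polyV := a3
      V_unit := a4
      rel := a5
      geo1 := h1 K F k κ D sp g s t Einf w w' cb cb' P0 Q0 c0 c0' T T' N b α C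
      geo2 := h2 K F k κ D sp g s t Einf w w' cb cb' P0 Q0 c0 c0' T T' N b α C
      geo3 := h3 K F k κ D sp g s t Einf w w' cb cb' P0 Q0 c0 c0' T T' N b α C }

end Fermat.Agent.FF19.Law

end
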