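import Fermat.Agent.FF19.Law.GeoInterface

/-!
# FF19 / Law / Geo : (FFG-14) the elementary fields of `LawFacts` (`Stmt_FactsA`)
-/

set_option autoImplicit false

noncomputable section

namespace Fermat.Agent.FF19.Law

open AlgebraicCurve Polynomial
open Fermat.Agent.INJ (RedData)
open Fermat.Agent.RED (Ev)
open Fermat.Agent.FF19.A (sumPl push IsDivOf SpData CurveFacts Base InJ1 Rep IsVal)

section Aux

variable {K F k κ : Type} [Field K] [Field F] [Algebra K F] [Field k] [Field κ] [Algebra k κ]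

theorem GFactsA_ra_sub {D : RedData K F k κ} {x y : K} (hx : x ∈ D.A) (hy : y ∈ D.A) :
    D.ra (x - y) = D.ra x - D.ra y := by
  rw [RedData.ra_of_mem hx, RedData.ra_of_mem hy, RedData.ra_of_mem (sub_mem hx hy), ← map_sub]
  rfl

theorem GFactsA_val_one {A : ValuationSubring K} {x : K} (hx : x ∈ A) (h : x ∉ A.nonunits) :
    A.valuation x = 1 := by
  rw [ValuationSubring.mem_nonunits_iff, not_lt] at h
  exact le_antisymm ((ValuationSubring.valuation_le_one_iff _ _).2 hx) h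

theorem GFactsA_sumPl_nonneg {g : ℕ} (P : Fin g → Place K F) : 0 ≤ sumPl P := by
  unfold sumPl
  exact Finset.sum_nonneg fun i _ => Finsupp.single_nonneg.2 zero_le_one

end Aux

set_option maxHeartbeats 1000000 in
theorem gFactsA (hA : Stmt_DivA) (hL : Stmt_LatCoord) (hP : Stmt_Pt) (hEE : Stmt_PolyEE)
    (hB : Stmt_RegB) : Stmt_FactsA := by
  intro K F k κ _ _ _ _ _ _ D sp g s t Einf w w' cb cb' P0 Q0 c0 c0' T T' N b α ctx
  have ch : Chart1 D sp g s t w cb P0 c0 T :=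
    ⟨ctx.geo.t_mem, ctx.geo.spd, ctx.geo.cf, ctx.geo.fib, ctx.geo.base, ctx.v0, ctx.co⟩
  have ch' : Chart1 D sp g s t w' cb' Q0 c0' T' :=
    ⟨ctx.geo.t_mem, ctx.geo.spd, ctx.geo.cf, ctx.geo.fib', ctx.geo.base', ctx.v0', ctx.co'⟩
  obtain ⟨-, p2, p3, -, p5, -⟩ := hP K F k κ D sp g s t w cb P0 c0 T ch
  obtain ⟨-, -, -, -, p5', -⟩ := hP K F k κ D sp g s t w' cb' Q0 c0' T' ch'
  obtain ⟨-, haO, hard, -⟩ := hA K F k κ D sp g s t Einf w w' cb cb' P0 Q0 ctx.geo P0 Q0 c0 c0'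
    ctx.geo.base.sp0 ctx.geo.base'.sp0 ctx.v0 ctx.v0'
  obtain ⟨l1, l2, -, l4⟩ := hL K F k κ D _ N b ctx.lat
  have hαA : ∀ j, α j ∈ D.A := l2 α (ctx.alpha ▸ haO)
  -- the factors are units
  have hne1 : ∀ i i', i' ≠ i → cb i - cb i' ≠ 0 := by
    intro i i' hii h0
    have h1 : Sum.elim cb cb' (Sum.inl i) = Sum.elim cb cb' (Sum.inl i') := sub_eq_zero.1 h0
    exact hii (Sum.inl_injective (ctx.geo.cb_inj h1)).symm
  have hne2 : ∀ i i', cb i - cb' i' ≠ 0 := by
    intro i i' h0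
    have h1 : Sum.elim cb cb' (Sum.inl i) = Sum.elim cb cb' (Sum.inr i') := sub_eq_zero.1 h0
    exact Sum.inl_ne_inr (ctx.geo.cb_inj h1)
  have hu1 : ∀ i, ∀ z ∈ J1 sp, ∀ i', i' ≠ i → D.A.valuation (T i z + c0 i - c0 i') = 1 := by
    intro i z hz i' hii
    have hm : T i z + c0 i - c0 i' ∈ D.A := sub_mem (p2 z hz i).2.1 (p5 i').1
    refine GFactsA_val_one hm fun hn => ?_
    have h1 := (l4 _ hm).2 hn
    rw [GFactsA_ra_sub (p2 z hz i).2.1 (p5 i').1, (p2 z hz i).2.2, (p5 i').2] at h1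
    exact hne1 i i' hii h1
  have hu2 : ∀ i, ∀ z ∈ J1 sp, ∀ i', D.A.valuation (T i z + c0 i - c0' i') = 1 := by
    intro i z hz i'
    have hm : T i z + c0 i - c0' i' ∈ D.A := sub_mem (p2 z hz i).2.1 (p5' i').1
    refine GFactsA_val_one hm fun hn => ?_
    have h1 := (l4 _ hm).2 hn
    rw [GFactsA_ra_sub (p2 z hz i).2.1 (p5' i').1, (p2 z hz i).2.2, (p5' i').2] at h1
    exact hne2 i i' h1
  -- regularity of the `b j`
  have hreg : ∀ i l (P : Place K F), sp P = w i l → ∀ j, b j ∈ P.toValuationSubring := by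
    intro i l P hsp j
    obtain ⟨c, -, hc, -⟩ := ctx.geo.fib.reg i l P hsp
    exact (hB K F t (s + 1) Einf ctx.geo.pole (2 * g : ℤ) (sumPl Q0) (GFactsA_sumPl_nonneg Q0)
      (b j) (ctx.lat.mem j) P c hc).1
  obtain ⟨-, e2⟩ := hEE K F k κ D sp g s t w cb P0 c0 T ctx.arch ch N b ctx.lat.int hreg
  refine ⟨hαA, ?_, ?_, ?_, ?_⟩
  · by_contra hcon
    push Not at hcon
    apply hard
    rw [ctx.alpha, (l1 α hαA).2]
    refine Finset.sum_eq_zero fun j _ => ?_
    rw [(l4 _ (hαA j)).2 (hcon j), zero_smul]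
  · intro i S _
    refine ⟨(∏ i' ∈ Finset.univ.erase i,
        (X + C (⟨c0 i - c0 i', sub_mem (p5 i).1 (p5 i').1⟩ : D.A))) *
      ∏ i', (X + C (⟨c0 i - c0' i', sub_mem (p5 i).1 (p5' i').1⟩ : D.A)), fun z _ => ?_⟩
    rw [map_mul, map_prod, map_prod, VV]
    congr 1
    · refine Finset.prod_congr rfl fun i' _ => ?_
      rw [map_add, aeval_X, aeval_C, add_sub_assoc]
      rfl
    · refine Finset.prod_congr rfl fun i' _ => ?_
      rw [map_add, aeval_X, aeval_C, add_sub_assoc]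
      rfl
  · intro i z hz hn
    rw [ValuationSubring.mem_nonunits_iff, VV, map_mul, map_prod, map_prod,
      Finset.prod_eq_one (fun i' hi' => hu1 i z hz i' (Finset.ne_of_mem_erase hi')),
      Finset.prod_eq_one (fun i' _ => hu2 i z hz i'), one_mul] at hn
    exact lt_irrefl _ hn
  · intro i z hz
    obtain ⟨-, hEt⟩ := p3 z hz i 0
    set R := pt sp t (w i 0) (T i z + c0 i) (P0 i) with hR
    have h1 : Ev R (∑ j, α j • b j) (∑ j, α j * EE sp t w P0 c0 T b i 0 j z) := by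
      refine Fermat.Agent.RED.ev_sum _ _ _ fun j _ => ?_
      rw [Algebra.smul_def]
      exact Fermat.Agent.RED.ev_mul (Fermat.Agent.RED.ev_const R (α j)) (e2 z hz i 0 j)
    have h2 : Ev R (aa t c0 c0') ((∏ i', (T i z + c0 i - c0 i')) * ∏ i', (T i z + c0 i - c0' i')) := by
      unfold aa
      refine Fermat.Agent.RED.ev_mul (Fermat.Agent.RED.ev_prod _ _ _ fun i' _ => ?_)
        (Fermat.Agent.RED.ev_prod _ _ _ fun i' _ => ?_)
      · exact Fermat.Agent.RED.ev_sub hEt (Fermat.Agent.RED.ev_const R _)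
      · exact Fermat.Agent.RED.ev_sub hEt (Fermat.Agent.RED.ev_const R _)
    rw [ctx.alpha] at h2
    rw [Fermat.Agent.RED.ev_unique h1 h2, VV, ← mul_assoc,
      ← Finset.mul_prod_erase Finset.univ (fun i' => T i z + c0 i - c0 i') (Finset.mem_univ i),
      add_sub_cancel_right]

end Fermat.Agent.FF19.Law

end
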