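import Fermat.Agent.FF19.Law.GeoInterface

/-!
# FF19 / Law / Geo : (FFG-15) the field `geo1` of `LawFacts` (helper6)
-/

set_option autoImplicit false

noncomputable section

namespace Fermat.Agent.FF19.Law

open AlgebraicCurve Polynomial
open Fermat.Agent.INJ (RedData)
open Fermat.Agent.RED (Ev)
open Fermat.Agent.FF19.A (sumPl push IsDivOf SpData CurveFacts Base InJ1 Rep IsVal)

theorem GFactsG1_sumPl_nonneg {K F : Type} [Field K] [Field F] [Algebra K F] {g : ℕ}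
    (P : Fin g → Place K F) : 0 ≤ sumPl P :=
  Finset.sum_nonneg (fun _ _ => Finsupp.single_nonneg.2 zero_le_one)

/-- evaluation of a linear combination. -/
theorem GFactsG1_ev_lin {K F : Type} [Field K] [Field F] [Algebra K F] {N : ℕ} (R : Place K F)
    (γ : Fin N → K) (b : Fin N → F) (e : Fin N → K) (h : ∀ j, Ev R (b j) (e j)) :
    Ev R (∑ j, γ j • b j) (∑ j, γ j * e j) := by
  refine Fermat.Agent.RED.ev_sum _ _ _ (fun j _ => ?_)
  rw [Algebra.smul_def]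
  exact Fermat.Agent.RED.ev_mul (Fermat.Agent.RED.ev_const R (γ j)) (h j)

/-- one chart: the linear conditions at the other points of the fibres. -/
theorem GFactsG1_chart (hP : Stmt_Pt) (hEE : Stmt_PolyEE) (hB : Stmt_RegB)
    {K F k κ : Type} [Field K] [Field F] [Algebra K F] [Field k] [Field κ] [Algebra k κ]
    {D : RedData K F k κ} {sp : Place K F → Place k κ} {g s : ℕ} {t : F} {Einf : Divisor K F}
    {w : Fin g → Fin (s + 1) → Place k κ} {cb : Fin g → k} {P0 : Fin g → Place K F}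
    {c0 : Fin g → K} {T : Fin g → Pic0 K F → K} (harch : Arch D.A)
    (C : Chart1 D sp g s t w cb P0 c0 T) (hpole : PoleDiv t (s + 1) Einf) (m : ℤ)
    (E' : Divisor K F) (hE' : 0 ≤ E') {N : ℕ} {b : Fin N → F} (hlat : IsLat D (m • Einf - E') b)
    (z : Pic0 K F) (hz : z ∈ J1 sp) (γ : Fin N → K)
    (hf : ∀ (i : Fin g) (l : Fin s) (R : Place K F), sp R = w i l.succ →
      Ev R t (T i z + c0 i) → Ev R (∑ j, γ j • b j) 0) (i : Fin g) (l : Fin s) :
    ∑ j, γ j * EE sp t w P0 c0 T b i l.succ j z = 0 := by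
  obtain ⟨-, -, p3, -, -, -⟩ := hP K F k κ D sp g s t w cb P0 c0 T C
  have hreg : ∀ i l (P : Place K F), sp P = w i l → ∀ j, b j ∈ P.toValuationSubring := by
    intro i l P hPw j
    obtain ⟨c, -, hc, -⟩ := C.fib.reg i l P hPw
    exact (hB K F t (s + 1) Einf hpole m E' hE' (b j) (hlat.mem j) P c hc).1
  have hev := (hEE K F k κ D sp g s t w cb P0 c0 T harch C N b hlat.int hreg).2 z hz i l.succ
  obtain ⟨hsp, hEv⟩ := p3 z hz i l.succ
  exact Fermat.Agent.RED.ev_unique (GFactsG1_ev_lin _ γ b _ hev) (hf i l _ hsp hEv)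

/-- (FFG-15) -/
theorem gFactsG1 (h1 : Stmt_Geo1) (hP : Stmt_Pt) (hEE : Stmt_PolyEE) (hB : Stmt_RegB) :
    Stmt_FactsG1 := by
  intro K F k κ _ _ _ _ _ _ D sp g s t Einf w w' cb cb' P0 Q0 c0 c0' T T' N b α hC z hz z' hz'
  have C1 : Chart1 D sp g s t w cb P0 c0 T :=
    ⟨hC.geo.t_mem, hC.geo.spd, hC.geo.cf, hC.geo.fib, hC.geo.base, hC.v0, hC.co⟩
  have C2 : Chart1 D sp g s t w' cb' Q0 c0' T' :=
    ⟨hC.geo.t_mem, hC.geo.spd, hC.geo.cf, hC.geo.fib', hC.geo.base', hC.v0', hC.co'⟩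
  obtain ⟨p1, -, -, -, -, -⟩ := hP K F k κ D sp g s t w cb P0 c0 T C1
  obtain ⟨q1, -, -, -, -, -⟩ := hP K F k κ D sp g s t w' cb' Q0 c0' T' C2
  obtain ⟨P, hRepP, hPi⟩ := p1 z hz
  obtain ⟨Q, hRepQ, hQi⟩ := q1 z' hz'
  obtain ⟨f, hfL, hf0, hf1, hf2⟩ := h1 K F k κ D sp g s t Einf w w' cb cb' P0 Q0 hC.geo P Q
    (fun i => T i z + c0 i) (fun i => T' i z' + c0' i) hRepP.1 hRepQ.1 (fun i => (hPi i).1)
    (fun i => (hQi i).1)
  obtain ⟨γ, hγ⟩ := hC.lat.span f hfL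
  refine ⟨γ, ?_, ?_, ?_⟩
  · rintro rfl
    apply hf0
    rw [hγ]
    simp
  · exact GFactsG1_chart hP hEE hB hC.arch C1 hC.geo.pole _ _ (GFactsG1_sumPl_nonneg Q0) hC.lat z hz
      γ (fun i l R h h' => hγ ▸ hf1 i l R h h')
  · exact GFactsG1_chart hP hEE hB hC.arch C2 hC.geo.pole _ _ (GFactsG1_sumPl_nonneg Q0) hC.lat z'
      hz' γ (fun i l R h h' => hγ ▸ hf2 i l R h h')

end Fermat.Agent.FF19.Law

end
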