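import Fermat.Agent.FF19.Law.GeoInterface

/-!
# FF19 / Law / Geo : FFG-16, the field `geo2` of `LawFacts`
-/

set_option autoImplicit false

noncomputable section

namespace Fermat.Agent.FF19.Law

open AlgebraicCurve Polynomial
open Fermat.Agent.INJ (RedData)
open Fermat.Agent.RED (Ev)
open Fermat.Agent.FF19.A (sumPl push IsDivOf SpData CurveFacts Base InJ1 Rep IsVal)

section GFactsG2

variable {K F k κ : Type} [Field K] [Field F] [Algebra K F] [Field k] [Field κ] [Algebra k κ]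

theorem GFactsG2_sumPl_nonneg {g : ℕ} (P : Fin g → Place K F) : 0 ≤ sumPl P := by
  unfold sumPl
  refine Finset.sum_nonneg fun i _ => ?_
  intro Q
  classical
  rw [Finsupp.single_apply]
  split_ifs
  · exact zero_le_one
  · exact le_refl _

/-- value of a linear combination. -/
theorem GFactsG2_ev_sum {N : ℕ} (R : Place K F) (γ : Fin N → K) (b : Fin N → F) (e : Fin N → K)
    (h : ∀ j, Ev R (b j) (e j)) : Ev R (∑ j, γ j • b j) (∑ j, γ j * e j) := by
  refine RED.ev_sum Finset.univ _ _ fun j _ => ?_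
  rw [Algebra.smul_def]
  exact RED.ev_mul (RED.ev_const R (γ j)) (h j)

/-- the elements of the lattice are regular on the discs of the fibres. -/
theorem GFactsG2_reg (hB : Stmt_RegB) {D : RedData K F k κ} {sp : Place K F → Place k κ} {g s : ℕ}
    {t : F} {Einf : Divisor K F} {w : Fin g → Fin (s + 1) → Place k κ} {cb : Fin g → k}
    (hpole : PoleDiv t (s + 1) Einf) (hfib : Fibres D sp t w cb) (Q0 : Fin g → Place K F)
    {N : ℕ} {b : Fin N → F} (hlat : IsLat D ((2 * g : ℤ) • Einf - sumPl Q0) b) :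
    ∀ i l (P : Place K F), sp P = w i l → ∀ j, b j ∈ P.toValuationSubring := by
  intro i l P hP j
  obtain ⟨c, -, hc, -⟩ := hfib.reg i l P hP
  exact (hB K F t (s + 1) Einf hpole (2 * g : ℤ) (sumPl Q0) (GFactsG2_sumPl_nonneg Q0) (b j)
    (hlat.mem j) P c hc).1

/-- one chart: the value of `∑ γ j • b j` at any point of the disc of `w i l` in the fibre of `t` through
`P_i(z)`. -/
theorem GFactsG2_chart (hD : Stmt_Disc) (hP : Stmt_Pt) (hEE : Stmt_PolyEE)
    {D : RedData K F k κ} {sp : Place K F → Place k κ} {g s : ℕ} {t : F}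
    {w : Fin g → Fin (s + 1) → Place k κ} {cb : Fin g → k} {P0 : Fin g → Place K F}
    {c0 : Fin g → K} {T : Fin g → Pic0 K F → K} (harch : Arch D.A)
    (hch : Chart1 D sp g s t w cb P0 c0 T) {N : ℕ} {b : Fin N → F} (hint : ∀ j, b j ∈ D.O)
    (hreg : ∀ i l (P : Place K F), sp P = w i l → ∀ j, b j ∈ P.toValuationSubring)
    (γ : Fin N → K) (z : Pic0 K F) (hz : z ∈ J1 sp) (i : Fin g) (l : Fin (s + 1))
    (R : Place K F) (hR : sp R = w i l) (hRt : Ev R t (T i z + c0 i)) :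
    Ev R (∑ j, γ j • b j) (∑ j, γ j * EE sp t w P0 c0 T b i l j z) := by
  obtain ⟨-, hp2, hp3, -, -, -⟩ := hP K F k κ D sp g s t w cb P0 c0 T hch
  obtain ⟨-, hcA, hra⟩ := hp2 z hz i
  obtain ⟨P, -, -, -, huniq⟩ := hD K F k κ D sp g hch.spd hch.cf t (w i l) (cb i) hch.t_mem
    (hch.fib.reg i l) (hch.fib.unr i l) (T i z + c0 i) hcA hra
  obtain ⟨hs, ht⟩ := hp3 z hz i l
  have hRpt : R = pt sp t (w i l) (T i z + c0 i) (P0 i) :=
    (huniq R hR hRt).trans (huniq _ hs ht).symm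
  have hev := (hEE K F k κ D sp g s t w cb P0 c0 T harch hch N b hint hreg).2 z hz i l
  rw [← hRpt] at hev
  exact GFactsG2_ev_sum R γ b _ hev

end GFactsG2

/-- **FFG-16**. -/
theorem gFactsG2 (h2 : Stmt_Geo2) (hD : Stmt_Disc) (hL : Stmt_LatCoord) (hP : Stmt_Pt)
    (hEE : Stmt_PolyEE) (hB : Stmt_RegB) : Stmt_FactsG2 := by
  intro K F k κ _ _ _ _ _ _ D sp g s t Einf w w' cb cb' P0 Q0 c0 c0' T T' N b α hc z hz z' hz' γ hγ
    h1 h1' i
  have hch : Chart1 D sp g s t w cb P0 c0 T :=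
    ⟨hc.geo.t_mem, hc.geo.spd, hc.geo.cf, hc.geo.fib, hc.geo.base, hc.v0, hc.co⟩
  have hch' : Chart1 D sp g s t w' cb' Q0 c0' T' :=
    ⟨hc.geo.t_mem, hc.geo.spd, hc.geo.cf, hc.geo.fib', hc.geo.base', hc.v0', hc.co'⟩
  have hreg := GFactsG2_reg hB hc.geo.pole hc.geo.fib Q0 hc.lat
  have hreg' := GFactsG2_reg hB hc.geo.pole hc.geo.fib' Q0 hc.lat
  have hfmem : (∑ j, γ j • b j) ∈ riemannRochSpace ((2 * g : ℤ) • Einf - sumPl Q0) :=
    Submodule.sum_mem _ fun j _ => Submodule.smul_mem _ _ (hc.lat.mem j)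
  have hf0 : (∑ j, γ j • b j) ≠ 0 := fun h0 =>
    hγ ((hL K F k κ D _ N b hc.lat).2.2.1 γ h0)
  obtain ⟨P, hrep, hPv⟩ := (hP K F k κ D sp g s t w cb P0 c0 T hch).1 z hz
  obtain ⟨Q, hrepQ, hQv⟩ := (hP K F k κ D sp g s t w' cb' Q0 c0' T' hch').1 z' hz'
  obtain ⟨P'', hrep'', hPv''⟩ := (hP K F k κ D sp g s t w cb P0 c0 T hch).1 (z + z')
    (add_mem hz hz')
  have key := h2 K F k κ D sp g s t Einf w w' cb cb' P0 Q0 hc.geo z z' P Q P''
    (fun i => T i z + c0 i) (fun i => T' i z' + c0' i) hrep hrepQ hrep'' (fun i => (hPv i).1)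
    (fun i => (hQv i).1) _ hfmem hf0
    (fun i l R hR hRt => by
      have := GFactsG2_chart hD hP hEE hc.arch hch hc.lat.int hreg γ z hz i l.succ R hR hRt
      rwa [h1 i l] at this)
    (fun i l R hR hRt => by
      have := GFactsG2_chart hD hP hEE hc.arch hch' hc.lat.int hreg' γ z' hz' i l.succ R hR hRt
      rwa [h1' i l] at this) i
  have hev := GFactsG2_chart hD hP hEE hc.arch hch hc.lat.int hreg γ (z + z') (add_mem hz hz') i 0
    (P'' i) (hrep''.1 i) (hPv'' i).1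
  exact RED.ev_unique hev key

end Fermat.Agent.FF19.Law

end
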