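import Fermat.Agent.FF19.Law.GeoInterface

/-!
# FF19 / Law / Geo : task FFG-17 (helper46), the field `geo3` of `LawFacts`
-/

set_option autoImplicit false

noncomputable section

namespace Fermat.Agent.FF19.Law

open AlgebraicCurve Polynomial
open Fermat.Agent.INJ (RedData)
open Fermat.Agent.RED (Ev)
open Fermat.Agent.FF19.A (sumPl push IsDivOf SpData CurveFacts Base InJ1 Rep IsVal)

section

variable {K F k κ : Type} [Field K] [Field F] [Algebra K F] [Field k] [Field κ] [Algebra k κ]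

theorem GFactsG3_sumPl_nonneg {g : ℕ} (P : Fin g → Place K F) : 0 ≤ sumPl P := by
  classical
  intro R
  rw [sumPl, Finsupp.finsetSum_apply]
  refine Finset.sum_nonneg fun i _ => ?_
  rw [Finsupp.single_apply]
  split_ifs <;> simp

theorem GFactsG3_ra_sub_mul (D : RedData K F k κ) {a c e : K} (ha : a ∈ D.A) (hc : c ∈ D.A)
    (he : e ∈ D.A) : D.ra (a - c * e) = D.ra a - D.ra c * D.ra e := by
  rw [RedData.ra_of_mem ha, RedData.ra_of_mem hc, RedData.ra_of_mem he,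
    RedData.ra_of_mem (sub_mem ha (mul_mem hc he)), ← map_mul, ← map_sub]
  rfl

/-- the values of `∑ β j • b j` on one system of fibres. -/
theorem GFactsG3_half (hD : Stmt_Disc) (hP : Stmt_Pt) (hEE : Stmt_PolyEE)
    (D : RedData K F k κ) (sp : Place K F → Place k κ) (g s : ℕ) (t : F)
    (w : Fin g → Fin (s + 1) → Place k κ) (cb : Fin g → k) (P0 : Fin g → Place K F)
    (c0 : Fin g → K) (T : Fin g → Pic0 K F → K) (hA : Arch D.A)
    (hC : Chart1 D sp g s t w cb P0 c0 T) (N : ℕ) (b : Fin N → F) (hbO : ∀ j, b j ∈ D.O)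
    (hreg : ∀ i l (P : Place K F), sp P = w i l → ∀ j, b j ∈ P.toValuationSubring)
    (β : Fin N → K)
    (H : ∀ (i : Fin g) (l : Fin s), ∑ j, β j * EE sp t w P0 c0 T b i l.succ j 0 ∈ D.A.nonunits)
    (i : Fin g) (l : Fin s) (R : Place K F) (hR : sp R = w i l.succ) (hRt : Ev R t (c0 i)) :
    ∃ e ∈ D.A.nonunits, Ev R (∑ j, β j • b j) e := by
  obtain ⟨-, -, hP3, hP4, hP5, -⟩ := hP K F k κ D sp g s t w cb P0 c0 T hC
  obtain ⟨-, hE2⟩ := hEE K F k κ D sp g s t w cb P0 c0 T hA hC N b hbO hreg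
  have h0 : (0 : Pic0 K F) ∈ J1 sp := (J1 sp).zero_mem
  obtain ⟨P, -, -, -, huniq⟩ := hD K F k κ D sp g hC.spd hC.cf t (w i l.succ) (cb i) hC.t_mem
    (hC.fib.reg i l.succ) (hC.fib.unr i l.succ) (c0 i) (hP5 i).1 (hP5 i).2
  have hpt := hP3 0 h0 i l.succ
  have hc : T i 0 + c0 i = c0 i := by rw [hP4 i, zero_add]
  have hRP : R = P := huniq R hR hRt
  have hptP : pt sp t (w i l.succ) (T i 0 + c0 i) (P0 i) = P :=
    huniq _ hpt.1 (by
      have h2 := hpt.2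
      generalize pt sp t (w i l.succ) (T i 0 + c0 i) (P0 i) = X at h2
      rwa [hc] at h2)
  refine ⟨_, H i l, ?_⟩
  refine Fermat.Agent.RED.ev_sum _ _ _ fun j _ => ?_
  rw [Algebra.smul_def]
  refine Fermat.Agent.RED.ev_mul (Fermat.Agent.RED.ev_const R (β j)) ?_
  have h1 := hE2 0 h0 i l.succ j
  rw [hptP, ← hRP] at h1
  exact h1

end

theorem gFactsG3 (h3 : Stmt_Geo3) (hD : Stmt_Disc) (hL : Stmt_LatCoord) (hP : Stmt_Pt)
    (hEE : Stmt_PolyEE) (hB : Stmt_RegB) (hFA : Stmt_FactsA) : Stmt_FactsG3 := by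
  intro K F k κ _ _ _ _ _ _ D sp g s t Einf w w' cb cb' P0 Q0 c0 c0' T T' N b α C β hβ H1 H2
  obtain ⟨hL1, -, -, hL4⟩ := hL K F k κ D _ N b C.lat
  obtain ⟨hα, -, -, -, -⟩ :=
    hFA K F k κ D sp g s t Einf w w' cb cb' P0 Q0 c0 c0' T T' N b α C
  have hC1 : Chart1 D sp g s t w cb P0 c0 T :=
    ⟨C.geo.t_mem, C.geo.spd, C.geo.cf, C.geo.fib, C.geo.base, C.v0, C.co⟩
  have hC2 : Chart1 D sp g s t w' cb' Q0 c0' T' :=
    ⟨C.geo.t_mem, C.geo.spd, C.geo.cf, C.geo.fib', C.geo.base', C.v0', C.co'⟩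
  have hreg1 : ∀ i l (P : Place K F), sp P = w i l → ∀ j, b j ∈ P.toValuationSubring := by
    intro i l P hsp j
    obtain ⟨c, -, hc, -⟩ := C.geo.fib.reg i l P hsp
    exact (hB K F t (s + 1) Einf C.geo.pole _ _ (GFactsG3_sumPl_nonneg Q0) (b j) (C.lat.mem j)
      P c hc).1
  have hreg2 : ∀ i l (P : Place K F), sp P = w' i l → ∀ j, b j ∈ P.toValuationSubring := by
    intro i l P hsp j
    obtain ⟨c, -, hc, -⟩ := C.geo.fib'.reg i l P hsp
    exact (hB K F t (s + 1) Einf C.geo.pole _ _ (GFactsG3_sumPl_nonneg Q0) (b j) (C.lat.mem j)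
      P c hc).1
  have hfL : (∑ j, β j • b j) ∈ riemannRochSpace ((2 * g : ℤ) • Einf - sumPl Q0) :=
    Submodule.sum_mem _ fun j _ => Submodule.smul_mem _ _ (C.lat.mem j)
  obtain ⟨hfO, hfrd⟩ := hL1 β hβ
  obtain ⟨c, hc, hcf⟩ := h3 K F k κ D sp g s t Einf w w' cb cb' P0 Q0 C.geo c0 c0' C.v0 C.v0'
    _ hfL hfO
    (GFactsG3_half hD hP hEE D sp g s t w cb P0 c0 T C.arch hC1 N b C.lat.int hreg1 β H1)
    (GFactsG3_half hD hP hEE D sp g s t w' cb' Q0 c0' T' C.arch hC2 N b C.lat.int hreg2 β H2)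
  refine ⟨c, hc, fun j => ?_⟩
  rw [C.alpha, (hL1 α hα).2, hfrd, Finset.mul_sum] at hcf
  have hlin : ∑ j, (D.ra (β j) - D.ra c * D.ra (α j)) • D.rd (b j) = 0 := by
    simp only [sub_smul, Finset.sum_sub_distrib]
    rw [hcf, sub_eq_zero]
    refine Finset.sum_congr rfl fun j _ => ?_
    rw [mul_smul, Algebra.smul_def (D.ra c)]
  have h0 := Fintype.linearIndependent_iff.1 C.lat.indep _ hlin j
  have hmem : β j - c * α j ∈ D.A := sub_mem (hβ j) (mul_mem hc (hα j))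
  refine (hL4 _ hmem).1 ?_
  rw [GFactsG3_ra_sub_mul D (hβ j) hc (hα j)]
  exact h0

end Fermat.Agent.FF19.Law

end
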