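import Fermat.Agent.FF19.Law.GeoInterface
import Fermat.Agent.FF19.A.Comb
import Fermat.Agent.S24.PlaceBasic

/-!
# FF19 / Law / Geo : (FFG-8) Riemann: `a_x L(D_z + D'_{z'} - D₀') ≠ 0`   (helper85)
-/

set_option autoImplicit false

noncomputable section

namespace Fermat.Agent.FF19.Law

open AlgebraicCurve Polynomial
open Fermat.Agent.INJ (RedData)
open Fermat.Agent.RED (Ev)
open Fermat.Agent.FF19.A (sumPl push IsDivOf SpData CurveFacts Base InJ1 Rep IsVal)

section Aux

variable {K F : Type} [Field K] [Field F] [Algebra K F]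

theorem GGeo1_ord_prod {ι : Type} (R : Place K F) (s : Finset ι) (h : ι → F)
    (h0 : ∀ i ∈ s, h i ≠ 0) : R.ord (∏ i ∈ s, h i) = ∑ i ∈ s, R.ord (h i) := by
  classical
  induction s using Finset.induction_on with
  | empty => simp
  | insert i s hi ih =>
    rw [Finset.prod_insert hi, Finset.sum_insert hi,
      R.ord_mul (h0 i (Finset.mem_insert_self i s))
        (Finset.prod_ne_zero_iff.2 fun j hj => h0 j (Finset.mem_insert_of_mem hj)),
      ih fun j hj => h0 j (Finset.mem_insert_of_mem hj)]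

/-- `ord_R (t - a) + (t)_∞ (R) ≥ 0`. -/
theorem GGeo1_factor_nonneg {t : F} {n : ℕ} {Einf : Divisor K F} (hE : PoleDiv t n Einf)
    (R : Place K F) (a : K) (h0 : t - algebraMap K F a ≠ 0) :
    0 ≤ R.ord (t - algebraMap K F a) + Einf R := by
  rw [hE.val R]
  by_cases ht : t ∈ R.toValuationSubring
  · have h1 : t - algebraMap K F a ∈ R.toValuationSubring :=
      sub_mem ht (R.algebraMap_mem' a)
    have h2 := Fermat.Agent.S24.ord_nonneg_of_mem R h1
    have h3 : (0 : ℤ) ≤ max 0 (-(R.ord t)) := le_max_left _ _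
    omega
  · have ht0 : t ≠ 0 := by
      rintro rfl
      exact ht (zero_mem _)
    have h3 : -(R.ord t) ≤ max 0 (-(R.ord t)) := le_max_right _ _
    have hneg : R.ord t < 0 := by
      by_contra hc
      exact ht (Fermat.Agent.S24.mem_of_ord_nonneg R ht0 (not_lt.1 hc))
    rcases eq_or_ne a 0 with rfl | ha
    · rw [map_zero, sub_zero]
      omega
    · have ha' : -algebraMap K F a ≠ 0 := by
        rw [neg_ne_zero]
        exact (map_ne_zero (algebraMap K F)).2 ha
      have h4 := Fermat.Agent.S24.ord_add_ge R ht0 ha' (by rwa [← sub_eq_add_neg])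
      rw [← sub_eq_add_neg, ← map_neg, Fermat.Agent.S24.ord_algebraMap] at h4
      have h5 : min (R.ord t) 0 = R.ord t := min_eq_left hneg.le
      omega

/-- `ord_R (t - a) + (t)_∞ (R) ≥ 1` if `t(R) = a`. -/
theorem GGeo1_factor_pos {t : F} {n : ℕ} {Einf : Divisor K F} (hE : PoleDiv t n Einf)
    (R : Place K F) (a : K) (h0 : t - algebraMap K F a ≠ 0) (hR : Ev R t a) :
    1 ≤ R.ord (t - algebraMap K F a) + Einf R := by
  rw [hE.val R]
  have h1 : Ev R (t - algebraMap K F a) 0 := by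
    have := Fermat.Agent.RED.ev_sub hR (Fermat.Agent.RED.ev_const R a)
    rwa [sub_self] at this
  have h2 := (Fermat.Agent.RED.ev_zero_iff_ord h0).1 h1
  have h3 : (0 : ℤ) ≤ max 0 (-(R.ord t)) := le_max_left _ _
  omega

/-- one family of factors. -/
theorem GGeo1_sum_le {t : F} {n : ℕ} {Einf : Divisor K F} (hE : PoleDiv t n Einf) {g : ℕ}
    (P : Fin g → Place K F) (c : Fin g → K) (hv : IsVal t P c)
    (h0 : ∀ i, t - algebraMap K F (c i) ≠ 0) (R : Place K F) :
    sumPl P R ≤ R.ord (∏ i, (t - algebraMap K F (c i))) + (g : ℤ) * Einf R := by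
  classical
  rw [GGeo1_ord_prod R Finset.univ _ (fun i _ => h0 i), sumPl,
    Fermat.Agent.FF19.A.Comb.sum_single_apply]
  have h1 : (g : ℤ) * Einf R = ∑ _i : Fin g, Einf R := by
    rw [Finset.sum_const, Finset.card_univ, Fintype.card_fin, nsmul_eq_mul]
  rw [h1, ← Finset.sum_add_distrib]
  refine Finset.sum_le_sum fun i _ => ?_
  split_ifs with h
  · exact GGeo1_factor_pos hE R (c i) (h0 i) (h ▸ hv i)
  · exact GGeo1_factor_nonneg hE R (c i) (h0 i)

theorem GGeo1_degree_sumPl {g g' : ℕ} (cf : CurveFacts K F g') (P : Fin g → Place K F) :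
    Divisor.degree (sumPl P) = g := by
  rw [sumPl, map_sum]
  have : ∀ i ∈ (Finset.univ : Finset (Fin g)),
      Divisor.degree (Finsupp.single (P i) (1 : ℤ)) = 1 := by
    intro i _
    rw [Divisor.degree_single, cf.deg1, Nat.cast_one, mul_one]
  rw [Finset.sum_congr rfl this, Finset.sum_const, Finset.card_univ, Fintype.card_fin]
  simp

/-- vanishing of `aa * f0` at a point of one of the fibres which is none of the `P i`, `Q i`. -/
theorem GGeo1_vanish {t : F} {g : ℕ} (P Q Q0 : Fin g → Place K F) (c c' : Fin g → K) (f0 : F)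
    (hf0 : f0 ≠ 0) (hf : ∀ R : Place K F, 0 ≤ (sumPl P + sumPl Q - sumPl Q0) R + R.ord f0)
    (R : Place K F) (a : K) (hR : Ev R t a) (ha : (∃ i, c i = a) ∨ ∃ i, c' i = a)
    (hP : ∀ i, R ≠ P i) (hQ : ∀ i, R ≠ Q i) : Ev R (aa t c c' * f0) 0 := by
  have h1 : Ev R (∏ i, (t - algebraMap K F (c i))) (∏ i, (a - c i)) :=
    Fermat.Agent.RED.ev_prod _ _ _ fun i _ =>
      Fermat.Agent.RED.ev_sub hR (Fermat.Agent.RED.ev_const R (c i))
  have h2 : Ev R (∏ i, (t - algebraMap K F (c' i))) (∏ i, (a - c' i)) :=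
    Fermat.Agent.RED.ev_prod _ _ _ fun i _ =>
      Fermat.Agent.RED.ev_sub hR (Fermat.Agent.RED.ev_const R (c' i))
  have h3 : Ev R (aa t c c') 0 := by
    have h := Fermat.Agent.RED.ev_mul h1 h2
    have hz : (∏ i, (a - c i)) * ∏ i, (a - c' i) = 0 := by
      rcases ha with ⟨i, hi⟩ | ⟨i, hi⟩
      · rw [Finset.prod_eq_zero (Finset.mem_univ i) (by rw [hi, sub_self]), zero_mul]
      · rw [Finset.prod_eq_zero (s := Finset.univ) (f := fun i => a - c' i) (Finset.mem_univ i)
          (by rw [hi, sub_self]), mul_zero]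
    rwa [hz] at h
  have h4 : f0 ∈ R.toValuationSubring := by
    apply Fermat.Agent.S24.mem_of_ord_nonneg R hf0
    have h5 := hf R
    rw [Finsupp.sub_apply, Finsupp.add_apply] at h5
    have h6 : sumPl P R = 0 := Fermat.Agent.FF19.A.Comb.sum_single_eq_zero P R hP
    have h7 : sumPl Q R = 0 := Fermat.Agent.FF19.A.Comb.sum_single_eq_zero Q R hQ
    have h8 : 0 ≤ sumPl Q0 R := Fermat.Agent.FF19.A.Comb.sum_single_nonneg Q0 R
    omega
  rw [Fermat.Agent.RED.ev_zero_iff] at h3 ⊢
  exact Fermat.Agent.RED.EV_nonunits_mul_mem _ h3 h4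

end Aux

theorem gGeo1 : Stmt_Geo1 := by
  intro K F k κ _ _ _ _ _ _ D sp g s t Einf w w' cb cb' P0 Q0 hG P Q c c' hP hQ vP vQ
  -- the values reduce to `cb`, `cb'`
  have hra : ∀ (i : Fin g) (l : Fin (s + 1)) (R : Place K F) (a : K), sp R = w i l → Ev R t a →
      a ∈ D.A ∧ D.ra a = cb i := by
    intro i l R a hR ha
    obtain ⟨a', ha'A, ha', hr⟩ := hG.fib.reg i l R hR
    have := Fermat.Agent.RED.ev_unique ha ha'
    subst this
    exact ⟨ha'A, hr⟩
  have hra' : ∀ (i : Fin g) (l : Fin (s + 1)) (R : Place K F) (a : K), sp R = w' i l → Ev R t a →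
      a ∈ D.A ∧ D.ra a = cb' i := by
    intro i l R a hR ha
    obtain ⟨a', ha'A, ha', hr⟩ := hG.fib'.reg i l R hR
    have := Fermat.Agent.RED.ev_unique ha ha'
    subst this
    exact ⟨ha'A, hr⟩
  -- the factors are non zero
  have h0 : ∀ i, t - algebraMap K F (c i) ≠ 0 := by
    intro i h
    obtain ⟨hA, hr⟩ := hra i 0 (P i) (c i) (hP i) (vP i)
    have h1 := hG.fib.unr i 0
    rw [sub_eq_zero.1 h, RedData.rd_algebraMap hA, hr, sub_self, Place.ord_zero] at h1
    exact zero_ne_one h1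
  have h0' : ∀ i, t - algebraMap K F (c' i) ≠ 0 := by
    intro i h
    obtain ⟨hA, hr⟩ := hra' i 0 (Q i) (c' i) (hQ i) (vQ i)
    have h1 := hG.fib'.unr i 0
    rw [sub_eq_zero.1 h, RedData.rd_algebraMap hA, hr, sub_self, Place.ord_zero] at h1
    exact zero_ne_one h1
  have hp1 : ∏ i, (t - algebraMap K F (c i)) ≠ 0 := Finset.prod_ne_zero_iff.2 fun i _ => h0 i
  have hp2 : ∏ i, (t - algebraMap K F (c' i)) ≠ 0 := Finset.prod_ne_zero_iff.2 fun i _ => h0' i
  have haa : aa t c c' ≠ 0 := mul_ne_zero hp1 hp2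
  -- Riemann
  have hdeg : (g : ℤ) ≤ Divisor.degree (sumPl P + sumPl Q - sumPl Q0) := by
    rw [map_sub, map_add, GGeo1_degree_sumPl hG.cf, GGeo1_degree_sumPl hG.cf,
      GGeo1_degree_sumPl hG.cf]
    omega
  obtain ⟨f0, hf0, hf⟩ := hG.cf.eff _ hdeg
  have hcb : Function.Injective cb := fun i j h =>
    Sum.inl_injective (hG.cb_inj (by simpa using h))
  have hcb' : Function.Injective cb' := fun i j h =>
    Sum.inr_injective (hG.cb_inj (by simpa using h))
  have hcc : ∀ i j, cb i ≠ cb' j := fun i j h => by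
    have : (Sum.inl i : Fin g ⊕ Fin g) = Sum.inr j := hG.cb_inj (by simpa using h)
    exact Sum.inl_ne_inr this
  refine ⟨aa t c c' * f0, ?_, mul_ne_zero haa hf0, ?_, ?_⟩
  · rw [mem_riemannRochSpace_iff]
    intro R
    right
    rw [R.ord_mul haa hf0, aa, R.ord_mul hp1 hp2, Finsupp.sub_apply, Finsupp.smul_apply,
      smul_eq_mul]
    have h1 := GGeo1_sum_le hG.pole P c vP h0 R
    have h2 := GGeo1_sum_le hG.pole Q c' vQ h0' R
    have h3 := hf R
    rw [Finsupp.sub_apply, Finsupp.add_apply] at h3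
    linarith
  · intro i l R hR hRt
    refine GGeo1_vanish P Q Q0 c c' f0 hf0 hf R (c i) hRt (Or.inl ⟨i, rfl⟩) ?_ ?_
    · rintro j rfl
      have e1 := (hra i l.succ _ _ hR hRt).2
      have e2 := (hra j 0 _ _ (hP j) hRt).2
      have hij : i = j := hcb (e1.symm.trans e2)
      subst hij
      have := hG.fib.inj i ((hP i).symm.trans hR)
      exact (Fin.succ_ne_zero l) this.symm
    · rintro j rfl
      have e1 := (hra i l.succ _ _ hR hRt).2
      have e2 := (hra' j 0 _ _ (hQ j) hRt).2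
      exact hcc i j (e1.symm.trans e2)
  · intro i l R hR hRt
    refine GGeo1_vanish P Q Q0 c c' f0 hf0 hf R (c' i) hRt (Or.inr ⟨i, rfl⟩) ?_ ?_
    · rintro j rfl
      have e1 := (hra' i l.succ _ _ hR hRt).2
      have e2 := (hra j 0 _ _ (hP j) hRt).2
      exact hcc j i (e2.symm.trans e1)
    · rintro j rfl
      have e1 := (hra' i l.succ _ _ hR hRt).2
      have e2 := (hra' j 0 _ _ (hQ j) hRt).2
      have hij : i = j := hcb' (e1.symm.trans e2)
      subst hij
      have := hG.fib'.inj i ((hQ i).symm.trans hR)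
      exact (Fin.succ_ne_zero l) this.symm

end Fermat.Agent.FF19.Law

end
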