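import Fermat.Agent.FF19.Law.GeoInterface

/-!
# FF19 / Law / Geo : (FFG-9) uniqueness of `D_{z + z'}` (`Stmt_Geo2`)

`a = ∏ (t - c i) ∏ (t - c' i)`, `h` with `div h = ∑ P + ∑ Q - ∑ Q0 - ∑ P''`; `u = f / a * h` lies in
`L(∑ P'')`, hence is a non zero constant; compare the orders at `P'' i`.
-/

set_option autoImplicit false

noncomputable section

namespace Fermat.Agent.FF19.Law

open AlgebraicCurve Polynomial
open Fermat.Agent.INJ (RedData)
open Fermat.Agent.RED (Ev)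
open Fermat.Agent.FF19.A (sumPl push IsDivOf SpData CurveFacts Base InJ1 Rep IsVal)

section Aux

variable {K F : Type} [Field K] [Field F] [Algebra K F]

open Classical in
theorem GGeo2_sumPl_apply {g : ℕ} (P : Fin g → Place K F) (R : Place K F) :
    sumPl P R = ∑ i, if P i = R then (1 : ℤ) else 0 := by
  unfold sumPl
  rw [Finsupp.finsetSum_apply]
  refine Finset.sum_congr rfl fun i _ => ?_
  rw [Finsupp.single_apply]

theorem GGeo2_sumPl_nonneg {g : ℕ} (P : Fin g → Place K F) (R : Place K F) : 0 ≤ sumPl P R := by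
  classical
  rw [GGeo2_sumPl_apply]
  refine Finset.sum_nonneg fun i _ => ?_
  split_ifs <;> norm_num

theorem GGeo2_sumPl_eq_zero {g : ℕ} (P : Fin g → Place K F) (R : Place K F)
    (h : ∀ i, R ≠ P i) : sumPl P R = 0 := by
  classical
  rw [GGeo2_sumPl_apply]
  refine Finset.sum_eq_zero fun i _ => ?_
  rw [if_neg (fun h' => h i h'.symm)]

theorem GGeo2_sumPl_pos {g : ℕ} (P : Fin g → Place K F) (i : Fin g) : 1 ≤ sumPl P (P i) := by
  classical
  rw [GGeo2_sumPl_apply]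
  have h := Finset.single_le_sum (f := fun j => if P j = P i then (1 : ℤ) else 0)
    (fun j _ => by split_ifs <;> norm_num) (Finset.mem_univ i)
  simpa using h

theorem GGeo2_Einf_zero {t : F} {n : ℕ} {Einf : Divisor K F} (h : PoleDiv t n Einf)
    {R : Place K F} {c : K} (hc : Ev R t c) : Einf R = 0 := by
  rw [h.val]
  have h1 := S24.ord_nonneg_of_mem R (RED.ev_mem hc)
  exact max_eq_left (by omega)

end Aux

/-- (FFG-9) uniqueness of `D_{z + z'}`. -/
theorem gGeo2 (hA : Stmt_DivA) (hR : Stmt_RepPrin) (hLK : A.Stmt_LK) : Stmt_Geo2 := by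
  intro K F k κ _ _ _ _ _ _ D sp g s t Einf w w' cb cb' P0 Q0 hG z z' P Q P'' c c' hz hz' hzz hc hc'
    f hf hf0 hO hO' i
  obtain ⟨ha0, -, -, Oth, hdivA, hOth⟩ := hA K F k κ D sp g s t Einf w w' cb cb' P0 Q0 hG P Q c c'
    hz.1 hz'.1 hc hc'
  obtain ⟨h, hh0, hdivh⟩ := hR K F k κ sp g (fun i => w i 0) (fun i => w' i 0) P0 Q0 z z' P Q P''
    hz hz' hzz
  have hu0 : f / aa t c c' * h ≠ 0 := mul_ne_zero (div_ne_zero hf0 ha0) hh0
  have hord : ∀ R : Place K F, R.ord (f / aa t c c' * h) =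
      R.ord f - Oth R + (2 * g : ℤ) * Einf R - sumPl Q0 R - sumPl P'' R := by
    intro R
    rw [R.ord_mul (div_ne_zero hf0 ha0) hh0, div_eq_mul_inv, R.ord_mul hf0 (inv_ne_zero ha0),
      R.ord_inv, ← hdivA R, ← hdivh R]
    simp only [Finsupp.coe_sub, Finsupp.coe_add, Pi.sub_apply, Pi.add_apply, Finsupp.coe_smul,
      Pi.smul_apply, smul_eq_mul]
    ring
  have hfL : ∀ R : Place K F, -((2 * g : ℤ) * Einf R - sumPl Q0 R) ≤ R.ord f := by
    intro R
    rcases mem_riemannRochSpace_iff.1 hf R with h0 | h0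
    · exact absurd h0 hf0
    · simpa only [Finsupp.coe_sub, Pi.sub_apply, Finsupp.coe_smul, Pi.smul_apply,
        smul_eq_mul] using h0
  have hne1 : ∀ (i : Fin g) (l : Fin s) (R : Place K F), sp R = w i l.succ →
      ∀ i', R ≠ Q0 i' := by
    intro i l R hR i' hEq
    obtain ⟨c1, -, he1, hr1⟩ := hG.fib.reg i l.succ R hR
    obtain ⟨c2, -, he2, hr2⟩ := hG.fib'.reg i' 0 R (by rw [hEq]; exact hG.base'.sp0 i')
    have h12 := RED.ev_unique he1 he2
    have h3 : Sum.elim cb cb' (Sum.inl i) = Sum.elim cb cb' (Sum.inr i') := by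
      simp only [Sum.elim_inl, Sum.elim_inr]
      rw [← hr1, ← hr2, h12]
    exact Sum.inl_ne_inr (hG.cb_inj h3)
  have hne2 : ∀ (i : Fin g) (l : Fin s) (R : Place K F), sp R = w' i l.succ →
      ∀ i', R ≠ Q0 i' := by
    intro i l R hR i' hEq
    obtain ⟨c1, -, he1, hr1⟩ := hG.fib'.reg i l.succ R hR
    have hR' : sp R = w' i' 0 := by rw [hEq]; exact hG.base'.sp0 i'
    obtain ⟨c2, -, he2, hr2⟩ := hG.fib'.reg i' 0 R hR'
    have h12 := RED.ev_unique he1 he2
    have h3 : Sum.elim cb cb' (Sum.inr i) = Sum.elim cb cb' (Sum.inr i') := by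
      simp only [Sum.elim_inr]
      rw [← hr1, ← hr2, h12]
    have h4 : i = i' := Sum.inr_injective (hG.cb_inj h3)
    subst h4
    exact Fin.succ_ne_zero l (hG.fib'.inj i (hR.symm.trans hR'))
  have hclaim : ∀ R : Place K F, 0 ≤ sumPl P'' R + R.ord (f / aa t c c' * h) := by
    intro R
    rw [hord R]
    have h1 := hfL R
    rcases (hOth R).1 with h0 | h0
    · rw [h0]
      linarith
    · have hE : Einf R = 0 ∧ sumPl Q0 R = 0 ∧ 0 < R.ord f := by
        rcases (hOth R).2.1 h0 with ⟨i, l, hs, he⟩ | ⟨i, l, hs, he⟩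
        · exact ⟨GGeo2_Einf_zero hG.pole he, GGeo2_sumPl_eq_zero _ _ (hne1 i l R hs),
            (RED.ev_zero_iff_ord hf0).1 (hO i l R hs he)⟩
        · exact ⟨GGeo2_Einf_zero hG.pole he, GGeo2_sumPl_eq_zero _ _ (hne2 i l R hs),
            (RED.ev_zero_iff_ord hf0).1 (hO' i l R hs he)⟩
      obtain ⟨e1, e2, e3⟩ := hE
      rw [h0, e1, e2]
      linarith
  obtain ⟨c₀, hc₀⟩ := hLK K F k κ D sp g (fun i => w i 0) P0 hG.spd hG.cf hG.base P'' hzz.1 _ hu0
    hclaim
  have hc₀0 : c₀ ≠ 0 := by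
    rintro rfl
    rw [map_zero] at hc₀
    exact hu0 hc₀
  have hordu : (P'' i).ord (f / aa t c c' * h) = 0 := by
    rw [hc₀]
    exact RED.ev_ord_eq_zero (RED.ev_const _ c₀) hc₀0
  rw [hord] at hordu
  obtain ⟨c1, -, he1, -⟩ := hG.fib.reg i 0 (P'' i) (hzz.1 i)
  have e1 := GGeo2_Einf_zero hG.pole he1
  have e2 := GGeo2_sumPl_nonneg Q0 (P'' i)
  have e3 := GGeo2_sumPl_pos P'' i
  have e4 : 0 ≤ Oth (P'' i) := by
    rcases (hOth (P'' i)).1 with h0 | h0
    · exact h0.ge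
    · rw [h0]; exact zero_le_one
  rw [e1] at hordu
  exact (RED.ev_zero_iff_ord hf0).2 (by linarith)

end Fermat.Agent.FF19.Law

end
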