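import Fermat.Agent.FF19.Law.GeoInterface

/-!
# FF19 / Law / Geo : (FFG-10) `L̄(D̄₀) = k` (helper54)
-/

set_option autoImplicit false

noncomputable section

namespace Fermat.Agent.FF19.Law

open AlgebraicCurve Polynomial
open Fermat.Agent.INJ (RedData)
open Fermat.Agent.RED (Ev)
open Fermat.Agent.FF19.A (sumPl push IsDivOf SpData CurveFacts Base InJ1 Rep IsVal)

section Aux

variable {K F k κ : Type} [Field K] [Field F] [Algebra K F] [Field k] [Field κ] [Algebra k κ]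

theorem GGeo3_ord_prod (P : Place K F) {ι : Type} (s : Finset ι) (f : ι → F)
    (hf : ∀ i ∈ s, f i ≠ 0) : P.ord (∏ i ∈ s, f i) = ∑ i ∈ s, P.ord (f i) := by
  classical
  induction s using Finset.induction_on with
  | empty => simp
  | insert a s ha ih =>
    rw [Finset.prod_insert ha, Finset.sum_insert ha,
      P.ord_mul (hf a (Finset.mem_insert_self a s))
        (Finset.prod_ne_zero_iff.mpr fun i hi => hf i (Finset.mem_insert_of_mem hi)),
      ih fun i hi => hf i (Finset.mem_insert_of_mem hi)]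

theorem GGeo3_ra_nonunits (D : RedData K F k κ) {e : K} (he : e ∈ D.A.nonunits) : D.ra e = 0 := by
  have heA : e ∈ D.A := RED.EV_nonunits_mem _ he
  rcases (RED.EV_mem_nonunits_iff D.A e).1 he with rfl | h
  · rw [RedData.ra_of_mem D.A.zero_mem]
    exact map_zero D.rA
  · by_contra h0
    have h1 : D.rd (algebraMap K F e) ≠ 0 := by
      rw [RedData.rd_algebraMap heA]
      exact (_root_.map_ne_zero _).2 h0
    have h2 := RedData.inv_mem_of_rd_ne_zero h1
    rw [← map_inv₀] at h2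
    exact h ((D.mem_iff _).1 h2)

theorem GGeo3_push_eq_zero (sp : Place K F → Place k κ) (E : Divisor K F) (y : Place k κ)
    (h : ∀ R, sp R = y → E R = 0) : push sp E y = 0 := by
  classical
  rw [push, Finsupp.mapDomain, Finsupp.sum_apply, Finsupp.sum]
  apply Finset.sum_eq_zero
  intro R _
  rw [Finsupp.single_apply]
  split_ifs with hR
  · exact h R hR
  · rfl

theorem GGeo3_ordA {g : ℕ} (y : Place k κ) (τ : κ) (cb cb' : Fin g → k)
    (hinj : Function.Injective (Sum.elim cb cb')) (a : Fin g ⊕ Fin g)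
    (ha : y.ord (τ - algebraMap k κ (Sum.elim cb cb' a)) = 1) :
    y.ord ((∏ i, (τ - algebraMap k κ (cb i))) * ∏ i, (τ - algebraMap k κ (cb' i))) = 1 := by
  classical
  have hprod : (∏ i, (τ - algebraMap k κ (cb i))) * ∏ i, (τ - algebraMap k κ (cb' i))
      = ∏ b : Fin g ⊕ Fin g, (τ - algebraMap k κ (Sum.elim cb cb' b)) := by
    rw [Fintype.prod_sum_type]
    rfl
  have hne0 : τ - algebraMap k κ (Sum.elim cb cb' a) ≠ 0 := by
    intro h
    rw [h, Place.ord_zero] at ha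
    exact zero_ne_one ha
  have hev : Ev y τ (Sum.elim cb cb' a) := by
    have h0 : Ev y (τ - algebraMap k κ (Sum.elim cb cb' a)) 0 :=
      (RED.ev_zero_iff_ord hne0).2 (by rw [ha]; exact zero_lt_one)
    exact RED.ev_zero_iff.1 h0
  have hoth : ∀ b, Ev y (τ - algebraMap k κ (Sum.elim cb cb' b))
      (Sum.elim cb cb' a - Sum.elim cb cb' b) := fun b => RED.ev_sub hev (RED.ev_const y _)
  have hval : ∀ b, b ≠ a → Sum.elim cb cb' a - Sum.elim cb cb' b ≠ 0 :=
    fun b hb => sub_ne_zero.2 (fun h => hb (hinj h).symm)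
  have hne : ∀ b ∈ (Finset.univ : Finset (Fin g ⊕ Fin g)),
      τ - algebraMap k κ (Sum.elim cb cb' b) ≠ 0 := by
    intro b _
    by_cases hb : b = a
    · rw [hb]
      exact hne0
    · exact RED.EV_ne_zero (hoth b) (hval b hb)
  rw [hprod, GGeo3_ord_prod y Finset.univ _ hne, Finset.sum_eq_single a, ha]
  · intro b _ hb
    exact RED.ev_ord_eq_zero (hoth b) (hval b hb)
  · intro h
    exact absurd (Finset.mem_univ a) h

theorem GGeo3_rd_aa (D : RedData K F k κ) {g : ℕ} {t : F} (ht : t ∈ D.O) (c c' : Fin g → K)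
    (cb cb' : Fin g → k) (hc : ∀ i, c i ∈ D.A ∧ D.ra (c i) = cb i)
    (hc' : ∀ i, c' i ∈ D.A ∧ D.ra (c' i) = cb' i) :
    D.rd (aa t c c') = (∏ i, (D.rd t - algebraMap k κ (cb i))) *
      ∏ i, (D.rd t - algebraMap k κ (cb' i)) := by
  have h1 : ∀ i, t - algebraMap K F (c i) ∈ D.O :=
    fun i => sub_mem ht (RedData.algebraMap_mem (hc i).1)
  have h2 : ∀ i, t - algebraMap K F (c' i) ∈ D.O :=
    fun i => sub_mem ht (RedData.algebraMap_mem (hc' i).1)
  rw [aa, RedData.rd_mul (RedData.prod_mem _ _ fun i _ => h1 i)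
    (RedData.prod_mem _ _ fun i _ => h2 i), RedData.rd_prod _ _ (fun i _ => h1 i),
    RedData.rd_prod _ _ (fun i _ => h2 i)]
  congr 1
  · refine Finset.prod_congr rfl fun i _ => ?_
    rw [RedData.rd_sub ht (RedData.algebraMap_mem (hc i).1), RedData.rd_algebraMap (hc i).1,
      (hc i).2]
  · refine Finset.prod_congr rfl fun i _ => ?_
    rw [RedData.rd_sub ht (RedData.algebraMap_mem (hc' i).1), RedData.rd_algebraMap (hc' i).1,
      (hc' i).2]

/-- the reduction of `f` vanishes at the other points of the fibres. -/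
theorem GGeo3_caseB (hD : Stmt_Disc) (hE : Stmt_EvSp) (hB : Stmt_RegB)
    (D : RedData K F k κ) (sp : Place K F → Place k κ) (g s : ℕ) (t : F) (Einf : Divisor K F)
    (w : Fin g → Fin (s + 1) → Place k κ) (cb : Fin g → k) (spd : SpData D sp)
    (cf : CurveFacts K F g) (ht : t ∈ D.O) (pole : PoleDiv t (s + 1) Einf)
    (fib : Fibres D sp t w cb) (c0 : Fin g → K) (hc0 : ∀ i, c0 i ∈ D.A ∧ D.ra (c0 i) = cb i)
    (m : ℤ) (E' : Divisor K F) (hE' : 0 ≤ E') (f : F)
    (hf : f ∈ riemannRochSpace (m • Einf - E')) (hfO : f ∈ D.O) (hrf : D.rd f ≠ 0)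
    (H : ∀ (i : Fin g) (l : Fin s) (R : Place K F), sp R = w i l.succ → Ev R t (c0 i) →
      ∃ e ∈ D.A.nonunits, Ev R f e) (i : Fin g) (l : Fin s) :
    0 < (w i l.succ).ord (D.rd f) := by
  obtain ⟨R, hR, hRt, -, -⟩ := hD K F k κ D sp g spd cf t (w i l.succ) (cb i) ht
    (fib.reg i l.succ) (fib.unr i l.succ) (c0 i) (hc0 i).1 (hc0 i).2
  obtain ⟨e, he, hRf⟩ := H i l R hR hRt
  have hreg : ∀ P : Place K F, sp P = w i l.succ → f ∈ P.toValuationSubring := by
    intro P hP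
    obtain ⟨c, -, hc, -⟩ := fib.reg i l.succ P hP
    exact (hB K F t (s + 1) Einf pole m E' hE' f hf P c hc).1
  have h1 := (hE K F k κ D sp g spd cf (w i l.succ) f hfO hreg R e hR hRf).2
  rw [GGeo3_ra_nonunits D he] at h1
  exact (RED.ev_zero_iff_ord hrf).1 h1

end Aux

/-- (FFG-10) `L̄(D̄₀) = k`. -/
theorem gGeo3 (hA : Stmt_DivA) (hD : Stmt_Disc) (hE : Stmt_EvSp) (hB : Stmt_RegB)
    (hC : A.Stmt_Comb) : Stmt_Geo3 := by
  intro K F k κ _ _ _ _ _ _ D sp g s t Einf w w' cb cb' P0 Q0 G c0 c0' hv hv' f hf hfO H1 H2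
  by_cases hrf : D.rd f = 0
  · refine ⟨0, D.A.zero_mem, ?_⟩
    have h0 : D.ra 0 = 0 := by
      rw [RedData.ra_of_mem D.A.zero_mem]
      exact map_zero D.rA
    rw [hrf, h0, map_zero, zero_mul]
  have hc0 : ∀ i, c0 i ∈ D.A ∧ D.ra (c0 i) = cb i := by
    intro i
    obtain ⟨c, hcA, hc, hra⟩ := G.fib.reg i 0 (P0 i) (G.base.sp0 i)
    have h : c = c0 i := RED.ev_unique hc (hv i)
    rw [← h]
    exact ⟨hcA, hra⟩
  have hc0' : ∀ i, c0' i ∈ D.A ∧ D.ra (c0' i) = cb' i := by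
    intro i
    obtain ⟨c, hcA, hc, hra⟩ := G.fib'.reg i 0 (Q0 i) (G.base'.sp0 i)
    have h : c = c0' i := RED.ev_unique hc (hv' i)
    rw [← h]
    exact ⟨hcA, hra⟩
  obtain ⟨-, -, hra0, Oth, hdivA, hOth⟩ := hA K F k κ D sp g s t Einf w w' cb cb' P0 Q0 G P0 Q0
    c0 c0' G.base.sp0 G.base'.sp0 hv hv'
  have hf0 : f ≠ 0 := by
    rintro rfl
    exact hrf RedData.rd_zero
  obtain ⟨B, hBdiv, -⟩ := G.cf.princ f hf0
  obtain ⟨hC1, hC2, hC3, hC4, -, -, -⟩ := hC K F k κ sp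
  obtain ⟨-, -, -, hC4', -, -, -⟩ := hC k κ k κ id
  have hsub : ∀ E E' : Divisor K F, push sp (E - E') = push sp E - push sp E' :=
    fun E E' => (hC2 E E').2
  obtain ⟨h, hh⟩ : ∃ h : κ, h = D.rd f / D.rd (aa t c0 c0') := ⟨_, rfl⟩
  have hh0 : h ≠ 0 := by
    rw [hh]
    exact div_ne_zero hrf hra0
  have hord : ∀ y : Place k κ, y.ord h = y.ord (D.rd f) - y.ord (D.rd (aa t c0 c0')) := by
    intro y
    rw [hh, div_eq_mul_inv, y.ord_mul hrf (inv_ne_zero hra0), y.ord_inv]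
    ring
  have hrdaa := GGeo3_rd_aa D G.t_mem c0 c0' cb cb' hc0 hc0'
  have hQ0 : 0 ≤ sumPl Q0 := (hC4 g Q0).1
  have claim : ∀ y : Place k κ, 0 ≤ sumPl (fun i => w i 0) y + y.ord h := by
    intro y
    have hx0 : 0 ≤ sumPl (fun i => w i 0) y := Finsupp.le_def.1 (hC4' g (fun i => w i 0)).1 y
    by_cases h1 : ∃ (i : Fin g) (l : Fin s), y = w i l.succ
    · obtain ⟨i, l, rfl⟩ := h1
      have hpos := GGeo3_caseB hD hE hB D sp g s t Einf w cb G.spd G.cf G.t_mem G.pole G.fib c0 hc0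
        (2 * g : ℤ) (sumPl Q0) hQ0 f hf hfO hrf H1 i l
      have hone : (w i l.succ).ord (D.rd (aa t c0 c0')) = 1 := by
        rw [hrdaa]
        exact GGeo3_ordA _ _ cb cb' G.cb_inj (Sum.inl i) (G.fib.unr i l.succ)
      rw [hord, hone]
      omega
    by_cases h2 : ∃ (i : Fin g) (l : Fin s), y = w' i l.succ
    · obtain ⟨i, l, rfl⟩ := h2
      have hpos := GGeo3_caseB hD hE hB D sp g s t Einf w' cb' G.spd G.cf G.t_mem G.pole G.fib' c0'
        hc0' (2 * g : ℤ) (sumPl Q0) hQ0 f hf hfO hrf H2 i l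
      have hone : (w' i l.succ).ord (D.rd (aa t c0 c0')) = 1 := by
        rw [hrdaa]
        exact GGeo3_ordA _ _ cb cb' G.cb_inj (Sum.inr i) (G.fib'.unr i l.succ)
      rw [hord, hone]
      omega
    have hO0 : push sp Oth y = 0 := by
      apply GGeo3_push_eq_zero
      intro R hR
      rcases (hOth R).1 with h0 | h1'
      · exact h0
      · exfalso
        rcases (hOth R).2.1 h1' with ⟨i, l, hs, -⟩ | ⟨i, l, hs, -⟩
        · exact h1 ⟨i, l, by rw [← hR, hs]⟩
        · exact h2 ⟨i, l, by rw [← hR, hs]⟩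
    obtain ⟨B', hB'⟩ : ∃ B' : Divisor K F, B' = B - sumPl Q0 + (2 * g : ℤ) • Einf := ⟨_, rfl⟩
    have hB'0 : 0 ≤ B' := by
      rw [Finsupp.le_def]
      intro v
      have h3 := (mem_riemannRochSpace_iff.1 hf v).resolve_left hf0
      rw [hB']
      simp only [Finsupp.coe_add, Finsupp.coe_sub, Finsupp.coe_smul, Pi.add_apply, Pi.sub_apply,
        Pi.smul_apply, Finsupp.coe_zero, Pi.zero_apply] at h3 ⊢
      rw [hBdiv v]
      linarith
    have e1 : B - (sumPl P0 + sumPl Q0 + Oth - (2 * g : ℤ) • Einf) = B' - sumPl P0 - Oth := by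
      rw [hB']
      abel
    have e2 : push sp B - push sp (sumPl P0 + sumPl Q0 + Oth - (2 * g : ℤ) • Einf)
        = push sp B' - sumPl (fun i => w i 0) - push sp Oth := by
      rw [← hsub, e1, hsub, hsub, hC3 g P0]
      have hx : (fun i => sp (P0 i)) = fun i => w i 0 := funext G.base.sp0
      rw [hx]
    have e3 := DFunLike.congr_fun e2 y
    simp only [Finsupp.coe_sub, Pi.sub_apply] at e3
    rw [G.spd f B hrf hBdiv y, G.spd _ _ hra0 hdivA y, hO0] at e3
    have h4 : 0 ≤ push sp B' y := Finsupp.le_def.1 (hC1 B' hB'0) y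
    rw [hord, e3]
    linarith
  obtain ⟨cbar, hcbar⟩ := G.base.ns h hh0 claim
  obtain ⟨c, hcA, hc⟩ := RedData.exists_ra_eq (D := D) cbar
  refine ⟨c, hcA, ?_⟩
  rw [hc, ← hcbar, hh, div_mul_cancel₀ _ hra0]

end Fermat.Agent.FF19.Law

end
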