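import Fermat.Agent.FF19.Law.GeoInterface

/-!
# FF19 / Law / GLatCoord (FFG-11) : coordinates with respect to a lattice basis

`b` a `K`-basis of `L(E)` made of integral functions whose reductions are `k`-independent.  Then the
coordinates of an integral function are integral, reduction commutes with taking coordinates, and the
`b j` are `K`-independent.
-/

set_option autoImplicit false

noncomputable section

namespace Fermat.Agent.FF19.Law

open AlgebraicCurve Polynomial
open Fermat.Agent.INJ (RedData)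
open Fermat.Agent.RED (Ev)
open Fermat.Agent.FF19.A (sumPl push IsDivOf SpData CurveFacts Base InJ1 Rep IsVal)

section

variable {K F k κ : Type} [Field K] [Field F] [Algebra K F] [Field k] [Field κ] [Algebra k κ]

/-- the kernel of `ra` on `A` is the set of nonunits. -/
theorem GLatCoord_ra_eq_zero_iff (D : RedData K F k κ) (a : K) (ha : a ∈ D.A) :
    D.ra a = 0 ↔ a ∈ D.A.nonunits := by
  have hker : (RingHom.ker D.rA).IsMaximal := RingHom.ker_isMaximal_of_surjective D.rA D.rA_surj
  have hk : RingHom.ker D.rA = IsLocalRing.maximalIdeal D.A := IsLocalRing.eq_maximalIdeal hker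
  rw [RedData.ra_of_mem ha, ValuationSubring.mem_nonunits_iff_exists_mem_maximalIdeal]
  constructor
  · intro h
    refine ⟨ha, ?_⟩
    rw [← hk]
    exact h
  · rintro ⟨ha', h⟩
    rw [← hk] at h
    exact h

/-- integral combinations are integral and reduce coordinatewise. -/
theorem GLatCoord_int (D : RedData K F k κ) {N : ℕ} (b : Fin N → F) (hb : ∀ j, b j ∈ D.O)
    (β : Fin N → K) (hβ : ∀ j, β j ∈ D.A) :
    (∑ j, β j • b j) ∈ D.O ∧ D.rd (∑ j, β j • b j) = ∑ j, D.ra (β j) • D.rd (b j) := by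
  have hm : ∀ j ∈ (Finset.univ : Finset (Fin N)), β j • b j ∈ D.O := by
    intro j _
    rw [Algebra.smul_def]
    exact mul_mem (RedData.algebraMap_mem (hβ j)) (hb j)
  refine ⟨RedData.sum_mem _ _ hm, ?_⟩
  rw [RedData.rd_sum _ _ hm]
  refine Finset.sum_congr rfl fun j _ => ?_
  rw [Algebra.smul_def, RedData.rd_mul (RedData.algebraMap_mem (hβ j)) (hb j),
    RedData.rd_algebraMap (hβ j), Algebra.smul_def]

/-- normalisation of a nonzero coordinate vector. -/
theorem GLatCoord_norm (D : RedData K F k κ) {N : ℕ} (γ : Fin N → K) (hγ : γ ≠ 0) :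
    ∃ j1, γ j1 ≠ 0 ∧ ∀ j, γ j / γ j1 ∈ D.A := by
  obtain ⟨j0, hj0⟩ : ∃ j0, γ j0 ≠ 0 := by
    by_contra h
    exact hγ (funext fun j => by_contra fun hj => h ⟨j, hj⟩)
  obtain ⟨j1, -, hj1⟩ := Finset.exists_max_image (Finset.univ : Finset (Fin N))
    (fun j => D.A.valuation (γ j)) ⟨j0, Finset.mem_univ _⟩
  have h1 : γ j1 ≠ 0 := by
    intro h
    have h2 := hj1 j0 (Finset.mem_univ _)
    simp only [h, map_zero, le_zero_iff, map_eq_zero] at h2
    exact hj0 h2
  refine ⟨j1, h1, fun j => ?_⟩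
  rw [← ValuationSubring.valuation_le_one_iff, map_div₀]
  have h3 : D.A.valuation (γ j1) ≠ 0 := by
    rw [Ne, map_eq_zero]; exact h1
  exact div_le_one_of_le₀ (hj1 j (Finset.mem_univ _)) zero_le

/-- the normalised vector has a nonzero reduction. -/
theorem GLatCoord_rd_ne (D : RedData K F k κ) {N : ℕ} (b : Fin N → F) (hb : ∀ j, b j ∈ D.O)
    (hi : LinearIndependent k (fun j => D.rd (b j))) (δ : Fin N → K) (hδ : ∀ j, δ j ∈ D.A)
    (j1 : Fin N) (h1 : δ j1 = 1) : D.rd (∑ j, δ j • b j) ≠ 0 := by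
  intro h
  rw [(GLatCoord_int D b hb δ hδ).2] at h
  have h2 := Fintype.linearIndependent_iff.1 hi (fun j => D.ra (δ j)) h j1
  rw [h1, RedData.ra_of_mem D.A.one_mem] at h2
  have h3 : D.rA (⟨1, D.A.one_mem⟩ : D.A) = 1 := map_one D.rA
  rw [h3] at h2
  exact one_ne_zero h2

theorem GLatCoord_scale {N : ℕ} (b : Fin N → F) (γ : Fin N → K) (c : K) :
    ∑ j, (γ j / c) • b j = algebraMap K F c⁻¹ * ∑ j, γ j • b j := by
  rw [Finset.mul_sum]
  refine Finset.sum_congr rfl fun j _ => ?_
  rw [Algebra.smul_def, Algebra.smul_def, div_eq_mul_inv, map_mul]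
  ring

end

theorem gLatCoord : Stmt_LatCoord := by
  intro K F k κ _ _ _ _ _ _ D E N b hL
  refine ⟨fun β hβ => GLatCoord_int D b hL.int β hβ, ?_, ?_,
    fun a ha => GLatCoord_ra_eq_zero_iff D a ha⟩
  · intro γ hγO
    by_cases hγ : γ = 0
    · intro j
      rw [hγ]
      exact D.A.zero_mem
    obtain ⟨j1, h1, hδ⟩ := GLatCoord_norm D γ hγ
    have hne := GLatCoord_rd_ne D b hL.int hL.indep (fun j => γ j / γ j1) hδ j1 (div_self h1)
    have hA : γ j1 ∈ D.A := by
      by_contra hn
      have hinv : (γ j1)⁻¹ ∈ D.A := (D.A.mem_or_inv_mem (γ j1)).resolve_left hn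
      have hnu : (γ j1)⁻¹ ∈ D.A.nonunits := by
        rw [ValuationSubring.mem_nonunits_iff, ← not_le, map_inv₀]
        intro hle
        apply hn
        rw [← ValuationSubring.valuation_le_one_iff]
        have h0 : D.A.valuation (γ j1) ≠ 0 := by
          rw [Ne, map_eq_zero]; exact h1
        exact (one_le_inv₀ (zero_lt_iff.2 h0)).1 hle
      apply hne
      rw [GLatCoord_scale, RedData.rd_mul (RedData.algebraMap_mem hinv) hγO,
        RedData.rd_algebraMap hinv, (GLatCoord_ra_eq_zero_iff D _ hinv).2 hnu, map_zero, zero_mul]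
    intro j
    have : γ j = γ j / γ j1 * γ j1 := by
      field_simp
    rw [this]
    exact mul_mem (hδ j) hA
  · intro γ hγ0
    by_contra hγ
    obtain ⟨j1, h1, hδ⟩ := GLatCoord_norm D γ hγ
    have hne := GLatCoord_rd_ne D b hL.int hL.indep (fun j => γ j / γ j1) hδ j1 (div_self h1)
    apply hne
    rw [GLatCoord_scale, hγ0, mul_zero, RedData.rd_zero]

end Fermat.Agent.FF19.Law

end
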