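import Fermat.Agent.FF19.Law.GeoInterface
import Fermat.Agent.S24.PlaceBasic

/-!
# FF19 / Law / Geo : (FFG-4) Lemma N2, geometric form
-/

set_option autoImplicit false

noncomputable section

namespace Fermat.Agent.FF19.Law

open AlgebraicCurve Polynomial
open Fermat.Agent.INJ (RedData)
open Fermat.Agent.RED (Ev)
open Fermat.Agent.FF19.A (sumPl push IsDivOf SpData CurveFacts Base InJ1 Rep IsVal)

section

variable {K F k κ : Type} [Field K] [Field F] [Algebra K F] [Field k] [Field κ] [Algebra k κ]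

theorem GN2Geo_ev_val {P : Place K F} {f : F} (h : ∃ c, Ev P f c) : Ev P f (val P f) := by
  obtain ⟨c, hc⟩ := h
  rw [val_eq hc]
  exact hc

theorem GN2Geo_sub_mem_nonunits (D : RedData K F k κ) {a b : K} (ha : a ∈ D.A) (hb : b ∈ D.A)
    (h : D.ra a = D.ra b) : a - b ∈ D.A.nonunits := by
  rw [RedData.ra_of_mem ha, RedData.ra_of_mem hb] at h
  have hker : (RingHom.ker D.rA).IsMaximal := RingHom.ker_isMaximal_of_surjective D.rA D.rA_surj
  have hmem : ((⟨a, ha⟩ : D.A) - ⟨b, hb⟩) ∈ RingHom.ker D.rA := by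
    rw [RingHom.mem_ker, map_sub, h, sub_self]
  rw [IsLocalRing.eq_maximalIdeal hker] at hmem
  rw [ValuationSubring.mem_nonunits_iff_exists_mem_maximalIdeal]
  exact ⟨sub_mem ha hb, hmem⟩

/-- the ring of the functions of `W` which are regular on the residue disc of `y`. -/
def GN2Geo_R (D : RedData K F k κ) (sp : Place K F → Place k κ) (y : Place k κ) : Subring F where
  carrier := {f | f ∈ D.O ∧ ∀ P : Place K F, sp P = y → f ∈ P.toValuationSubring}
  mul_mem' := fun ha hb => ⟨mul_mem ha.1 hb.1, fun P hP => mul_mem (ha.2 P hP) (hb.2 P hP)⟩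
  one_mem' := ⟨one_mem _, fun _ _ => one_mem _⟩
  add_mem' := fun ha hb => ⟨add_mem ha.1 hb.1, fun P hP => add_mem (ha.2 P hP) (hb.2 P hP)⟩
  zero_mem' := ⟨zero_mem _, fun _ _ => zero_mem _⟩
  neg_mem' := fun ha => ⟨neg_mem ha.1, fun P hP => neg_mem (ha.2 P hP)⟩

/-- the constants. -/
def GN2Geo_iota (D : RedData K F k κ) (sp : Place K F → Place k κ) (y : Place k κ) :
    D.A →+* GN2Geo_R D sp y where
  toFun c := ⟨algebraMap K F c, RedData.algebraMap_mem c.2, fun P _ => P.algebraMap_mem' c⟩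
  map_one' := Subtype.ext (map_one _)
  map_mul' _ _ := Subtype.ext (map_mul _ _ _)
  map_zero' := Subtype.ext (map_zero _)
  map_add' _ _ := Subtype.ext (map_add _ _ _)

/-- evaluation at a point of the disc. -/
def GN2Geo_ev (D : RedData K F k κ) (sp : Place K F → Place k κ) (y : Place k κ)
    (hres : ∀ (P : Place K F) (f : F), f ∈ P.toValuationSubring → ∃ c : K, Ev P f c)
    (P : Place K F) (hP : sp P = y) : GN2Geo_R D sp y →+* K where
  toFun r := val P r.1
  map_one' := val_eq (RED.ev_one P)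
  map_mul' a b := val_eq (RED.ev_mul (GN2Geo_ev_val (hres P a.1 (a.2.2 P hP)))
    (GN2Geo_ev_val (hres P b.1 (b.2.2 P hP))))
  map_zero' := val_eq (RED.ev_zero P)
  map_add' a b := val_eq (RED.ev_add (GN2Geo_ev_val (hres P a.1 (a.2.2 P hP)))
    (GN2Geo_ev_val (hres P b.1 (b.2.2 P hP))))

end

/-- (FFG-4) Lemma N2, geometric form. -/
theorem gN2Geo (hN : Stmt_N2Abs) (hD : Stmt_Disc) (hE : Stmt_EvSp) : Stmt_N2Geo := by
  intro K F k κ _ _ _ _ _ _ D sp g hArch hsp hcf t y cbar ht hreg hunr c0 hc0 hc0r f hf hfreg PP hPP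
  have htreg : ∀ P : Place K F, sp P = y → t ∈ P.toValuationSubring := fun P hP => by
    obtain ⟨c, -, hc, -⟩ := hreg P hP
    exact RED.ev_mem hc
  let τ : GN2Geo_R D sp y := ⟨t - algebraMap K F c0, sub_mem ht (RedData.algebraMap_mem hc0),
    fun P hP => sub_mem (htreg P hP) (P.algebraMap_mem' c0)⟩
  have hrdτ : D.rd (t - algebraMap K F c0) ≠ 0 := by
    rw [RedData.rd_sub ht (RedData.algebraMap_mem hc0), RedData.rd_algebraMap hc0, hc0r]
    intro h0
    rw [h0, Place.ord_zero] at hunr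
    exact zero_ne_one hunr
  have hτ0 : t - algebraMap K F c0 ≠ 0 := by
    intro h0
    rw [h0] at hrdτ
    exact hrdτ RedData.rd_zero
  obtain ⟨P0, hP0, hP0t, hP0ord, hP0u⟩ :=
    hD K F k κ D sp g hsp hcf t y cbar ht hreg hunr c0 hc0 hc0r
  have hval : ∀ (r : GN2Geo_R D sp y) (P : Place K F), sp P = y → Ev P r.1 (val P r.1) :=
    fun r P hP => GN2Geo_ev_val (hcf.resK P r.1 (r.2.2 P hP))
  have hvalA : ∀ (r : GN2Geo_R D sp y) (P : Place K F), sp P = y → val P r.1 ∈ D.A :=
    fun r P hP => (hE K F k κ D sp g hsp hcf y r.1 r.2.1 r.2.2 P _ hP (hval r P hP)).1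
  have hdec : ∀ r : GN2Geo_R D sp y, ∃ (c : D.A) (r₁ : GN2Geo_R D sp y),
      r = GN2Geo_iota D sp y c + τ * r₁ := by
    intro r
    have hc : val P0 r.1 ∈ D.A := hvalA r P0 hP0
    have hrc : Ev P0 (r.1 - algebraMap K F (val P0 r.1)) 0 := by
      have := RED.ev_sub (hval r P0 hP0) (RED.ev_const P0 (val P0 r.1))
      rwa [sub_self] at this
    refine ⟨⟨val P0 r.1, hc⟩,
      ⟨(r.1 - algebraMap K F (val P0 r.1)) / (t - algebraMap K F c0), ?_, ?_⟩, ?_⟩
    · exact RedData.div_mem (sub_mem r.2.1 (RedData.algebraMap_mem hc)) hrdτ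
    · intro P hP
      rcases eq_or_ne P P0 with rfl | hPP0
      · by_cases h0 : r.1 - algebraMap K F (val P r.1) = 0
        · rw [h0, zero_div]
          exact zero_mem _
        · have hpos : 0 < P.ord (r.1 - algebraMap K F (val P r.1)) :=
            (RED.ev_zero_iff_ord h0).1 hrc
          apply S24.mem_of_ord_nonneg P (div_ne_zero h0 hτ0)
          rw [div_eq_mul_inv, Place.ord_mul _ h0 (inv_ne_zero hτ0), Place.ord_inv, hP0ord]
          omega
      · obtain ⟨cP, -, hcP, -⟩ := hreg P hP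
        have hne : cP - c0 ≠ 0 := by
          intro h
          have h' : cP = c0 := sub_eq_zero.1 h
          rw [h'] at hcP
          exact hPP0 (hP0u P hP hcP)
        have hinv := RED.EV_inv_mem (RED.ev_sub hcP (RED.ev_const P c0)) hne
        rw [div_eq_mul_inv]
        exact mul_mem (sub_mem (r.2.2 P hP) (P.algebraMap_mem' _)) hinv
    · apply Subtype.ext
      show r.1 = algebraMap K F (val P0 r.1) + (t - algebraMap K F c0) *
        ((r.1 - algebraMap K F (val P0 r.1)) / (t - algebraMap K F c0))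
      rw [mul_div_cancel₀ _ hτ0]
      ring
  have hτval : ∀ (P : Place K F) (c : K), Ev P t c → val P (t - algebraMap K F c0) = c - c0 :=
    fun P c hc => val_eq (RED.ev_sub hc (RED.ev_const P c0))
  obtain ⟨W, hW⟩ := hN K D.A hArch (GN2Geo_R D sp y) (GN2Geo_iota D sp y) τ hdec (↥PP)
    (fun P => GN2Geo_ev D sp y hcf.resK P.1 (hPP P.1 P.2))
    (fun P c => val_eq (RED.ev_const P.1 (c : K)))
    (fun P r => hvalA r P.1 (hPP P.1 P.2))
    (fun P => by
      obtain ⟨cP, hcPA, hcP, hcPr⟩ := hreg P.1 (hPP P.1 P.2)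
      show val P.1 (t - algebraMap K F c0) ∈ D.A.nonunits
      rw [hτval P.1 cP hcP]
      exact GN2Geo_sub_mem_nonunits D hcPA hc0 (hcPr.trans hc0r.symm))
    (fun P P' h => by
      obtain ⟨cP, hcPA, hcP, hcPr⟩ := hreg P.1 (hPP P.1 P.2)
      obtain ⟨cP', -, hcP', -⟩ := hreg P'.1 (hPP P'.1 P'.2)
      have h' : val P.1 (t - algebraMap K F c0) = val P'.1 (t - algebraMap K F c0) := h
      rw [hτval P.1 cP hcP, hτval P'.1 cP' hcP'] at h'
      have h'' : cP' = cP := by linear_combination -h'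
      rw [h''] at hcP'
      obtain ⟨Q, -, -, -, hQ⟩ := hD K F k κ D sp g hsp hcf t y cbar ht hreg hunr cP hcPA hcPr
      exact Subtype.ext ((hQ P.1 (hPP P.1 P.2) hcP).trans (hQ P'.1 (hPP P'.1 P'.2) hcP').symm))
    ⟨f, hf, hfreg⟩
  refine ⟨W, fun P hP c hc => ?_⟩
  have h1 : val P f = aeval (val P (t - algebraMap K F c0)) W := hW ⟨P, hP⟩
  rw [hτval P c hc] at h1
  rw [← h1]
  exact hval ⟨f, hf, hfreg⟩ P (hPP P hP)

end Fermat.Agent.FF19.Law

end
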