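import Fermat.Agent.FF19.Law.GeoInterface

/-!
# FF19 / Law / Geo : (FFG-13) (N2) for the functions `EE`, one chart (`Stmt_PolyEE`)
-/

set_option autoImplicit false

noncomputable section

namespace Fermat.Agent.FF19.Law

open AlgebraicCurve Polynomial
open Fermat.Agent.INJ (RedData)
open Fermat.Agent.RED (Ev)
open Fermat.Agent.FF19.A (sumPl push IsDivOf SpData CurveFacts Base InJ1 Rep IsVal)

theorem gPolyEE (hN : Stmt_N2Geo) (hP : Stmt_Pt) : Stmt_PolyEE := by
  intro K F k κ _ _ _ _ _ _ D sp g s t w cb P0 c0 T hArch hC N b hbO hbreg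
  obtain ⟨-, -, h3, -, h5, -⟩ := hP K F k κ D sp g s t w cb P0 c0 T hC
  have hsecond : ∀ z ∈ J1 sp, ∀ i l j,
      Ev (pt sp t (w i l) (T i z + c0 i) (P0 i)) (b j) (EE sp t w P0 c0 T b i l j z) := by
    intro z hz i l j
    obtain ⟨c, hc⟩ := hC.cf.resK _ (b j) (hbreg i l _ (h3 z hz i l).1 j)
    have h1 : EE sp t w P0 c0 T b i l j z = c := val_eq hc
    rw [h1]
    exact hc
  refine ⟨?_, hsecond⟩
  intro i l j S hS
  classical
  obtain ⟨W, hW⟩ := hN K F k κ D sp g hArch hC.spd hC.cf t (w i l) (cb i) hC.t_mem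
    (hC.fib.reg i l) (hC.fib.unr i l) (c0 i) (h5 i).1 (h5 i).2 (b j) (hbO j)
    (fun P hP => hbreg i l P hP j)
    (S.image (fun z => pt sp t (w i l) (T i z + c0 i) (P0 i))) (by
      intro P hP
      obtain ⟨z, hz, rfl⟩ := Finset.mem_image.1 hP
      exact (h3 z (hS z hz) i l).1)
  refine ⟨W, fun z hz => ?_⟩
  have h1 := hW _ (Finset.mem_image_of_mem _ hz) _ (h3 z (hS z hz) i l).2
  rw [add_sub_cancel_right] at h1
  exact val_eq h1

end Fermat.Agent.FF19.Law

end
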