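import Fermat.Agent.FF19.Law.GeoInterface

/-!
# FF19 / Law / GPt : (FFG-12) the dictionary `z ↦ P_i(z) ↦ T i z`, one chart
-/

set_option autoImplicit false

noncomputable section

namespace Fermat.Agent.FF19.Law

open AlgebraicCurve Polynomial
open Fermat.Agent.INJ (RedData)
open Fermat.Agent.RED (Ev)
open Fermat.Agent.FF19.A (sumPl push IsDivOf SpData CurveFacts Base InJ1 Rep IsVal)

/-- the kernel of `ra` on `A` is the maximal ideal. -/
theorem GPt_nonunit {K F k κ : Type} [Field K] [Field F] [Algebra K F] [Field k] [Field κ]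
    [Algebra k κ] (D : RedData K F k κ) {a : K} (ha : a ∈ D.A) (h : D.ra a = 0) :
    a ∈ D.A.nonunits := by
  rw [RedData.ra_of_mem ha] at h
  rw [ValuationSubring.mem_nonunits_iff_exists_mem_maximalIdeal]
  refine ⟨ha, ?_⟩
  have hker : (RingHom.ker D.rA).IsMaximal := RingHom.ker_isMaximal_of_surjective D.rA D.rA_surj
  rw [← IsLocalRing.eq_maximalIdeal hker]
  exact h

theorem GPt_ra_sub {K F k κ : Type} [Field K] [Field F] [Algebra K F] [Field k] [Field κ]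
    [Algebra k κ] (D : RedData K F k κ) {a b : K} (ha : a ∈ D.A) (hb : b ∈ D.A) :
    D.ra (a - b) = D.ra a - D.ra b := by
  rw [RedData.ra_of_mem ha, RedData.ra_of_mem hb, RedData.ra_of_mem (sub_mem ha hb), ← map_sub]
  rfl

theorem gPt (hD : Stmt_Disc) (hEx : A.Stmt_Ex) (hAdd : A.Stmt_Add) : Stmt_Pt := by
  intro K F k κ _ _ _ _ _ _ D sp g s t w cb P0 c0 T C
  -- (5)
  have h5 : ∀ i, c0 i ∈ D.A ∧ D.ra (c0 i) = cb i := by
    intro i
    obtain ⟨c, hcA, hev, hra⟩ := C.fib.reg i 0 (P0 i) (C.base.sp0 i)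
    have hc : c = c0 i := Fermat.Agent.RED.ev_unique hev (C.v0 i)
    rw [← hc]
    exact ⟨hcA, hra⟩
  -- the key fact
  have key : ∀ z ∈ J1 sp, ∃ P : Fin g → Place K F, Rep sp (fun i => w i 0) P0 z P ∧
      ∀ i, Ev (P i) t (T i z + c0 i) ∧ T i z + c0 i ∈ D.A ∧ D.ra (T i z + c0 i) = cb i := by
    intro z hz
    obtain ⟨P, hP⟩ := hEx K F k κ D sp g _ P0 C.spd C.cf C.base z (mem_J1.1 hz)
    have hreg := fun i => C.fib.reg i 0 (P i) (hP.1 i)
    choose c hcA hev hra using hreg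
    have hT := C.co z P c c0 hP hev C.v0
    refine ⟨P, hP, fun i => ?_⟩
    have h1 : T i z + c0 i = c i := by rw [hT i]; ring
    rw [h1]
    exact ⟨hev i, hcA i, hra i⟩
  -- the discs
  have disc : ∀ i l, ∀ c ∈ D.A, D.ra c = cb i →
      ∃ P : Place K F, sp P = w i l ∧ Ev P t c ∧
        ∀ P' : Place K F, sp P' = w i l → Ev P' t c → P' = P := by
    intro i l c hc hra
    obtain ⟨P, h1, h2, -, h3⟩ := hD K F k κ D sp g C.spd C.cf t (w i l) (cb i) C.t_mem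
      (C.fib.reg i l) (C.fib.unr i l) c hc hra
    exact ⟨P, h1, h2, h3⟩
  refine ⟨?_, ?_, ?_, ?_, h5, ?_⟩
  · -- (1)
    intro z hz
    obtain ⟨P, hP, hk⟩ := key z hz
    refine ⟨P, hP, fun i => ⟨(hk i).1, ?_⟩⟩
    obtain ⟨P', -, -, hu⟩ := disc i 0 _ (hk i).2.1 (hk i).2.2
    have hs := pt_spec (P0 i) ⟨P i, hP.1 i, (hk i).1⟩
    rw [hu _ hs.1 hs.2, hu _ (hP.1 i) (hk i).1]
  · -- (2)
    intro z hz i
    obtain ⟨P, hP, hk⟩ := key z hz
    refine ⟨?_, (hk i).2.1, (hk i).2.2⟩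
    have h1 : T i z = (T i z + c0 i) - c0 i := by ring
    rw [h1]
    refine GPt_nonunit D (sub_mem (hk i).2.1 (h5 i).1) ?_
    rw [GPt_ra_sub D (hk i).2.1 (h5 i).1, (hk i).2.2, (h5 i).2, sub_self]
  · -- (3)
    intro z hz i l
    obtain ⟨P, hP, hk⟩ := key z hz
    obtain ⟨P', h1, h2, -⟩ := disc i l _ (hk i).2.1 (hk i).2.2
    exact pt_spec (P0 i) ⟨P', h1, h2⟩
  · -- (4)
    intro i
    have hR : Rep sp (fun i => w i 0) P0 0 P0 :=
      (hAdd K F k κ sp g (fun i => w i 0) P0 C.base.sp0).2.2.1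
    rw [C.co 0 P0 c0 c0 hR C.v0 C.v0 i, sub_self]
  · -- (6)
    intro z hz z' hz' hT
    obtain ⟨P, hP, hk⟩ := key z hz
    obtain ⟨P', hP', hk'⟩ := key z' hz'
    have hPP : P = P' := by
      funext i
      obtain ⟨R, -, -, hu⟩ := disc i 0 _ (hk i).2.1 (hk i).2.2
      have h2 := (hk' i).1
      rw [← hT i] at h2
      rw [hu _ (hP.1 i) (hk i).1, hu _ (hP'.1 i) h2]
    subst hPP
    obtain ⟨E, hE, rfl⟩ := hP.2
    obtain ⟨E', hE', rfl⟩ := hP'.2
    have : E = E' := Subtype.ext (hE.trans hE'.symm)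
    rw [this]

end Fermat.Agent.FF19.Law

end
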