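import Fermat.Agent.FF19.Law.GeoInterface

/-!
# FF19 / Law / Geo (FFG-5) : functions of `L(m (t)_∞ - E')` are regular where `t` is, and vanish on `E'`
-/

set_option autoImplicit false

noncomputable section

namespace Fermat.Agent.FF19.Law

open AlgebraicCurve Polynomial
open Fermat.Agent.INJ (RedData)
open Fermat.Agent.RED (Ev)
open Fermat.Agent.FF19.A (sumPl push IsDivOf SpData CurveFacts Base InJ1 Rep IsVal)

theorem gRegB : Stmt_RegB := by
  intro K F _ _ _ t n Einf hpole m E' hE' f hf P c hc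
  have ht : 0 ≤ P.ord t := Fermat.Agent.S24.ord_nonneg_of_mem P (Fermat.Agent.RED.ev_mem hc)
  have hE0 : Einf P = 0 := by
    rw [hpole.val P]
    exact max_eq_left (by omega)
  have h := (mem_riemannRochSpace_iff.mp hf) P
  by_cases hf0 : f = 0
  · subst hf0
    exact ⟨zero_mem _, fun _ => Fermat.Agent.RED.ev_zero P⟩
  · have h1 : E' P ≤ P.ord f := by
      have h2 := h.resolve_left hf0
      simpa [Finsupp.sub_apply, Finsupp.smul_apply, hE0] using h2
    have h2 : 0 ≤ E' P := hE' P
    exact ⟨Fermat.Agent.S24.mem_of_ord_nonneg P hf0 (h2.trans h1),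
      fun h3 => (Fermat.Agent.RED.ev_zero_iff_ord hf0).2 (lt_of_lt_of_le h3 h1)⟩

end Fermat.Agent.FF19.Law

end
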