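import Fermat.Agent.FF19.Law.GeoInterface

/-!
# FF19 / Law / Geo : (FFG-7) two-chart form of the addition in `Pic0`
-/

set_option autoImplicit false

noncomputable section

namespace Fermat.Agent.FF19.Law

open AlgebraicCurve Polynomial
open Fermat.Agent.INJ (RedData)
open Fermat.Agent.RED (Ev)
open Fermat.Agent.FF19.A (sumPl push IsDivOf SpData CurveFacts Base InJ1 Rep IsVal)

theorem GRepPrin_mk_eq {K F : Type} [Field K] [Field F] [Algebra K F]
    {E E' : Divisor.degZero (K := K) (F := F)} (h : Pic0.mk E = Pic0.mk E') :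
    ∃ f : F, f ≠ 0 ∧ IsDivOf (E'.1 - E.1) f := by
  unfold Pic0.mk at h
  rw [QuotientAddGroup.eq, AddSubgroup.mem_addSubgroupOf] at h
  obtain ⟨f, hf, hd⟩ := h
  refine ⟨f, hf, fun P => ?_⟩
  rw [← hd P]
  have h2 : ((-E + E' : Divisor.degZero (K := K) (F := F)) : Divisor K F) = E'.1 - E.1 := by
    push_cast
    abel
  rw [h2]

/-- (FFG-7). -/
theorem gRepPrin : Stmt_RepPrin := by
  intro K F k κ _ _ _ _ _ _ sp g x x' P0 Q0 z z' P Q P'' hz hz' hzz
  obtain ⟨-, E, hE, hEz⟩ := hz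
  obtain ⟨-, E', hE', hEz'⟩ := hz'
  obtain ⟨-, E'', hE'', hEzz⟩ := hzz
  have h1 : Pic0.mk E'' = Pic0.mk (E + E') := by
    rw [Pic0.mk_add, hEz, hEz', hEzz]
  obtain ⟨f0, hf0, hd0⟩ := GRepPrin_mk_eq h1
  refine ⟨f0, hf0, fun R => ?_⟩
  rw [← hd0 R]
  have h2 : ((E + E' : Divisor.degZero (K := K) (F := F)) : Divisor K F) - E''.1 =
      sumPl P + sumPl Q - sumPl Q0 - sumPl P'' := by
    push_cast
    rw [hE, hE', hE'']
    abel
  rw [h2]

end Fermat.Agent.FF19.Law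

end
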