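import Fermat.Agent.FF19.Law.Interface

/-!
# FF19 / Law : (FFL-7) the assembly `LawFacts → LawConcl`
-/

set_option autoImplicit false

noncomputable section

namespace Fermat.Agent.FF19.Law

open Polynomial

section helpers

variable {K : Type} [Field K] (A : ValuationSubring K)

lemma Law_nu_add {a b : K} (ha : a ∈ A.nonunits) (hb : b ∈ A.nonunits) : a + b ∈ A.nonunits := by
  rw [ValuationSubring.mem_nonunits_iff] at *
  exact lt_of_le_of_lt (A.valuation.map_add a b) (max_lt ha hb)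

lemma Law_nu_neg {a : K} (ha : a ∈ A.nonunits) : -a ∈ A.nonunits := by
  rw [ValuationSubring.mem_nonunits_iff] at *
  rwa [Valuation.map_neg]

lemma Law_nu_mem {a : K} (ha : a ∈ A.nonunits) : a ∈ A := by
  rw [ValuationSubring.mem_nonunits_iff] at ha
  exact (A.valuation_le_one_iff a).1 ha.le

lemma Law_unit_mul {a b : K} (ha : a ∉ A.nonunits) (hb : b ∉ A.nonunits) :
    a * b ∉ A.nonunits := by
  rw [ValuationSubring.mem_nonunits_iff, not_lt] at *
  rw [map_mul]
  exact one_le_mul ha hb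

lemma Law_aeval_apply {X : Type} (ρ : X → K) (W : (A)[X]) (x : X) :
    (aeval ρ W) x = aeval (ρ x) W :=
  (Polynomial.aeval_algHom_apply (Pi.evalAlgHom A (fun _ => K) x) ρ W).symm

lemma Law_aeval_mem {X : Type} (𝒪 : Subalgebra A (X → K)) {ρ : X → K} (hρ : ρ ∈ 𝒪)
    (W : (A)[X]) : aeval ρ W ∈ 𝒪 := by
  have h := Polynomial.aeval_subalgebra_coe W 𝒪 ⟨ρ, hρ⟩
  rw [← h]
  exact Subtype.property _

lemma Law_const_apply {X : Type} (a : A) (x : X) : algebraMap A (X → K) a x = (a : K) := rfl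

end helpers

/-- the abstract core: Nakayama extraction of `ρ`. -/
lemma Law_core (hA : Stmt_AdjFun) (hE : Stmt_Extract) {K : Type} [Field K]
    (A : ValuationSubring K)
    {X : Type} [Fintype X] {ι : Type} (G : ι → X → K) (hG : ∀ k x, G k x ∈ A.nonunits)
    {N : ℕ} (α : Fin N → K) (hα : ∀ j, α j ∈ A) (β : Fin N → X → K)
    (hβ : ∀ j, β j ∈ Algebra.adjoin A (Set.range G)) (c : K) (hc : c ∈ A)
    (hc' : c ∉ A.nonunits)
    (hβc : ∀ j x, β j x - c * α j ∈ A.nonunits) (ρ : X → K) (hρ : ∀ x, ρ x ∈ A.nonunits)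
    (W : Fin N → (A)[X]) (WV : (A)[X]) (hV : ∀ x, aeval (ρ x) WV ∉ A.nonunits)
    (hrel : ∀ x, ∑ j, α j * aeval (ρ x) (W j) = ρ x * aeval (ρ x) WV)
    (hzero : ∀ x, ∑ j, β j x * aeval (ρ x) (W j) = 0) :
    ρ ∈ Algebra.adjoin A (Set.range G) := by
  classical
  have hO : IsFun A (Algebra.adjoin A (Set.range G)) := hA K A X ι G hG
  -- the bigger algebra
  let G' : ι ⊕ Unit → X → K := Sum.elim G (fun _ => ρ)
  have hG' : ∀ k x, G' k x ∈ A.nonunits := by
    rintro (k | k) x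
    · exact hG k x
    · exact hρ x
  have hO' : IsFun A (Algebra.adjoin A (Set.range G')) := hA K A X _ G' hG'
  have hle : Algebra.adjoin A (Set.range G') ≤
      Algebra.adjoin A (((Algebra.adjoin A (Set.range G) : Subalgebra A (X → K)) :
        Set (X → K)) ∪ {ρ}) := by
    apply Algebra.adjoin_le
    rintro _ ⟨(k | k), rfl⟩
    · exact Algebra.subset_adjoin (Or.inl (Algebra.subset_adjoin ⟨k, rfl⟩))
    · exact Algebra.subset_adjoin (Or.inr rfl)
  have hρO' : ρ ∈ Algebra.adjoin A (Set.range G') := Algebra.subset_adjoin ⟨Sum.inr (), rfl⟩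
  -- `c • Vf`
  let cV : X → K := algebraMap A (X → K) ⟨c, hc⟩ * aeval ρ WV
  have hcV : cV ∈ Algebra.adjoin A (Set.range G') :=
    Subalgebra.mul_mem _ (Subalgebra.algebraMap_mem _ _) (Law_aeval_mem A _ hρO' WV)
  have hcVx : ∀ x, cV x = c * aeval (ρ x) WV := by
    intro x
    change algebraMap A (X → K) ⟨c, hc⟩ x * (aeval ρ WV) x = _
    rw [Law_aeval_apply, Law_const_apply]
  have hcVu : ∀ x, cV x ∉ A.nonunits := by
    intro x
    rw [hcVx]
    exact Law_unit_mul A hc' (hV x)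
  obtain ⟨u, hu, hcu⟩ := hO'.unit cV hcV hcVu
  have hcux : ∀ x, c * aeval (ρ x) WV * u x = 1 := by
    intro x
    rw [← hcVx]
    exact congrFun hcu x
  apply hE K A X _ hO ρ
  · refine ⟨∏ x : X, (Polynomial.X - Polynomial.C (⟨ρ x, Law_nu_mem A (hρ x)⟩ : A)),
      monic_prod_of_monic _ _ (fun x _ => monic_X_sub_C _), ?_⟩
    funext y
    rw [Law_aeval_apply, map_prod]
    apply Finset.prod_eq_zero (Finset.mem_univ y)
    rw [map_sub, aeval_X, aeval_C]
    exact sub_self _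
  · refine ⟨N, fun j => β j - algebraMap A (X → K) ⟨c * α j, A.mul_mem _ _ hc (hα j)⟩,
      fun j => -(u * aeval ρ (W j)), ?_, ?_, ?_, ?_⟩
    · intro j
      exact Subalgebra.sub_mem _ (hβ j) (Subalgebra.algebraMap_mem _ _)
    · intro j x
      exact hβc j x
    · intro j
      exact Subalgebra.neg_mem _ (Subalgebra.mul_mem _ (hle hu)
        (Law_aeval_mem A _ (Algebra.subset_adjoin (Or.inr rfl)) (W j)))
    · funext x
      rw [Finset.sum_apply]
      have h1 : ∀ j, ((β j - algebraMap A (X → K) ⟨c * α j, A.mul_mem _ _ hc (hα j)⟩) *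
          -(u * aeval ρ (W j))) x
          = -(u x) * (β j x * aeval (ρ x) (W j)) + u x * c * (α j * aeval (ρ x) (W j)) := by
        intro j
        change (β j x - algebraMap A (X → K) ⟨c * α j, A.mul_mem _ _ hc (hα j)⟩ x) *
          -(u x * (aeval ρ (W j)) x) = _
        rw [Law_aeval_apply, Law_const_apply]
        ring
      rw [Finset.sum_congr rfl (fun j _ => h1 j), Finset.sum_add_distrib, ← Finset.mul_sum,
        ← Finset.mul_sum, hzero, hrel, mul_zero, zero_add]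
      have := hcux x
      calc ρ x = ρ x * (c * aeval (ρ x) WV * u x) := by rw [this, mul_one]
        _ = _ := by ring

/-- (FFL-7) **LAW**. -/
theorem law (hA : Stmt_AdjFun) (hS : Stmt_SqzFun) (hE : Stmt_Extract) : Stmt_Law := by
  classical
  intro K _ A J _ J1 g t t' N s α E1 E2 M V hF S S' hSJ hSJ' i
  have hS1J : ∀ z ∈ insert 0 S, z ∈ J1 := by
    intro z hz
    rcases Finset.mem_insert.1 hz with rfl | hz
    · exact J1.zero_mem
    · exact hSJ z hz
  have hS1J' : ∀ z ∈ insert 0 S', z ∈ J1 := by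
    intro z hz
    rcases Finset.mem_insert.1 hz with rfl | hz
    · exact J1.zero_mem
    · exact hSJ' z hz
  let X : Type := {x : J × J // x ∈ (insert 0 S) ×ˢ (insert 0 S')}
  have hm1 : ∀ x : X, x.1.1 ∈ insert 0 S := fun x => (Finset.mem_product.1 x.2).1
  have hm2 : ∀ x : X, x.1.2 ∈ insert 0 S' := fun x => (Finset.mem_product.1 x.2).2
  have hx1 : ∀ x : X, x.1.1 ∈ J1 := fun x => hS1J _ (hm1 x)
  have hx2 : ∀ x : X, x.1.2 ∈ J1 := fun x => hS1J' _ (hm2 x)
  let x0 : X := ⟨(0, 0), Finset.mem_product.2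
    ⟨Finset.mem_insert_self _ _, Finset.mem_insert_self _ _⟩⟩
  have : Nonempty X := ⟨x0⟩
  let G : Fin g ⊕ Fin g → X → K := Sum.elim (fun j x => t j x.1.1) (fun j x => t' j x.1.2)
  have hGsmall : ∀ k x, G k x ∈ A.nonunits := by
    rintro (j | j) x
    · exact hF.t_small j _ (hx1 x)
    · exact hF.t'_small j _ (hx2 x)
  have hO : IsFun A (Algebra.adjoin A (Set.range G)) := hA K A X _ G hGsmall
  have hGO : ∀ k, G k ∈ Algebra.adjoin A (Set.range G) := fun k => Algebra.subset_adjoin ⟨k, rfl⟩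
  let Φ : (Fin g × Fin s) ⊕ (Fin g × Fin s) → Fin N → X → K :=
    Sum.elim (fun a j x => E1 a.1 a.2 j x.1.1) (fun a j x => E2 a.1 a.2 j x.1.2)
  have hΦ : ∀ a j, Φ a j ∈ Algebra.adjoin A (Set.range G) := by
    rintro (⟨i', l⟩ | ⟨i', l⟩) j
    · obtain ⟨W, hW⟩ := hF.polyE1 i' l j _ hS1J
      have h : Φ (Sum.inl (i', l)) j = aeval (G (Sum.inl i')) W := by
        funext x
        rw [Law_aeval_apply]
        exact hW _ (hm1 x)
      rw [h]
      exact Law_aeval_mem A _ (hGO _) W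
    · obtain ⟨W, hW⟩ := hF.polyE2 i' l j _ hS1J'
      have h : Φ (Sum.inr (i', l)) j = aeval (G (Sum.inr i')) W := by
        funext x
        rw [Law_aeval_apply]
        exact hW _ (hm2 x)
      rw [h]
      exact Law_aeval_mem A _ (hGO _) W
  have hker : ∀ β : Fin N → K, (∀ j, β j ∈ A) → (∀ a x, ∑ j, β j * Φ a j x ∈ A.nonunits) →
      ∃ c ∈ A, ∀ j, β j - c * α j ∈ A.nonunits := by
    intro β hβ h
    exact hF.geo3 β hβ (fun i' l => h (Sum.inl (i', l)) x0) (fun i' l => h (Sum.inr (i', l)) x0)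
  have hpt : ∀ x, ∃ γ : Fin N → K, γ ≠ 0 ∧ ∀ a, ∑ j, γ j * Φ a j x = 0 := by
    intro x
    obtain ⟨γ, hγ, h1, h2⟩ := hF.geo1 _ (hx1 x) _ (hx2 x)
    refine ⟨γ, hγ, ?_⟩
    rintro (⟨i', l⟩ | ⟨i', l⟩)
    · exact h1 i' l
    · exact h2 i' l
  obtain ⟨β, c, hβO, hcA, hcu, hβΦ, hβc⟩ :=
    hS K A X _ hO _ N Φ hΦ α hF.alpha_mem hF.alpha_unit hker hpt
  -- the third coordinate
  let ρ : X → K := fun x => t i (x.1.1 + x.1.2)
  have hρ : ∀ x, ρ x ∈ A.nonunits := fun x => hF.t_small i _ (J1.add_mem (hx1 x) (hx2 x))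
  let S'' : Finset J := ((insert 0 S) ×ˢ (insert 0 S')).image (fun p => p.1 + p.2)
  have hS''J : ∀ z ∈ S'', z ∈ J1 := by
    intro z hz
    obtain ⟨p, hp, rfl⟩ := Finset.mem_image.1 hz
    exact J1.add_mem (hS1J _ (Finset.mem_product.1 hp).1) (hS1J' _ (Finset.mem_product.1 hp).2)
  have hxS'' : ∀ x : X, x.1.1 + x.1.2 ∈ S'' := fun x => Finset.mem_image.2 ⟨x.1, x.2, rfl⟩
  choose W hW using fun j => hF.polyM i j S'' hS''J
  obtain ⟨WV, hWV⟩ := hF.polyV i S'' hS''J
  have hγ0 : ∀ x, (fun j => β j x) ≠ 0 := by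
    intro x h0
    obtain ⟨j₀, hj₀⟩ := hF.alpha_unit
    have h1 := hβc j₀ x
    have h2 : β j₀ x = 0 := congrFun h0 j₀
    rw [h2, zero_sub] at h1
    have h3 := Law_nu_neg A h1
    rw [neg_neg] at h3
    exact Law_unit_mul A hcu hj₀ h3
  have hzero : ∀ x, ∑ j, β j x * aeval (ρ x) (W j) = 0 := by
    intro x
    have h := hF.geo2 _ (hx1 x) _ (hx2 x) (fun j => β j x) (hγ0 x)
      (fun i' l => hβΦ (Sum.inl (i', l)) x) (fun i' l => hβΦ (Sum.inr (i', l)) x) i
    rw [← h]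
    exact Finset.sum_congr rfl (fun j _ => by rw [hW j _ (hxS'' x)])
  have hrel : ∀ x, ∑ j, α j * aeval (ρ x) (W j) = ρ x * aeval (ρ x) WV := by
    intro x
    have h := hF.rel i _ (J1.add_mem (hx1 x) (hx2 x))
    rw [hWV _ (hxS'' x)] at h
    rw [← h]
    exact Finset.sum_congr rfl (fun j _ => by rw [hW j _ (hxS'' x)])
  have hV : ∀ x, aeval (ρ x) WV ∉ A.nonunits := by
    intro x
    have h := hF.V_unit i _ (J1.add_mem (hx1 x) (hx2 x))
    rwa [hWV _ (hxS'' x)] at h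
  have hmem : ρ ∈ Algebra.adjoin A (Set.range G) :=
    Law_core hA hE A G hGsmall α hF.alpha_mem β hβO c hcA hcu hβc ρ hρ W WV hV hrel hzero
  rw [Algebra.adjoin_range_eq_range_aeval] at hmem
  obtain ⟨Ψ, hΨ⟩ := hmem
  refine ⟨Ψ, ?_⟩
  intro z hz z' hz'
  let x : X := ⟨(z, z'), Finset.mem_product.2
    ⟨Finset.mem_insert_of_mem hz, Finset.mem_insert_of_mem hz'⟩⟩
  have h1 : t i (z + z') = (MvPolynomial.aeval G Ψ) x := (congrFun hΨ x).symm
  rw [h1]
  have h2 := MvPolynomial.comp_aeval_apply (R := A) G (Pi.evalAlgHom A (fun _ => K) x) Ψ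
  have h3 : (fun k => Pi.evalAlgHom A (fun _ => K) x (G k))
      = Sum.elim (fun j => t j z) (fun j => t' j z') := by
    funext k
    rcases k with k | k <;> rfl
  rw [h3] at h2
  exact h2

end Fermat.Agent.FF19.Law

end
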