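import Fermat.Agent.FF19.Law.Interface

/-!
# FF19 / Law : (FFL-5) Lemma N2, abstract form
-/

set_option autoImplicit false

noncomputable section

namespace Fermat.Agent.FF19.Law

open Polynomial

/-- `R = A + τ R` implies `R = A[τ]_{< m} + τ ^ m R`. -/
theorem N2Abs_expand {A R : Type} [CommRing A] [CommRing R] (ι : A →+* R) (τ : R)
    (h : ∀ r : R, ∃ (c : A) (r₁ : R), r = ι c + τ * r₁) (m : ℕ) :
    ∀ r : R, ∃ (Q : A[X]) (r' : R), r = Q.eval₂ ι τ + τ ^ m * r' := by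
  induction m with
  | zero => intro r; exact ⟨0, r, by simp⟩
  | succ m ih =>
    intro r
    obtain ⟨Q, r', hr⟩ := ih r
    obtain ⟨c, r₁, hc⟩ := h r'
    refine ⟨Q + C c * X ^ m, r₁, ?_⟩
    rw [hr, hc]
    simp only [eval₂_add, eval₂_mul, eval₂_C, eval₂_X_pow]
    ring

theorem n2Abs (hL : Stmt_Lag) : Stmt_N2Abs := by
  classical
  intro K _ A hArch R _ ι τ hN1 S _ ev hι hA hτ hinj r
  obtain ⟨d, hd0, hd⟩ := hL K A S (fun P => ev P τ) (fun P => hA P τ) hinj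
  have h1 : ∀ P, ∃ m : ℕ, ∃ a ∈ A, ev P τ ^ m = d * a := fun P => hArch _ (hτ P) d hd0
  choose mP aP haP hmP using h1
  have h2 : ∀ P, ∃ a ∈ A, ev P τ ^ (∑ P, mP P) = d * a := by
    intro P
    have hle : mP P ≤ ∑ P, mP P :=
      Finset.single_le_sum (fun _ _ => Nat.zero_le _) (Finset.mem_univ P)
    refine ⟨aP P * ev P τ ^ ((∑ P, mP P) - mP P),
      A.mul_mem _ _ (haP P) (A.pow_mem (hA P τ) _), ?_⟩
    rw [← mul_assoc, ← hmP P, ← pow_add, Nat.add_sub_cancel' hle]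
  choose a' ha' hm' using h2
  obtain ⟨Q, r', hr⟩ := N2Abs_expand ι τ hN1 (∑ P, mP P) r
  obtain ⟨W', hW'⟩ := hd (fun P => a' P * ev P r') (fun P => A.mul_mem _ _ (ha' P) (hA P r'))
  refine ⟨Q + W', fun P => ?_⟩
  have h3 : ev P (Q.eval₂ ι τ) = aeval (ev P τ) Q := by
    rw [Polynomial.hom_eval₂, aeval_def]
    congr 1
    ext c
    exact hι P c
  rw [map_add, ← hW' P, hr, map_add, map_mul, map_pow, hm' P, h3]
  ring

end Fermat.Agent.FF19.Law

end
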