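import Fermat.Agent.FF19.Law.Interface
import Fermat.Agent.FF19.Nak.SqueezeAbs

/-!
# FF19 / Law : (FFL-4) SQUEEZE for a local algebra of functions (helper26)
-/

set_option autoImplicit false

noncomputable section

namespace Fermat.Agent.FF19.Law

open Polynomial Matrix

section API

variable {K : Type} [Field K] {A : ValuationSubring K}

theorem SqzFun_mem {a : K} (h : a ∈ A.nonunits) : a ∈ A := A.nonunits_subset h

theorem SqzFun_add {a b : K} (ha : a ∈ A.nonunits) (hb : b ∈ A.nonunits) : a + b ∈ A.nonunits := by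
  rw [ValuationSubring.mem_nonunits_iff] at *
  exact Valuation.map_add_lt _ ha hb

theorem SqzFun_neg {a : K} (ha : a ∈ A.nonunits) : -a ∈ A.nonunits := by
  rw [ValuationSubring.mem_nonunits_iff] at *
  rwa [Valuation.map_neg]

theorem SqzFun_sub {a b : K} (ha : a ∈ A.nonunits) (hb : b ∈ A.nonunits) : a - b ∈ A.nonunits := by
  rw [sub_eq_add_neg]; exact SqzFun_add ha (SqzFun_neg hb)

theorem SqzFun_zero : (0 : K) ∈ A.nonunits := by
  rw [ValuationSubring.mem_nonunits_iff, map_zero]; exact zero_lt_one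

theorem SqzFun_mul {a b : K} (ha : a ∈ A.nonunits) (hb : b ∈ A) : a * b ∈ A.nonunits := by
  rw [ValuationSubring.mem_nonunits_iff] at *
  rw [map_mul]
  exact mul_lt_one_of_lt_of_le ha ((A.valuation_le_one_iff b).2 hb)

theorem SqzFun_mul' {a b : K} (ha : a ∈ A) (hb : b ∈ A.nonunits) : a * b ∈ A.nonunits := by
  rw [mul_comm]; exact SqzFun_mul hb ha

theorem SqzFun_sum {ι : Type} (s : Finset ι) (f : ι → K) (h : ∀ i ∈ s, f i ∈ A.nonunits) :
    ∑ i ∈ s, f i ∈ A.nonunits := by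
  classical
  induction s using Finset.induction_on with
  | empty => simp
  | insert i s hi ih =>
    rw [Finset.sum_insert hi]
    exact SqzFun_add (h i (Finset.mem_insert_self i s))
      (ih fun j hj => h j (Finset.mem_insert_of_mem hj))

/-- `c u ∈ 𝔪`, `u` a unit of `A` : `c ∈ 𝔪`. -/
theorem SqzFun_cancel {c u : K} (hu : u ∈ A) (hu' : u ∉ A.nonunits) (h : c * u ∈ A.nonunits) :
    c ∈ A.nonunits := by
  rw [ValuationSubring.mem_nonunits_iff] at *
  have h1 : A.valuation u = 1 :=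
    le_antisymm ((A.valuation_le_one_iff u).2 hu) (not_lt.1 hu')
  rwa [map_mul, h1, mul_one] at h

theorem SqzFun_one_not_mem : (1 : K) ∉ A.nonunits := by
  rw [ValuationSubring.mem_nonunits_iff, map_one]; exact lt_irrefl _

theorem SqzFun_residue_eq_zero (a : A) :
    IsLocalRing.residue A a = 0 ↔ (a : K) ∈ A.nonunits := by
  rw [IsLocalRing.residue_eq_zero_iff, ValuationSubring.mem_nonunits_iff,
    ValuationSubring.valuation_lt_one_iff]

variable {X : Type} {𝒪 : Subalgebra A (X → K)}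

theorem SqzFun_diff (h : IsFun A 𝒪) {φ : X → K} (hφ : φ ∈ 𝒪) (x y : X) :
    φ x - φ y ∈ A.nonunits := by
  obtain ⟨c, _, hc⟩ := h.loc φ hφ
  have := SqzFun_sub (hc x) (hc y)
  rwa [sub_sub_sub_cancel_right] at this

theorem SqzFun_val_mem (h : IsFun A 𝒪) {φ : X → K} (hφ : φ ∈ 𝒪) (x : X) : φ x ∈ A := by
  obtain ⟨c, hcA, hc⟩ := h.loc φ hφ
  have := A.add_mem _ _ (SqzFun_mem (hc x)) hcA
  rwa [sub_add_cancel] at this

theorem SqzFun_small (h : IsFun A 𝒪) {φ : X → K} (hφ : φ ∈ 𝒪) {x : X} (hx : φ x ∈ A.nonunits)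
    (y : X) : φ y ∈ A.nonunits := by
  have := SqzFun_add (SqzFun_diff h hφ y x) hx
  rwa [sub_add_cancel] at this

/-- evaluation `𝒪 → A`. -/
def SqzFun_evA (h : IsFun A 𝒪) (x : X) : 𝒪 →+* A where
  toFun φ := ⟨(φ : X → K) x, SqzFun_val_mem h φ.2 x⟩
  map_one' := rfl
  map_mul' _ _ := rfl
  map_zero' := rfl
  map_add' _ _ := rfl

/-- evaluation `𝒪 → K`. -/
def SqzFun_ev (𝒪 : Subalgebra A (X → K)) (x : X) : 𝒪 →+* K where
  toFun φ := (φ : X → K) x
  map_one' := rfl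
  map_mul' _ _ := rfl
  map_zero' := rfl
  map_add' _ _ := rfl

/-- the residue map of `𝒪`. -/
def SqzFun_res (h : IsFun A 𝒪) (x : X) : 𝒪 →+* IsLocalRing.ResidueField A :=
  (IsLocalRing.residue A).comp (SqzFun_evA h x)

theorem SqzFun_res_eq_zero (h : IsFun A 𝒪) (x : X) (φ : 𝒪) :
    SqzFun_res h x φ = 0 ↔ (φ : X → K) x ∈ A.nonunits :=
  SqzFun_residue_eq_zero (SqzFun_evA h x φ)

theorem SqzFun_res_const (h : IsFun A 𝒪) (x : X) (a : A) :
    SqzFun_res h x (algebraMap A 𝒪 a) = IsLocalRing.residue A a := rfl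

theorem SqzFun_res_surj (h : IsFun A 𝒪) (x : X) : Function.Surjective (SqzFun_res h x) := by
  intro y
  obtain ⟨a, rfl⟩ := IsLocalRing.residue_surjective y
  exact ⟨algebraMap A 𝒪 a, SqzFun_res_const h x a⟩

theorem SqzFun_res_local (h : IsFun A 𝒪) (x : X) : IsLocalHom (SqzFun_res h x) := by
  refine ⟨fun φ hφ => ?_⟩
  have h1 : (φ : X → K) x ∉ A.nonunits := by
    intro h2
    rw [(SqzFun_res_eq_zero h x φ).2 h2] at hφ
    exact not_isUnit_zero hφ
  obtain ⟨ψ, hψ, hmul⟩ := h.unit φ φ.2 (fun y hy => h1 (SqzFun_small h φ.2 hy x))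
  exact IsUnit.of_mul_eq_one (⟨ψ, hψ⟩ : 𝒪) (Subtype.ext hmul)

end API

theorem sqzFun : Stmt_SqzFun := by
  classical
  intro K _ A X _ 𝒪 h𝒪 m _ N Φ hΦ α hα ⟨j₀, hj₀⟩ hker hpt
  obtain ⟨x0⟩ : Nonempty X := inferInstance
  have := SqzFun_res_local h𝒪 x0
  obtain ⟨Φ', hΦ'⟩ : ∃ Φ' : Matrix m (Fin N) 𝒪, ∀ a j, ((Φ' a j : 𝒪) : X → K) = Φ a j :=
    ⟨Matrix.of fun a j => ⟨Φ a j, hΦ a j⟩, fun _ _ => rfl⟩
  obtain ⟨b, hb, hb0⟩ := Nak.squeezeAbs (SqzFun_res h𝒪 x0) (SqzFun_res_surj h𝒪 x0)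
    (SqzFun_ev 𝒪) (fun r hr => Subtype.ext (funext hr)) Φ' j₀
    (by
      intro v hv hv0
      choose β' hβ' using fun j => IsLocalRing.residue_surjective (v j)
      have hsm : ∀ a x, ∑ j, (β' j : K) * Φ a j x ∈ A.nonunits := by
        intro a x
        have h1 : SqzFun_res h𝒪 x0 (∑ j, Φ' a j * algebraMap A 𝒪 (β' j)) = 0 := by
          rw [map_sum]
          have h2 := congrFun hv a
          simp only [Matrix.mulVec, dotProduct, Matrix.map_apply, Pi.zero_apply] at h2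
          rw [← h2]
          refine Finset.sum_congr rfl fun j _ => ?_
          rw [map_mul, SqzFun_res_const, hβ']
        have h3 := SqzFun_small h𝒪 (Subtype.mem _) ((SqzFun_res_eq_zero h𝒪 x0 _).1 h1) x
        have h4 : ((∑ j, Φ' a j * algebraMap A 𝒪 (β' j) : 𝒪) : X → K) x
            = ∑ j, (β' j : K) * Φ a j x := by
          have : ((∑ j, Φ' a j * algebraMap A 𝒪 (β' j) : 𝒪) : X → K) x
              = SqzFun_ev 𝒪 x (∑ j, Φ' a j * algebraMap A 𝒪 (β' j)) := rfl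
          rw [this, map_sum]
          refine Finset.sum_congr rfl fun j _ => ?_
          rw [map_mul, mul_comm]
          show (β' j : K) * ((Φ' a j : 𝒪) : X → K) x = _
          rw [hΦ']
        rwa [h4] at h3
      obtain ⟨c, hcA, hc⟩ := hker (fun j => (β' j : K)) (fun j => (β' j).2) hsm
      have hβ0 : (β' j₀ : K) ∈ A.nonunits := by
        rw [← SqzFun_residue_eq_zero, hβ', hv0]
      have hcm : c ∈ A.nonunits := by
        refine SqzFun_cancel (hα j₀) hj₀ ?_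
        have := SqzFun_sub hβ0 (hc j₀)
        rwa [sub_sub_cancel] at this
      funext j
      rw [Pi.zero_apply, ← hβ', SqzFun_residue_eq_zero]
      have := SqzFun_add (hc j) (SqzFun_mul hcm (hα j))
      rwa [sub_add_cancel] at this)
    (by
      intro x
      obtain ⟨γ, hγ, hγ'⟩ := hpt x
      refine ⟨γ, hγ, ?_⟩
      funext a
      simp only [Matrix.mulVec, dotProduct, Matrix.map_apply, Pi.zero_apply]
      rw [← hγ' a]
      refine Finset.sum_congr rfl fun j _ => ?_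
      rw [mul_comm]
      show γ j * ((Φ' a j : 𝒪) : X → K) x = _
      rw [hΦ'])
  -- the relation
  have hrel : ∀ a x, ∑ j, ((b j : 𝒪) : X → K) x * Φ a j x = 0 := by
    intro a x
    have h1 := congrArg (SqzFun_ev 𝒪 x) (congrFun hb a)
    simp only [Matrix.mulVec, dotProduct, Pi.zero_apply, map_sum, map_mul, map_zero] at h1
    rw [← h1]
    refine Finset.sum_congr rfl fun j _ => ?_
    rw [mul_comm, ← hΦ']
    rfl
  have hsm : ∀ a x, ∑ j, ((b j : 𝒪) : X → K) x0 * Φ a j x ∈ A.nonunits := by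
    intro a x
    have h1 : ∑ j, ((b j : 𝒪) : X → K) x0 * Φ a j x
        = ∑ j, (((b j : 𝒪) : X → K) x0 - ((b j : 𝒪) : X → K) x) * Φ a j x := by
      rw [← sub_zero (∑ j, ((b j : 𝒪) : X → K) x0 * Φ a j x), ← hrel a x, ← Finset.sum_sub_distrib]
      exact Finset.sum_congr rfl fun j _ => by ring
    rw [h1]
    exact SqzFun_sum _ _ fun j _ =>
      SqzFun_mul (SqzFun_diff h𝒪 (b j).2 x0 x) (SqzFun_val_mem h𝒪 (hΦ a j) x)
  obtain ⟨c, hcA, hc⟩ := hker (fun j => ((b j : 𝒪) : X → K) x0)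
    (fun j => SqzFun_val_mem h𝒪 (b j).2 x0) hsm
  refine ⟨fun j => ((b j : 𝒪) : X → K), c, fun j => (b j).2, hcA, ?_, hrel, ?_⟩
  · intro hcm
    have h1 := SqzFun_add (hc j₀) (SqzFun_mul hcm (hα j₀))
    rw [sub_add_cancel, hb0] at h1
    exact SqzFun_one_not_mem h1
  · intro j x
    have := SqzFun_add (SqzFun_diff h𝒪 (b j).2 x x0) (hc j)
    rwa [sub_add_sub_cancel] at this

end Fermat.Agent.FF19.Law

end
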