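import Fermat.Agent.FF19.Law.Lag
import Fermat.Agent.FF19.Law.AdjFun
import Fermat.Agent.FF19.Law.SqzFun
import Fermat.Agent.FF19.Law.N2Abs
import Fermat.Agent.FF19.Law.Extract
import Fermat.Agent.FF19.Law.Law
import Fermat.Agent.FF19.Law.CoordOfLaw
import Fermat.Agent.FF19.Law.ArchQ
import Fermat.Agent.FF19.Law.GEvSp
import Fermat.Agent.FF19.Law.GDisc
import Fermat.Agent.FF19.Law.GDivT
import Fermat.Agent.FF19.Law.GN2Geo
import Fermat.Agent.FF19.Law.GRegB
import Fermat.Agent.FF19.Law.GDivA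
import Fermat.Agent.FF19.Law.GRepPrin
import Fermat.Agent.FF19.Law.GGeo1
import Fermat.Agent.FF19.Law.GGeo2
import Fermat.Agent.FF19.Law.GGeo3
import Fermat.Agent.FF19.Law.GLatCoord
import Fermat.Agent.FF19.Law.GPt
import Fermat.Agent.FF19.Law.GPolyEE
import Fermat.Agent.FF19.Law.GFactsA
import Fermat.Agent.FF19.Law.GFactsG1
import Fermat.Agent.FF19.Law.GFactsG2
import Fermat.Agent.FF19.Law.GFactsG3
import Fermat.Agent.FF19.Law.GFacts
import Fermat.Agent.FF19.Law.GGeoCoord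
import Fermat.Agent.FF19.Law.GCoEx
import Fermat.Agent.FF19.A.All

/-!
# FF19 / Law : everything UNCONDITIONAL (blocks L, N, SQUEEZE; architect helper90)
-/

set_option autoImplicit false

namespace Fermat.Agent.FF19.Law

theorem all_Lag : Stmt_Lag := lag
theorem all_AdjFun : Stmt_AdjFun := adjFun
theorem all_SqzFun : Stmt_SqzFun := sqzFun
theorem all_N2Abs : Stmt_N2Abs := n2Abs all_Lag
theorem all_Extract : Stmt_Extract := extract
theorem all_Law : Stmt_Law := law all_AdjFun all_SqzFun all_Extract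
theorem all_CoordOfLaw : Stmt_CoordOfLaw := coordOfLaw
theorem all_ArchQ : Stmt_ArchQ := archQ
theorem all_EvSp : Stmt_EvSp := gEvSp A.all_Comb
theorem all_Disc : Stmt_Disc := gDisc A.all_Comb
theorem all_DivT : Stmt_DivT := gDivT
theorem all_N2Geo : Stmt_N2Geo := gN2Geo all_N2Abs all_Disc all_EvSp
theorem all_RegB : Stmt_RegB := gRegB
theorem all_DivA : Stmt_DivA := gDivA all_Disc all_DivT
theorem all_RepPrin : Stmt_RepPrin := gRepPrin
theorem all_Geo1 : Stmt_Geo1 := gGeo1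
theorem all_Geo2 : Stmt_Geo2 := gGeo2 all_DivA all_RepPrin A.all_LK
theorem all_Geo3 : Stmt_Geo3 := gGeo3 all_DivA all_Disc all_EvSp all_RegB A.all_Comb
theorem all_LatCoord : Stmt_LatCoord := gLatCoord
theorem all_Pt : Stmt_Pt := gPt all_Disc A.all_Ex A.all_Add
theorem all_PolyEE : Stmt_PolyEE := gPolyEE all_N2Geo all_Pt
theorem all_FactsA : Stmt_FactsA := gFactsA all_DivA all_LatCoord all_Pt all_PolyEE all_RegB
theorem all_FactsG1 : Stmt_FactsG1 := gFactsG1 all_Geo1 all_Pt all_PolyEE all_RegB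
theorem all_FactsG2 : Stmt_FactsG2 :=
  gFactsG2 all_Geo2 all_Disc all_LatCoord all_Pt all_PolyEE all_RegB
theorem all_FactsG3 : Stmt_FactsG3 :=
  gFactsG3 all_Geo3 all_Disc all_LatCoord all_Pt all_PolyEE all_RegB all_FactsA
theorem all_Facts : Stmt_Facts :=
  gFacts all_Pt all_PolyEE all_RegB all_FactsA all_FactsG1 all_FactsG2 all_FactsG3
theorem all_GeoCoord : Stmt_GeoCoord :=
  gGeoCoord all_Facts all_Law all_CoordOfLaw all_Pt all_DivA
theorem all_CoEx : Stmt_CoEx := gCoEx A.all_Uniq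

end Fermat.Agent.FF19.Law
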