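import Fermat.Agent.FF19.Law.GeoInterface

/-!
# FF19 / Law / Geo : FFG-6, the divisor of `∏ (t - c i) ∏ (t - c' i)` (`Stmt_DivA`)
-/

set_option autoImplicit false

noncomputable section

namespace Fermat.Agent.FF19.Law

open AlgebraicCurve Polynomial
open Fermat.Agent.INJ (RedData)
open Fermat.Agent.RED (Ev)
open Fermat.Agent.FF19.A (sumPl push IsDivOf SpData CurveFacts Base InJ1 Rep IsVal)

section GDivA

variable {K F : Type} [Field K] [Field F] [Algebra K F]

/-- `IsDivOf` is additive under finite products. -/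
theorem GDivA_isDivOf_prod {ι : Type} (S : Finset ι) (E : ι → Divisor K F) (f : ι → F)
    (h0 : ∀ a ∈ S, f a ≠ 0) (h : ∀ a ∈ S, IsDivOf (E a) (f a)) :
    IsDivOf (∑ a ∈ S, E a) (∏ a ∈ S, f a) := by
  classical
  induction S using Finset.induction_on with
  | empty =>
    intro P
    simp
  | insert a S ha ih =>
    intro P
    rw [Finset.sum_insert ha, Finset.prod_insert ha,
      Place.ord_mul P (h0 a (Finset.mem_insert_self a S))
        (Finset.prod_ne_zero_iff.2 fun b hb => h0 b (Finset.mem_insert_of_mem hb)),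
      Finsupp.add_apply, h a (Finset.mem_insert_self a S) P,
      ih (fun b hb => h0 b (Finset.mem_insert_of_mem hb))
        (fun b hb => h b (Finset.mem_insert_of_mem hb)) P]

/-- the sum of the points of an injective family is the indicator function of its range. -/
theorem GDivA_sum_single {ι α : Type} [Fintype ι] (f : ι → α) (hf : Function.Injective f) (R : α) :
    (((∑ x, Finsupp.single (f x) (1 : ℤ) : α →₀ ℤ) R = 0) ∨
      ((∑ x, Finsupp.single (f x) (1 : ℤ) : α →₀ ℤ) R = 1)) ∧
    ((∑ x, Finsupp.single (f x) (1 : ℤ) : α →₀ ℤ) R = 1 ↔ ∃ x, f x = R) := by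
  classical
  rw [Finsupp.finset_sum_apply]
  by_cases h : ∃ x, f x = R
  · obtain ⟨x0, hx0⟩ := h
    have h1 : ∑ x, (Finsupp.single (f x) (1 : ℤ)) R = 1 := by
      rw [Finset.sum_eq_single x0]
      · rw [hx0, Finsupp.single_eq_same]
      · intro b _ hb
        rw [Finsupp.single_apply, if_neg]
        intro hbR
        exact hb (hf (hbR.trans hx0.symm))
      · intro hx
        exact absurd (Finset.mem_univ x0) hx
    rw [h1]
    exact ⟨Or.inr rfl, fun _ => ⟨x0, hx0⟩, fun _ => rfl⟩
  · have h1 : ∑ x, (Finsupp.single (f x) (1 : ℤ)) R = 0 := by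
      refine Finset.sum_eq_zero fun x _ => ?_
      rw [Finsupp.single_apply, if_neg]
      intro hx
      exact h ⟨x, hx⟩
    rw [h1]
    exact ⟨Or.inl rfl, fun h0 => absurd h0 (by norm_num), fun h' => absurd h' h⟩

end GDivA

theorem gDivA (hD : Stmt_Disc) (hT : Stmt_DivT) : Stmt_DivA := by
  classical
  intro K F k κ _ _ _ _ _ _ D sp g s t Einf w w' cb cb' P0 Q0 G P Q c c' hP hQ hc hc'
  -- the combined system, indexed by `Fin g ⊕ Fin g`
  set W : Fin g ⊕ Fin g → Fin (s + 1) → Place k κ := Sum.elim w w' with hW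
  set CB : Fin g ⊕ Fin g → k := Sum.elim cb cb' with hCB
  set C : Fin g ⊕ Fin g → K := Sum.elim c c' with hC
  set PP : Fin g ⊕ Fin g → Place K F := Sum.elim P Q with hPP
  have hreg : ∀ a l (R : Place K F), sp R = W a l → ∃ e ∈ D.A, Ev R t e ∧ D.ra e = CB a := by
    rintro (i | i) l R hR
    · exact G.fib.reg i l R hR
    · exact G.fib'.reg i l R hR
  have hunr : ∀ a l, (W a l).ord (D.rd t - algebraMap k κ (CB a)) = 1 := by
    rintro (i | i) l
    · exact G.fib.unr i l
    · exact G.fib'.unr i l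
  have hinj : ∀ a, Function.Injective (W a) := by
    rintro (i | i)
    · exact G.fib.inj i
    · exact G.fib'.inj i
  have hspP : ∀ a, sp (PP a) = W a 0 := by
    rintro (i | i)
    · exact hP i
    · exact hQ i
  have hval : ∀ a, Ev (PP a) t (C a) := by
    rintro (i | i)
    · exact hc i
    · exact hc' i
  -- the values
  have hCA : ∀ a, C a ∈ D.A ∧ D.ra (C a) = CB a := by
    intro a
    obtain ⟨e, he, hev, hra⟩ := hreg a 0 (PP a) (hspP a)
    have := Fermat.Agent.RED.ev_unique hev (hval a)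
    subst this
    exact ⟨he, hra⟩
  -- the factors
  have hfO : ∀ a, t - algebraMap K F (C a) ∈ D.O := fun a =>
    sub_mem G.t_mem (RedData.algebraMap_mem (hCA a).1)
  have hfrd : ∀ a, D.rd (t - algebraMap K F (C a)) ≠ 0 := by
    intro a h0
    rw [RedData.rd_sub G.t_mem (RedData.algebraMap_mem (hCA a).1),
      RedData.rd_algebraMap (hCA a).1, (hCA a).2] at h0
    have h1 := hunr a 0
    rw [h0, Place.ord_zero] at h1
    exact zero_ne_one h1
  have hf0 : ∀ a, t - algebraMap K F (C a) ≠ 0 := by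
    intro a h0
    apply hfrd a
    rw [h0, RedData.rd_zero]
  -- the product
  have haa : aa t c c' = ∏ a, (t - algebraMap K F (C a)) := by
    rw [Fintype.prod_sum_type]
    rfl
  -- the points of the fibres
  have hpts : ∀ a l, ∃ R : Place K F, sp R = W a l ∧ Ev R t (C a) ∧
      ∀ R' : Place K F, sp R' = W a l → Ev R' t (C a) → R' = R := by
    intro a l
    obtain ⟨R, h1, h2, _, h4⟩ := hD K F k κ D sp g G.spd G.cf t (W a l) (CB a) G.t_mem
      (hreg a l) (hunr a l) (C a) (hCA a).1 (hCA a).2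
    exact ⟨R, h1, h2, h4⟩
  choose R hRsp hRev hRuniq using hpts
  have hR0 : ∀ a, R a 0 = PP a := fun a => (hRuniq a 0 (PP a) (hspP a) (hval a)).symm
  have hRinj : ∀ a, Function.Injective (R a) := by
    intro a l l' hll
    apply hinj a
    rw [← hRsp a l, ← hRsp a l', hll]
  have hdiv : ∀ a, IsDivOf (sumPl (R a) - Einf) (t - algebraMap K F (C a)) := fun a =>
    hT K F g G.cf t (s + 1) Einf G.pole (C a) (R a) (hRinj a) (hRev a) (hf0 a)
  have hdivAll : IsDivOf (∑ a, (sumPl (R a) - Einf)) (aa t c c') := by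
    rw [haa]
    exact GDivA_isDivOf_prod Finset.univ _ _ (fun a _ => hf0 a) (fun a _ => hdiv a)
  -- the other points
  set f : (Fin g ⊕ Fin g) × Fin s → Place K F := fun x => R x.1 x.2.succ with hf
  have hfinj : Function.Injective f := by
    rintro ⟨a, l⟩ ⟨a', l'⟩ hx
    have hx' : R a l.succ = R a' l'.succ := hx
    have haa' : a = a' := by
      apply G.cb_inj
      have h1 := hRev a l.succ
      rw [hx'] at h1
      have h2 := Fermat.Agent.RED.ev_unique h1 (hRev a' l'.succ)
      have h3 : CB a = CB a' := by rw [← (hCA a).2, ← (hCA a').2, h2]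
      exact h3
    subst haa'
    have := Fin.succ_injective _ (hRinj a hx')
    subst this
    rfl
  refine ⟨?_, ?_, ?_, ∑ x, Finsupp.single (f x) (1 : ℤ), ?_, ?_⟩
  · rw [haa]
    exact Finset.prod_ne_zero_iff.2 fun a _ => hf0 a
  · rw [haa]
    exact RedData.prod_mem _ _ fun a _ => hfO a
  · rw [haa, RedData.rd_prod _ _ fun a _ => hfO a]
    exact Finset.prod_ne_zero_iff.2 fun a _ => hfrd a
  · have hE : sumPl P + sumPl Q + ∑ x, Finsupp.single (f x) (1 : ℤ) - (2 * g : ℤ) • Einf =
        ∑ a, (sumPl (R a) - Einf) := by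
      rw [Finset.sum_sub_distrib]
      congr 1
      · have h1 : ∀ a, sumPl (R a) = Finsupp.single (PP a) (1 : ℤ) +
            ∑ l : Fin s, Finsupp.single (R a l.succ) (1 : ℤ) := by
          intro a
          unfold sumPl
          rw [Fin.sum_univ_succ, hR0 a]
        have hPQ : sumPl P + sumPl Q = ∑ a, Finsupp.single (PP a) (1 : ℤ) := by
          rw [Fintype.sum_sum_type]
          rfl
        rw [Finset.sum_congr rfl fun a _ => h1 a, Finset.sum_add_distrib, Fintype.sum_prod_type,
          hPQ]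
      · rw [Finset.sum_const, Finset.card_univ, Fintype.card_sum, Fintype.card_fin,
          ← natCast_zsmul]
        congr 1
        push_cast
        ring
    rw [hE]
    exact hdivAll
  · intro R'
    obtain ⟨h1, h2⟩ := GDivA_sum_single f hfinj R'
    refine ⟨h1, h2.trans ⟨?_, ?_⟩⟩
    · rintro ⟨⟨a | a, l⟩, rfl⟩
      · exact Or.inl ⟨a, l, hRsp (Sum.inl a) l.succ, hRev (Sum.inl a) l.succ⟩
      · exact Or.inr ⟨a, l, hRsp (Sum.inr a) l.succ, hRev (Sum.inr a) l.succ⟩
    · rintro (⟨i, l, h3, h4⟩ | ⟨i, l, h3, h4⟩)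
      · exact ⟨(Sum.inl i, l), (hRuniq (Sum.inl i) l.succ R' h3 h4).symm⟩
      · exact ⟨(Sum.inr i, l), (hRuniq (Sum.inr i) l.succ R' h3 h4).symm⟩

end Fermat.Agent.FF19.Law

end
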