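import Fermat.Agent.FF19.Law.Interface
import Fermat.Agent.FF19.A.Interface
import Fermat.Agent.RED.EvBasic

/-!
# FF19 / Law / Geo : the GEOMETRIC layer of the block LAW (architect helper90)

Language = block A (helper36): `D : INJ.RedData K F k κ`, `sp : Place K F → Place k κ`, `A.SpData`,
`A.CurveFacts`, `A.Base`, `A.InJ1`, `A.Rep`, `A.IsVal`, `RED.Ev`.

`GeoData` = EVERYTHING the blocks G0 / NS / KAP have to deliver for LAW:
* `t ∈ W`, `(SP)`, the facts on the generic curve,
* `Einf = (t)_∞` has degree `s + 1`,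
* two systems of `g` fibres of `t̄` : `w i l`, `w' i l` (`l : Fin (s+1)`) = the `s + 1` DISTINCT points over
  `cb i`, `cb' i`, all `2 g` values distinct; `t` is regular on the residue discs of these points, with values
  reducing to `cb i`; `t̄ - cb i` is a uniformiser at them,
* `∑ w i 0`, `∑ w' i 0` are non special, `P0 i`, `Q0 i` are places above them,
* orthonormal bases of `L(2 g (t)_∞ - ∑ Q0 i)` and of `L(2 g (t)_∞ - ∑ P0 i)`.

OUTPUT : `Stmt_GeoCoord : GeoData → Law.Coord D.A (J1 sp) (Sum.elim T T')`.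
-/

set_option autoImplicit false

noncomputable section

namespace Fermat.Agent.FF19.Law

open AlgebraicCurve Polynomial
open Fermat.Agent.INJ (RedData)
open Fermat.Agent.RED (Ev)
open Fermat.Agent.FF19.A (sumPl push IsDivOf SpData CurveFacts Base InJ1 Rep IsVal)

variable {K F k κ : Type} [Field K] [Field F] [Algebra K F] [Field k] [Field κ] [Algebra k κ]

open Classical in
/-- the value of `f` at `P` (junk value `0`). -/
def val (P : Place K F) (f : F) : K := if h : ∃ c, Ev P f c then h.choose else 0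

theorem val_eq {P : Place K F} {f : F} {c : K} (h : Ev P f c) : val P f = c := by
  have h' : ∃ c, Ev P f c := ⟨c, h⟩
  rw [val, dif_pos h']
  exact Fermat.Agent.RED.ev_unique h'.choose_spec h

open Classical in
/-- the point of the residue disc of `y` where `t = c` (junk value `R`). -/
def pt (sp : Place K F → Place k κ) (t : F) (y : Place k κ) (c : K) (R : Place K F) : Place K F :=
  if h : ∃ P, sp P = y ∧ Ev P t c then h.choose else R

theorem pt_spec {sp : Place K F → Place k κ} {t : F} {y : Place k κ} {c : K} (R : Place K F)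
    (h : ∃ P, sp P = y ∧ Ev P t c) : sp (pt sp t y c R) = y ∧ Ev (pt sp t y c R) t c := by
  rw [pt, dif_pos h]
  exact h.choose_spec

/-- `Einf` is the divisor of poles of `t`; it has degree `n`. -/
structure PoleDiv (t : F) (n : ℕ) (Einf : Divisor K F) : Prop where
  val : ∀ P : Place K F, Einf P = max 0 (-(P.ord t))
  deg : Divisor.degree Einf = n

/-- `g` unramified fibres of `t̄`. -/
structure Fibres (D : RedData K F k κ) (sp : Place K F → Place k κ) (t : F) {g s : ℕ}
    (w : Fin g → Fin (s + 1) → Place k κ) (cb : Fin g → k) : Prop where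
  reg : ∀ i l (P : Place K F), sp P = w i l → ∃ c ∈ D.A, Ev P t c ∧ D.ra c = cb i
  unr : ∀ i l, (w i l).ord (D.rd t - algebraMap k κ (cb i)) = 1
  inj : ∀ i, Function.Injective (w i)

/-- `b` is an orthonormal basis of `L(E)`. -/
structure IsLat (D : RedData K F k κ) (E : Divisor K F) {N : ℕ} (b : Fin N → F) : Prop where
  mem : ∀ j, b j ∈ riemannRochSpace E
  int : ∀ j, b j ∈ D.O
  indep : LinearIndependent k (fun j => D.rd (b j))
  span : ∀ f ∈ riemannRochSpace E, ∃ γ : Fin N → K, f = ∑ j, γ j • b j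

/-- **THE CONTRACT WITH G0 / NS / KAP.** -/
structure GeoData (D : RedData K F k κ) (sp : Place K F → Place k κ) (g s : ℕ) (t : F)
    (Einf : Divisor K F) (w w' : Fin g → Fin (s + 1) → Place k κ) (cb cb' : Fin g → k)
    (P0 Q0 : Fin g → Place K F) : Prop where
  t_mem : t ∈ D.O
  spd : SpData D sp
  cf : CurveFacts K F g
  pole : PoleDiv t (s + 1) Einf
  fib : Fibres D sp t w cb
  fib' : Fibres D sp t w' cb'
  cb_inj : Function.Injective (Sum.elim cb cb')
  base : Base sp (fun i => w i 0) P0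
  base' : Base sp (fun i => w' i 0) Q0
  lat : ∃ (N : ℕ) (b : Fin N → F), IsLat D ((2 * g : ℤ) • Einf - sumPl Q0) b
  lat' : ∃ (N : ℕ) (b : Fin N → F), IsLat D ((2 * g : ℤ) • Einf - sumPl P0) b

/-- the kernel of reduction, as a subgroup. -/
def J1 (sp : Place K F → Place k κ) : AddSubgroup (Pic0 K F) :=
  (((Finsupp.mapDomain.addMonoidHom sp : Divisor K F →+ Divisor k κ).ker).addSubgroupOf
    (Divisor.degZero (K := K) (F := F))).map (QuotientAddGroup.mk' _)

theorem mem_J1 {sp : Place K F → Place k κ} {z : Pic0 K F} : z ∈ J1 sp ↔ InJ1 sp z := by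
  constructor
  · rintro ⟨E, hE, rfl⟩
    exact ⟨E, hE, rfl⟩
  · rintro ⟨E, hE, rfl⟩
    exact ⟨E, hE, rfl⟩

/-- `T` is the system of coordinates attached to `(x, P0, t)`: `T i z = t (P_i(z)) - t (P0 i)`. -/
def IsCo (sp : Place K F → Place k κ) {g : ℕ} (x : Fin g → Place k κ) (P0 : Fin g → Place K F) (t : F)
    (T : Fin g → Pic0 K F → K) : Prop :=
  ∀ (z : Pic0 K F) (P : Fin g → Place K F) (c c0 : Fin g → K), Rep sp x P0 z P → IsVal t P c →
    IsVal t P0 c0 → ∀ i, T i z = c i - c0 i

/-- `∏ (t - c i) ∏ (t - c' i)`. -/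
def aa {g : ℕ} (t : F) (c c' : Fin g → K) : F :=
  (∏ i, (t - algebraMap K F (c i))) * ∏ i, (t - algebraMap K F (c' i))

/-- `b_j` at the point of the disc of `w i l` in the fibre of `t` through `P_i(z)`. -/
def EE (sp : Place K F → Place k κ) (t : F) {g s N : ℕ} (w : Fin g → Fin (s + 1) → Place k κ)
    (P0 : Fin g → Place K F) (c0 : Fin g → K) (T : Fin g → Pic0 K F → K) (b : Fin N → F)
    (i : Fin g) (l : Fin (s + 1)) (j : Fin N) (z : Pic0 K F) : K :=
  val (pt sp t (w i l) (T i z + c0 i) (P0 i)) (b j)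

/-- `(a⁰ / τ_i) (P_i(z))`. -/
def VV {g : ℕ} (c0 c0' : Fin g → K) (T : Fin g → Pic0 K F → K) (i : Fin g) (z : Pic0 K F) : K :=
  (∏ i' ∈ Finset.univ.erase i, (T i z + c0 i - c0 i')) * ∏ i', (T i z + c0 i - c0' i')

/-- the complete context of the proof of `LawFacts`. -/
structure Ctx (D : RedData K F k κ) (sp : Place K F → Place k κ) (g s : ℕ) (t : F)
    (Einf : Divisor K F) (w w' : Fin g → Fin (s + 1) → Place k κ) (cb cb' : Fin g → k)
    (P0 Q0 : Fin g → Place K F) (c0 c0' : Fin g → K) (T T' : Fin g → Pic0 K F → K) (N : ℕ)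
    (b : Fin N → F) (α : Fin N → K) : Prop where
  geo : GeoData D sp g s t Einf w w' cb cb' P0 Q0
  arch : Arch D.A
  v0 : IsVal t P0 c0
  v0' : IsVal t Q0 c0'
  co : IsCo sp (fun i => w i 0) P0 t T
  co' : IsCo sp (fun i => w' i 0) Q0 t T'
  lat : IsLat D ((2 * g : ℤ) • Einf - sumPl Q0) b
  alpha : aa t c0 c0' = ∑ j, α j • b j

end Fermat.Agent.FF19.Law

end
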