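import Fermat.Agent.FF19.Law.Interface

/-!
# FF19 / Law : (FFL-1) LAGRANGE interpolation over a valuation subring (task 1765, helper76)
-/

set_option autoImplicit false

noncomputable section

namespace Fermat.Agent.FF19.Law

open Polynomial

theorem lag : Stmt_Lag := by
  intro K _ A S _ _ ρ hρ hinj
  classical
  -- the values as elements of `A`
  set r : S → A := fun P => ⟨ρ P, hρ P⟩ with hr
  have hrc : ∀ P, ((r P : A) : K) = ρ P := fun P => rfl
  -- `n P = ∏_{P' ≠ P} (ρ P - ρ P')`
  set n : S → A := fun P => ∏ P' ∈ Finset.univ.erase P, (r P - r P') with hn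
  set e : S → A := fun P => ∏ Q ∈ Finset.univ.erase P, n Q with he
  set d : A := ∏ P, n P with hd
  have hde : ∀ P, d = n P * e P := fun P =>
    (Finset.mul_prod_erase Finset.univ n (Finset.mem_univ P)).symm
  have hrinj : Function.Injective r := by
    intro P Q h
    exact hinj (congrArg (fun a : A => (a : K)) h)
  have hn0 : ∀ P, n P ≠ 0 := by
    intro P
    refine Finset.prod_ne_zero_iff.2 ?_
    intro P' hP'
    have : P' ≠ P := (Finset.mem_erase.1 hP').1
    exact sub_ne_zero.2 (fun h => this (hrinj h).symm)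
  have hd0 : d ≠ 0 := Finset.prod_ne_zero_iff.2 (fun P _ => hn0 P)
  refine ⟨(d : K), ?_, ?_⟩
  · intro h
    exact hd0 (Subtype.ext h)
  · intro ψ hψ
    set s : S → A := fun P => ⟨ψ P, hψ P⟩ with hs
    refine ⟨∑ P, C (s P * e P) * ∏ P' ∈ Finset.univ.erase P, (X - C (r P')), ?_⟩
    intro P0
    have hev : ∀ P, aeval (ρ P0) (C (s P * e P) * ∏ P' ∈ Finset.univ.erase P, (X - C (r P')))
        = ((s P * e P : A) : K) * ∏ P' ∈ Finset.univ.erase P, (ρ P0 - ρ P') := by
      intro P
      rw [map_mul, map_prod, aeval_C]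
      congr 1
      refine Finset.prod_congr rfl ?_
      intro P' _
      rw [map_sub, aeval_X, aeval_C]
      rfl
    rw [map_sum, Finset.sum_congr rfl (fun P _ => hev P),
      Finset.sum_eq_single P0]
    · rw [hde P0]
      have h1 : ((n P0 : A) : K) = ∏ P' ∈ Finset.univ.erase P0, (ρ P0 - ρ P') := by
        simp only [hn]
        push_cast
        rfl
      push_cast
      rw [h1]
      have h2 : ((s P0 : A) : K) = ψ P0 := rfl
      rw [h2]
      ring
    · intro P _ hP
      have : ∏ P' ∈ Finset.univ.erase P, (ρ P0 - ρ P') = 0 :=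
        Finset.prod_eq_zero (Finset.mem_erase.2 ⟨fun h => hP h.symm, Finset.mem_univ P0⟩)
          (sub_self _)
      rw [this, mul_zero]
    · intro h
      exact absurd (Finset.mem_univ P0) h

end Fermat.Agent.FF19.Law

end
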