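import Fermat.Agent.FF19.Law.All
import Fermat.Agent.FF19.A.GeoOut

/-!
# FF19 / Law : OUTPUT for `A.GeoPack` / `Top.Stmt_Geo` (helper90)

`Law.GeoData` (block GD) gives the fields `spData`, `curve`, `base`, `coord`, `law` of `A.GeoPack`, with
`x c = bif c then (w · 0) else (w' · 0)`, `P0 c = bif c then P0 else Q0`, `cb c = bif c then cb else cb'`.
-/

set_option autoImplicit false

noncomputable section

namespace Fermat.Agent.FF19.Law

open AlgebraicCurve
open Fermat.Agent.INJ (RedData)
open Fermat.Agent.RED (Ev)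
open Fermat.Agent.FF19.A (sumPl push IsDivOf SpData CurveFacts Base InJ1 Rep IsVal)

variable {K F k κ : Type} [Field K] [Field F] [Algebra K F] [Field k] [Field κ] [Algebra k κ]

theorem Out_J1_eq (sp : Place K F → Place k κ) : J1 sp = A.J1sub sp := by
  ext z
  rw [mem_J1, A.mem_J1sub]

/-- one half of `A.LawHyp`. -/
theorem Out_half {D : RedData K F k κ} {sp : Place K F → Place k κ} {g s : ℕ} {t : F}
    {Einf : Divisor K F} {w w' : Fin g → Fin (s + 1) → Place k κ} {cb cb' : Fin g → k}
    {P0 Q0 : Fin g → Place K F} (hArch : Arch D.A)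
    (hG : GeoData D sp g s t Einf w w' cb cb' P0 Q0) (val : Place K F → K)
    (hval : ∀ i P, sp P = w i 0 → Ev P t (val P)) (hval' : ∀ i P, sp P = w' i 0 → Ev P t (val P)) :
    ∃ T T' : Fin g → Pic0 K F → K,
      (∀ z P i, Rep sp (fun i => w i 0) P0 z P → T i z = val (P i) - val (P0 i)) ∧
      (∀ z P i, Rep sp (fun i => w' i 0) Q0 z P → T' i z = val (P i) - val (Q0 i)) ∧
      LawConcl D.A (A.J1sub sp) g T T' := by
  obtain ⟨T, hT⟩ := all_CoEx K F k κ D sp g (fun i => w i 0) P0 t hG.spd hG.cf hG.base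
  obtain ⟨T', hT'⟩ := all_CoEx K F k κ D sp g (fun i => w' i 0) Q0 t hG.spd hG.cf hG.base'
  have v0 : IsVal t P0 (fun i => val (P0 i)) := fun i => hval i _ (hG.base.sp0 i)
  have v0' : IsVal t Q0 (fun i => val (Q0 i)) := fun i => hval' i _ (hG.base'.sp0 i)
  refine ⟨T, T', ?_, ?_, ?_⟩
  · intro z P i hR
    exact hT z P (fun i => val (P i)) _ hR (fun i => hval i _ (hR.1 i)) v0 i
  · intro z P i hR
    exact hT' z P (fun i => val (P i)) _ hR (fun i => hval' i _ (hR.1 i)) v0' i
  · rw [← Out_J1_eq]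
    exact GGeoCoord_half all_Facts all_Law all_DivA hArch hG hT hT' v0 v0'

/-- **the geometric fields of `A.GeoPack` from `Law.GeoData`.** -/
theorem out_pack {D : RedData K F k κ} {sp : Place K F → Place k κ} {g s : ℕ} {t : F}
    {Einf : Divisor K F} {w w' : Fin g → Fin (s + 1) → Place k κ} {cb cb' : Fin g → k}
    {P0 Q0 : Fin g → Place K F} (hArch : Arch D.A)
    (hG : GeoData D sp g s t Einf w w' cb cb' P0 Q0) (val : Place K F → K)
    (hval : ∀ i P, sp P = w i 0 → Ev P t (val P)) (hval' : ∀ i P, sp P = w' i 0 → Ev P t (val P)) :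
    (∀ c : Bool, Base sp (bif c then (fun i => w i 0) else (fun i => w' i 0))
      (bif c then P0 else Q0)) ∧
    (∀ c : Bool, A.Coord D sp (bif c then (fun i => w i 0) else (fun i => w' i 0)) t
      (bif c then cb else cb')) ∧
    (∀ (c : Bool) i P, sp P = (bif c then (fun i => w i 0) else (fun i => w' i 0)) i →
      Ev P t (val P)) ∧
    A.LawHyp D sp (fun c : Bool => bif c then (fun i => w i 0) else (fun i => w' i 0))
      (fun c : Bool => bif c then P0 else Q0) val := by
  refine ⟨?_, ?_, ?_, ?_⟩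
  · rintro (_ | _)
    · exact hG.base'
    · exact hG.base
  · rintro (_ | _)
    · exact ⟨hG.t_mem, fun i P h => hG.fib'.reg i 0 P h, fun i => hG.fib'.unr i 0⟩
    · exact ⟨hG.t_mem, fun i P h => hG.fib.reg i 0 P h, fun i => hG.fib.unr i 0⟩
  · rintro (_ | _) i P h
    · exact hval' i P h
    · exact hval i P h
  · rintro (_ | _)
    · exact Out_half hArch (GGeoCoord_swap hG) val hval' hval
    · exact Out_half hArch hG val hval hval'

end Fermat.Agent.FF19.Law

end
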